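import Fermat.Agent.ModField.Congruence.Pic
import Fermat.Agent.Frob.Reduction
import Fermat.Agent.Deform.Frobenius
import Fermat.Prelude.Def_ModularCurve_HeckeModule

/-!
# Good reduction of `J₀(N)` at a place above a prime not dividing `N`

Conditional on the reduction inputs and the equality of genera.
-/

set_option autoImplicit false
set_option linter.style.haveILetI false
set_option linter.unusedSectionVars false
set_option synthInstance.maxHeartbeats 400000
set_option maxHeartbeats 1600000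

noncomputable section

namespace FA.ModField

open ModularCurve AlgebraicCurve
open scoped Pointwise

local notation "AQ" => AlgebraicClosure ℚ
local notation "GQ" => AlgebraicClosure ℚ ≃ₐ[ℚ] AlgebraicClosure ℚ

/-- The inputs of good reduction at `A`. -/
def GoodRedInputs (N : ℕ) [NeZero N] (A : ValuationSubring AQ) : Prop :=
  ReductionInputsModL A N ∧
    FA.Curve.genus AQ (modularFunctionFieldBar N) ≤
      FA.Curve.genus (IsLocalRing.ResidueField A)
        (modularFunctionFieldFullC (IsLocalRing.ResidueField A) N)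

theorem inducesOn_inertia {A : ValuationSubring AQ} {σ : GQ} (hσ : σ ∈ A.inertiaSubgroupIn ℚ) :
    InducesOn AQ (IsLocalRing.residue A) σ (RingHom.id _) := by
  obtain ⟨s, hs, rfl⟩ := hσ
  intro a
  refine ⟨s • a, rfl, ?_⟩
  rw [RingHom.id_apply, IsLocalRing.ResidueField.residue_smul]
  exact RingHom.congr_fun (congrArg RingEquiv.toRingHom (MonoidHom.mem_ker.1 hs)) _

theorem inducesOn_frobenius {A : ValuationSubring AQ} {ℓ : ℕ} [Fact ℓ.Prime]
    [CharP (IsLocalRing.ResidueField A) ℓ] {σ : GQ} (hσ : A.IsFrobeniusAt σ ℓ) :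
    InducesOn AQ (IsLocalRing.residue A) σ (frobenius (IsLocalRing.ResidueField A) ℓ) := by
  intro a
  refine ⟨(⟨σ, hσ.mem_decompositionSubgroup⟩ : A.decompositionSubgroup ℚ) • a, rfl, ?_⟩
  rw [IsLocalRing.ResidueField.residue_smul, hσ.smul_residue_eq, frobenius_def]

theorem nsmul_gal {N : ℕ} (m : ℕ) (σ : GQ) (x : JZero N) : m • (σ • x) = σ • (m • x) :=
  (map_nsmul (DistribSMul.toAddMonoidHom (JZero N) σ) m x).symm

theorem gal_zero {N : ℕ} (σ : GQ) : σ • (0 : JZero N) = 0 :=
  map_zero (DistribSMul.toAddMonoidHom (JZero N) σ)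

variable (N : ℕ) [NeZero N] {ℓ : ℕ} [hℓ : Fact ℓ.Prime] {A : ValuationSubring AQ}

theorem residueAt_charP (hA : A.LiesOverPrime ℓ) : CharP (IsLocalRing.ResidueField A) ℓ :=
  FA.Frob.residueField_charP A hℓ.out hA

theorem residueAt_eq_zero (a : A) :
    IsLocalRing.residue A a = 0 ↔ A.valuation a < 1 := by
  rw [IsLocalRing.residue_eq_zero_iff, ← A.valuation_lt_one_iff]

theorem valuation_natCast_eq_one (hA : A.LiesOverPrime ℓ) {m : ℕ} (hm : ¬ ℓ ∣ m) :
    A.valuation (m : AQ) = 1 := by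
  haveI := residueAt_charP hA
  have h : IsUnit (m : A) := by
    rw [← IsLocalRing.residue_ne_zero_iff_isUnit, map_natCast]
    exact fun h => hm ((CharP.cast_eq_zero_iff _ ℓ m).1 h)
  simpa using (A.valuation_eq_one_iff (m : A)).1 h

variable (hℓN : ¬ ℓ ∣ N) (hA : A.LiesOverPrime ℓ) (hin : GoodRedInputs N A)

include hℓN hA hin

theorem reductionModL_inertia {σ : GQ} (hσ : σ ∈ A.inertiaSubgroupIn ℚ) (x : JZero N) :
    reductionModL A N (σ • x) = reductionModL A N x := by
  haveI : Algebra.IsAlgebraic ℚ AQ := AlgebraicClosure.isAlgebraic ℚ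
  letI : Algebra AQ ℂ := (IsAlgClosed.lift (R := ℚ) (S := AQ) (M := ℂ)).toRingHom.toAlgebra
  haveI := residueAt_charP hA
  haveI : IsAlgClosed (IsLocalRing.ResidueField A) := FA.Frob.residueField_isAlgClosed A
  exact reductionAlong_gal_inertia N AQ ℓ hℓN IsLocalRing.residue_surjective
    residueAt_eq_zero hin.1 hin.2 (inducesOn_inertia hσ) x

theorem reductionModL_frobenius {σ : GQ} (hσ : A.IsFrobeniusAt σ ℓ) (x : JZero N) :
    reductionModL A N (heckeOperatorAlong AQ N ℓ (σ • x)) =
      reductionModL A N (σ • σ • x) + ℓ • reductionModL A N x := by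
  haveI : Algebra.IsAlgebraic ℚ AQ := AlgebraicClosure.isAlgebraic ℚ
  letI : Algebra AQ ℂ := (IsAlgClosed.lift (R := ℚ) (S := AQ) (M := ℂ)).toRingHom.toAlgebra
  haveI := residueAt_charP hA
  haveI : IsAlgClosed (IsLocalRing.ResidueField A) := FA.Frob.residueField_isAlgClosed A
  exact reductionAlong_congruence N AQ ℓ hℓN IsLocalRing.residue_surjective
    residueAt_eq_zero hin.1 hin.2 (inducesOn_frobenius hσ) x

theorem eq_zero_of_reductionModL {m : ℕ} (hm : ¬ ℓ ∣ m) {x : JZero N} (hx : m • x = 0)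
    (h0 : reductionModL A N x = 0) : x = 0 := by
  haveI := residueAt_charP hA
  haveI : IsAlgClosed (IsLocalRing.ResidueField A) := FA.Frob.residueField_isAlgClosed A
  exact FA.CurveRed.eq_zero_of_reductionAlong_eq_zero IsLocalRing.residue_surjective
    residueAt_eq_zero hin.2 hin.1
    (fun h => hm (by rw [h]; exact dvd_zero ℓ)) (valuation_natCast_eq_one hA hm) x hx h0

/-- Inertia fixes torsion prime to `ℓ`. -/
theorem inertia_smul_torsion {σ : GQ} (hσ : σ ∈ A.inertiaSubgroupIn ℚ) {m : ℕ} (hm : ¬ ℓ ∣ m)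
    {x : JZero N} (hx : m • x = 0) : σ • x = x := by
  refine sub_eq_zero.1 (eq_zero_of_reductionModL N hℓN hA hin hm ?_ ?_)
  · rw [nsmul_sub, nsmul_gal, hx, gal_zero, sub_self]
  · rw [map_sub, reductionModL_inertia N hℓN hA hin hσ, sub_self]

/-- The Eichler–Shimura relation on torsion prime to `ℓ`. -/
theorem frobenius_smul_torsion {σ : GQ} (hσ : A.IsFrobeniusAt σ ℓ) {m : ℕ} (hm : ¬ ℓ ∣ m)
    {x : JZero N} (hx : m • x = 0) :
    σ • σ • x - heckeOperatorAlong AQ N ℓ (σ • x) + ℓ • x = 0 := by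
  refine eq_zero_of_reductionModL N hℓN hA hin hm ?_ ?_
  · have h1 : m • (σ • σ • x) = 0 := by
      rw [nsmul_gal, nsmul_gal, hx, gal_zero, gal_zero]
    have h2 : m • heckeOperatorAlong AQ N ℓ (σ • x) = 0 := by
      rw [← map_nsmul, nsmul_gal, hx, gal_zero, map_zero]
    rw [nsmul_add, nsmul_sub, h1, h2, ← mul_nsmul', mul_comm, mul_nsmul', hx, nsmul_zero, sub_self,
      add_zero]
  · rw [map_add, map_sub, map_nsmul, reductionModL_frobenius N hℓN hA hin hσ,
      ← sub_sub, sub_self, zero_sub, neg_add_cancel]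

omit hℓN hA hin

end FA.ModField
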