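import Fermat.Agent.ModField.Congruence.Galois

/-!
# The congruence relation on clean divisors of the level `N` curve
-/

set_option autoImplicit false
set_option linter.style.haveILetI false
set_option linter.unusedSectionVars false
set_option synthInstance.maxHeartbeats 200000
set_option maxHeartbeats 1600000

noncomputable section

namespace FA.ModField

open ModularCurve AlgebraicCurve FA.Level FA.Curve FA.CurveRed

variable (N : ℕ) [NeZero N] (L : Type) [Field L] [Algebra ℚ L] [Algebra L ℂ] [IsAlgClosed L]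
variable (ℓ : ℕ) [hℓ : Fact ℓ.Prime] (hℓN : ¬ ℓ ∣ N)
variable {A : ValuationSubring L} {k : Type} [Field k] [IsAlgClosed k] [CharP k ℓ] {π : A →+* k}
  (hπs : Function.Surjective π) (hπ0 : ∀ a : A, π a = 0 ↔ A.valuation a < 1)
  (h : ReductionInputsAlong A π N)

section Down

variable (k)

/-- A regular place determined by the values of the generators. -/
def IsSep (Q : Place k (modularFunctionFieldFullC k N)) : Prop :=
  AtLeast Q 0 (redGen N k 0) ∧ ∀ Q' : Place k (modularFunctionFieldFullC k N),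
    (∀ i, ∃ c, HasValue Q (redGen N k i) c ∧ HasValue Q' (redGen N k i) c) → Q' = Q

theorem finite_not_isSep : {Q | ¬ IsSep N k Q}.Finite := by
  have hk := isFunctionField_fullC k N
  obtain ⟨S, hS, hsep⟩ := finite_not_separated hk (redGen N k) (redGen_fractions N k)
    (i₀ := 0) (redGen_zero_transcendental N)
  refine (hS.union (finite_not_mem hk (redGen N k 0))).subset fun Q hQ => ?_
  by_contra hno
  rw [Set.mem_union, not_or, Set.mem_setOf_eq, not_not] at hno
  exact hQ ⟨atLeast_zero_iff_mem.2 hno.2, hsep Q hno.1⟩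

variable {k}

theorem IsSep.eq {Q Q' : Place k (modularFunctionFieldFullC k N)} (hQ : IsSep N k Q)
    {u : Fin N → k} (hu : ∀ i, HasValue Q (redGen N k i) (u i))
    (hu' : ∀ i, HasValue Q' (redGen N k i) (u i)) : Q' = Q :=
  hQ.2 Q' fun i => ⟨u i, hu i, hu' i⟩

/-- The separated places whose twist by `θ` only meets separated places. -/
def IsStable (θ : k →+* k) (Q : Place k (modularFunctionFieldFullC k N)) : Prop :=
  IsSep N k Q ∧ ∀ (u : Fin N → k) (Q' : Place k (modularFunctionFieldFullC k N)),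
    (∀ i, HasValue Q (redGen N k i) (u i)) → (∀ i, HasValue Q' (redGen N k i) (θ (u i))) →
      IsSep N k Q'

theorem finite_not_isStable (θ : k →+* k) : {Q | ¬ IsStable N θ Q}.Finite := by
  classical
  have hns := finite_not_isSep N k
  set B : Set (Place k (modularFunctionFieldFullC k N)) := {Q | IsSep N k Q ∧
    ∃ (u : Fin N → k) (Q' : Place k (modularFunctionFieldFullC k N)),
      (∀ i, HasValue Q (redGen N k i) (u i)) ∧
      (∀ i, HasValue Q' (redGen N k i) (θ (u i))) ∧ ¬ IsSep N k Q'}
  have hB : B.Finite := by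
    haveI := hns.to_subtype
    choose u Q' hu hu' hns' using fun Q : B => Q.2.2
    let f : B → {Q | ¬ IsSep N k Q} := fun Q => ⟨Q' Q, hns' Q⟩
    refine Set.finite_coe_iff.1 (Finite.of_injective f fun Q₁ Q₂ he => ?_)
    have he' : Q' Q₁ = Q' Q₂ := congrArg Subtype.val he
    have huv : ∀ i, u Q₁ i = u Q₂ i := fun i =>
      θ.injective ((he' ▸ hu' Q₁ i).unique (hu' Q₂ i))
    exact Subtype.ext ((IsSep.eq N Q₁.2.1 (hu Q₁) fun i => (huv i).symm ▸ hu Q₂ i).symm)
  refine (hns.union hB).subset fun Q hQ => ?_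
  by_cases hsep : IsSep N k Q
  · refine Or.inr ⟨hsep, ?_⟩
    by_contra hno
    push Not at hno
    exact hQ ⟨hsep, fun u Q' hu hu' => hno u Q' hu hu'⟩
  · exact Or.inl hsep

end Down

include hℓN in
theorem exists_values {P : Place L (levelField N L)}
    (hQ : AtLeast ((redOf N L hπs hπ0 h).spl P) 0 (redGen N k 0)) :
    ∃ u : Fin N → k, ∀ i, HasValue ((redOf N L hπs hπ0 h).spl P) (redGen N k i) (u i) := by
  choose u hu using fun i => exists_hasValue (isFunctionField_fullC k N)
    (regular_gens N ℓ hℓN L hπs hπ0 h _ hQ i).1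
  exact ⟨u, hu⟩

include hℓN in
theorem spl_gal_inertia {σ : L ≃ₐ[ℚ] L} (hσ : InducesOn L π σ (RingHom.id k))
    {P : Place L (levelField N L)} (hP : IsSep N k ((redOf N L hπs hπ0 h).spl P)) :
    (redOf N L hπs hπ0 h).spl (galAut N L σ • P) = (redOf N L hπs hπ0 h).spl P := by
  obtain ⟨u, hu⟩ := exists_values N L ℓ hℓN hπs hπ0 h hP.1
  obtain ⟨-, hu'⟩ := values_gal N L ℓ hℓN hπs hπ0 h hσ hP.1 hu
  exact IsSep.eq N hP hu hu'

instance : CharZero L := charZero_of_injective_algebraMap (algebraMap ℚ L).injective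

/-- `T_ℓ` on divisors. -/
def heckeDiv : Divisor L (levelField N L) →+ Divisor L (levelField N L) :=
  haveI := hasPrincipalDivisors (isFunctionField_level L (N * ℓ))
  heckeDivBar (isIntegral_toRingHom (isFunctionField_level L N)
      (isFunctionField_level L (N * ℓ)) (heckeAlphaBar L N ℓ))
    (isIntegral_toRingHom (isFunctionField_level L N) (isFunctionField_level L (N * ℓ))
      (heckeBetaBar L N ℓ))

include hℓN in
/-- The congruence relation at all but finitely many residue discs. -/
theorem exists_clean_congruence {σ : L ≃ₐ[ℚ] L} (hσ : InducesOn L π σ (frobenius k ℓ)) :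
    ∃ S : Set (Place k (modularFunctionFieldFullC k N)), S.Finite ∧
      ∀ P : Place L (levelField N L), (redOf N L hπs hπ0 h).spl P ∉ S →
        (redOf N L hπs hπ0 h).push (heckeDiv N L ℓ (Finsupp.single (galAut N L σ • P) 1)) =
          Finsupp.single ((redOf N L hπs hπ0 h).spl (galAut N L σ • galAut N L σ • P)) 1 +
            Finsupp.single ((redOf N L hπs hπ0 h).spl P) (ℓ : ℤ) := by
  classical
  set R := redOf N L hπs hπ0 h
  set g := galAut N L σ
  have hF := isFunctionField_level L N
  have hF' := isFunctionField_level L (N * ℓ)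
  haveI := hasPrincipalDivisors hF'
  set φα := heckeAlphaBar L N ℓ
  have hα := isIntegral_toRingHom hF hF' φα
  have hβ := isIntegral_toRingHom hF hF' (heckeBetaBar L N ℓ)
  letI := algebraAlong (heckeBetaBar L N ℓ)
  haveI := isScalarTower_along (heckeBetaBar L N ℓ)
  haveI := isIntegral_along (heckeBetaBar L N ℓ) hβ
  haveI : FiniteDimensional (levelField N L) (levelField (N * ℓ) L) := finiteAlong hF hF' (heckeBetaBar L N ℓ)
  haveI : CharZero (levelField N L) := charZero_levelField L N
  obtain ⟨B, hB, hgood⟩ := finite_bad_fibres hF hF'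
    (Set.range fun i => φα (levelGen N L i)) (adjoin_alpha_gens N ℓ L)
  set θ := (frobenius k ℓ).comp (frobenius k ℓ)
  refine ⟨{Q | ¬ IsStable N θ Q} ∪ R.spl '' ((g • ·) ⁻¹' B),
    (finite_not_isStable N θ).union
      ((hB.preimage (MulAction.injective g).injOn).image _), fun P hP => ?_⟩
  simp only [Set.mem_union, Set.mem_setOf_eq, not_or, not_not, Set.mem_image, Set.mem_preimage,
    not_exists, not_and] at hP
  obtain ⟨⟨hsep, hstab⟩, hPB⟩ := hP
  have hgP : g • P ∉ B := fun hb => hPB P hb rfl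
  obtain ⟨u₀, hu₀⟩ := exists_values N L ℓ hℓN hπs hπ0 h hsep.1
  obtain ⟨hreg₁, hu₁⟩ := values_gal N L ℓ hℓN hπs hπ0 h hσ hsep.1 hu₀
  obtain ⟨-, hu₂⟩ := values_gal N L ℓ hℓN hπs hπ0 h hσ hreg₁ hu₁
  have hsep₂ : IsSep N k (R.spl (g • g • P)) := hstab u₀ _ hu₀ hu₂
  obtain ⟨hcard, hram, hsepw⟩ := hgood (g • P) hgP
  have hfin : Module.finrank (levelField N L) (levelField (N * ℓ) L) = ℓ + 1 := finrank_beta N ℓ hℓN L
  exact push_correspondence (R := R) hF (isFunctionField_fullC k N) hF' φα hα (levelGen N L)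
    (redGen N k) (red_levelGen N L hπs hπ0 h)
    (fun Q hQ => regular_gens N ℓ hℓN L hπs hπ0 h Q hQ)
    (fun P a ha => regular_of_integral_value N ℓ hℓN L hπs hπ0 h P a ha)
    (fun s => exists_reduced_poly N ℓ hℓN L hπs hπ0 h s) (P := g • P)
    (hcard.trans hfin) hram
    (fun w hw w' hw' hne hall => hsepw w hw w' hw' hne (by
      rintro _ ⟨i, rfl⟩
      exact hall i))
    (u := fun i => frobenius k ℓ (u₀ i)) (v := u₀) hu₁ (fun i => rfl)
    (Qa := R.spl (g • g • P)) (Qb := R.spl P)
    (fun Q hQ => IsSep.eq N hsep₂ hu₂ hQ) (fun Q hQ => IsSep.eq N hsep hu₀ hQ)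

end FA.ModField
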