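import Fermat.Agent.ModField.Congruence.Clean
import Fermat.Prelude.Def_AlgebraicCurve_Correspondence
import Mathlib.Algebra.CharP.Lemmas

/-!
# The congruence relation for a correspondence on a constant reduction

A correspondence `α_* β^*` of degree `ℓ + 1` whose characteristic polynomials reduce to
`(X - G₁) (X ^ ℓ - G₂)` specialises to Frobenius plus `ℓ` times its inverse.
-/

set_option autoImplicit false
set_option linter.style.haveILetI false
set_option linter.unusedSectionVars false

noncomputable section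

namespace FA.ModField

open AlgebraicCurve FA.Curve FA.CurveRed Polynomial

/-- A combination of a finite family along powers of a parameter. -/
def powComb {R : Type*} [CommRing R] {d : ℕ} (s : R) (g : Fin d → R) : R :=
  ∑ i : Fin d, s ^ (i : ℕ) * g i

theorem map_powComb {R S : Type*} [CommRing R] [CommRing S] (f : R →+* S) {d : ℕ} (s : R)
    (g : Fin d → R) : f (powComb s g) = powComb (f s) fun i => f (g i) := by
  simp only [powComb, map_sum, map_mul, map_pow]

/-- Finitely many distinct vectors are separated by all but finitely many parameters. -/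
theorem finite_collisions {R : Type*} [Field R] {d : ℕ} (V : Set (Fin d → R)) (hV : V.Finite) :
    {s : R | ∃ a ∈ V, ∃ b ∈ V, a ≠ b ∧ powComb s a = powComb s b}.Finite := by
  classical
  have h : ∀ a b : Fin d → R, a ≠ b → {s : R | powComb s a = powComb s b}.Finite := by
    intro a b hab
    set p : R[X] := ∑ i : Fin d, C (a i - b i) * X ^ (i : ℕ)
    have hp : p ≠ 0 := by
      obtain ⟨i, hi⟩ := Function.ne_iff.1 hab
      intro h0
      have := congrArg (fun q : R[X] => q.coeff i) h0
      simp only [p, Polynomial.finsetSum_coeff, Polynomial.coeff_zero, Polynomial.coeff_C_mul_X_pow,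
        Fin.val_inj, Finset.sum_ite_eq, Finset.mem_univ, if_true, sub_eq_zero] at this
      exact hi this
    refine (p.roots.toFinset.finite_toSet).subset fun s hs => ?_
    simp only [Finset.mem_coe, Multiset.mem_toFinset, Polynomial.mem_roots hp]
    show Polynomial.eval s p = 0
    rw [Polynomial.eval_finsetSum, ← sub_eq_zero.2 (hs : powComb s a = powComb s b)]
    simp only [powComb, ← Finset.sum_sub_distrib]
    exact Finset.sum_congr rfl fun i _ => by
      rw [Polynomial.eval_mul, Polynomial.eval_C, Polynomial.eval_pow, Polynomial.eval_X]; ring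
  refine ((hV.prod hV).biUnion (t := fun p => {s | p.1 ≠ p.2 ∧ powComb s p.1 = powComb s p.2})
    fun p _ => ?_).subset ?_
  · rcases eq_or_ne p.1 p.2 with he | he
    · exact Set.Finite.subset Set.finite_empty fun s hs => absurd he hs.1
    · exact (h p.1 p.2 he).subset fun s hs => hs.2
  · rintro s ⟨a, ha, b, hb, hab, hs⟩
    exact Set.mem_biUnion (x := (a, b)) ⟨ha, hb⟩ ⟨hab, hs⟩

theorem powComb_frob {k : Type*} [Field k] (ℓ : ℕ) [Fact ℓ.Prime] [CharP k ℓ] {d : ℕ} (s : k)
    (v : Fin d → k) : powComb s v ^ ℓ = powComb (s ^ ℓ) fun i => v i ^ ℓ := by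
  rw [powComb, sum_pow_char ℓ, powComb]
  exact Finset.sum_congr rfl fun i _ => by rw [mul_pow, ← pow_mul, ← pow_mul, mul_comm (i : ℕ) ℓ]

variable {K F F' k Fk : Type*} [Field K] [IsAlgClosed K] [CharZero K] [Field F] [Algebra K F]
  [Field F'] [Algebra K F'] [Algebra F F'] [IsScalarTower K F F'] [Algebra.IsIntegral F F']
  [FiniteDimensional F F'] [HasPrincipalDivisors K F']
  [Field k] [IsAlgClosed k] [Field Fk] [Algebra k Fk] {A : ValuationSubring K}
  {R : Reduction K F k Fk A} {ℓ : ℕ} [hℓ : Fact ℓ.Prime] [CharP k ℓ]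

/-- The congruence relation at one place with a good fibre. -/
theorem push_correspondence (hF : IsFunctionField K F) (hk : IsFunctionField k Fk)
    (hF' : IsFunctionField K F') (φα : F →ₐ[K] F') (hα : φα.toRingHom.IsIntegral)
    {d : ℕ} [NeZero d] (g : Fin d → F) (gk : Fin d → Fk) (hg : ∀ i, R.Red (g i) (gk i))
    (hreg : ∀ Q : Place k Fk, AtLeast Q 0 (gk 0) →
      ∀ i, AtLeast Q 0 (gk i) ∧ Reduction.NoPole R Q (g i))
    (hval : ∀ (P : Place K F) (a : A), HasValue P (g 0) (a : K) → AtLeast (R.spl P) 0 (gk 0))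
    (hpoly : ∀ s : A, ∃ (p : F[X]) (r : Fk[X]), p.Monic ∧ p.natDegree = ℓ + 1 ∧
      Polynomial.aeval (φα (powComb (algebraMap K F s) g)) p = 0 ∧
      (∀ m, R.Red (p.coeff m) (r.coeff m)) ∧
      (∀ Q : Place k Fk, AtLeast Q 0 (gk 0) → ∀ m, Reduction.NoPole R Q (p.coeff m)) ∧
      r = (X - C (powComb (algebraMap k Fk (R.π s)) fun i => gk i ^ ℓ)) *
        (X ^ ℓ - C (powComb (algebraMap k Fk (R.π s ^ ℓ)) gk)))
    {P : Place K F} (hcard : (P.fiber F').card = ℓ + 1)
    (hram : ∀ w ∈ P.fiber F', w.ramificationIndex F = 1)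
    (hsep : ∀ w ∈ P.fiber F', ∀ w' ∈ P.fiber F', w ≠ w' →
      ¬ ∀ i, ∃ a, HasValue w (φα (g i)) a ∧ HasValue w' (φα (g i)) a)
    {u v : Fin d → k} (hu : ∀ i, HasValue (R.spl P) (gk i) (u i)) (hv : ∀ i, v i ^ ℓ = u i)
    {Qa Qb : Place k Fk}
    (hQa : ∀ Q, (∀ i, HasValue Q (gk i) (u i ^ ℓ)) → Q = Qa)
    (hQb : ∀ Q, (∀ i, HasValue Q (gk i) (v i)) → Q = Qb) :
    R.push (Divisor.pushforwardAlong φα hα (Divisor.pullback F' (Finsupp.single P 1))) =
      Finsupp.single Qa 1 + Finsupp.single Qb (ℓ : ℤ) := by
  classical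
  haveI hprime := hℓ.out
  set W := P.fiber F'
  set αP : Place K F' → Place K F := fun w => w.restrictAlong φα hα with hαP
  have hPreg : AtLeast (R.spl P) 0 (gk 0) := (hu 0).atLeast
  have hαval : ∀ (w : Place K F') (f : F) (c : K), HasValue (αP w) f c → HasValue w (φα f) c := by
    intro w f c h
    letI := algebraAlong φα
    haveI := isScalarTower_along φα
    haveI := isIntegral_along φα hα
    exact hasValue_of_restrict (F := F) h
  have hαval' : ∀ (w : Place K F') (f : F) (c : K), HasValue w (φα f) c → HasValue (αP w) f c := by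
    intro w f c h
    letI := algebraAlong φα
    haveI := isScalarTower_along φα
    haveI := isIntegral_along φα hα
    exact hasValue_restrict_of_algebraMap (F := F) h
  -- values of the coefficients
  have hcoef : ∀ (p : F[X]) (r : Fk[X]), (∀ m, R.Red (p.coeff m) (r.coeff m)) →
      (∀ Q : Place k Fk, AtLeast Q 0 (gk 0) → ∀ m, Reduction.NoPole R Q (p.coeff m)) →
      ∃ c : ℕ → A, ∀ m, HasValue P (p.coeff m) (c m : K) ∧
        HasValue (R.spl P) (r.coeff m) (R.π (c m)) := by
    intro p r hred hnp
    have : ∀ m, ∃ c : A, HasValue P (p.coeff m) (c : K) ∧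
        HasValue (R.spl P) (r.coeff m) (R.π c) := fun m => by
      obtain ⟨c, hc⟩ := exists_hasValue hF (hnp _ hPreg m P rfl)
      obtain ⟨hcA, hc'⟩ := Reduction.hasValue_red hF (hred m) (hnp _ hPreg m) (P := P) rfl hc
      exact ⟨⟨c, hcA⟩, hc, hc'⟩
    choose c hc using this
    exact ⟨c, hc⟩
  -- the value of the first function above `P` lies in `A`
  have hW0 : ∀ w ∈ W, ∃ a : A, HasValue (αP w) (g 0) (a : K) := by
    intro w hw
    obtain ⟨p, r, hp, hdeg, hroot, hred, hnp, -⟩ := hpoly 0
    obtain ⟨c, hc⟩ := hcoef p r hred hnp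
    have h0 : powComb (algebraMap K F ((0 : A) : K)) g = g 0 := by
      rw [ZeroMemClass.coe_zero, map_zero, powComb, Finset.sum_eq_single 0]
      · simp
      · intro i _ hi
        rw [zero_pow (fun h => hi (Fin.ext h)), zero_mul]
      · simp
    rw [h0] at hroot
    have hwP : w.restrict F = P := Place.mem_fiber.1 hw
    have hmem : φα (g 0) ∈ w.toValuationSubring := mem_of_root hp (fun m => by
      rw [hwP]; exact atLeast_zero_iff_mem.1 (hc m).1.atLeast) hroot
    obtain ⟨x, hx⟩ := exists_hasValue hF' (atLeast_zero_of_mem hmem)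
    set q : A[X] := ∑ m ∈ Finset.range (p.natDegree + 1), C (c m) * X ^ m with hq
    have hqc : ∀ m, (q.map A.subtype).coeff m = if m ≤ p.natDegree then (c m : K) else 0 := by
      intro m
      have h1 : q.coeff m = if m ≤ p.natDegree then c m else 0 := by
        simp [hq, Polynomial.coeff_C_mul, Polynomial.coeff_X_pow, Nat.lt_succ_iff]
      rw [Polynomial.coeff_map, h1]
      split_ifs <;> rfl
    have hqv : ∀ m, HasValue (w.restrict F) (p.coeff m) ((q.map A.subtype).coeff m) := by
      intro m
      rw [hwP, hqc]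
      split_ifs with hm
      · exact (hc m).1
      · rw [Polynomial.coeff_eq_zero_of_natDegree_lt (not_le.1 hm)]
        simpa using hasValue_algebraMap P (0 : K)
    have hlead : c p.natDegree = 1 := by
      apply Subtype.ext
      refine (hc p.natDegree).1.unique ?_
      rw [hp.coeff_natDegree]
      simpa using hasValue_algebraMap P (1 : K)
    have hqle : q.natDegree ≤ p.natDegree :=
      Polynomial.natDegree_sum_le_of_forall_le _ _ fun m hm =>
        (Polynomial.natDegree_C_mul_X_pow_le _ _).trans (Nat.lt_succ_iff.1 (Finset.mem_range.1 hm))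
    have hqm : q.Monic := by
      refine Polynomial.monic_of_natDegree_le_of_coeff_eq_one p.natDegree hqle ?_
      simp [hq, Polynomial.coeff_C_mul, Polynomial.coeff_X_pow, hlead]
    have hev := eval_eq_zero_of_root hqv (Polynomial.natDegree_map_le.trans hqle) hroot hx
    obtain ⟨a, ha⟩ := IsIntegrallyClosed.isIntegral_iff.1
      (show IsIntegral A x from ⟨q, hqm, by rw [← Polynomial.eval_map]; exact hev⟩)
    refine ⟨a, hαval' w _ _ ?_⟩
    rw [show (a : K) = x from ha]
    exact hx
  choose a0 ha0 using hW0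
  have hWreg : ∀ w ∈ W, AtLeast (R.spl (αP w)) 0 (gk 0) := fun w hw => hval _ _ (ha0 w hw)
  -- the vectors of values
  have hvec : ∀ w ∈ W, ∀ i, ∃ x : A, HasValue w (φα (g i)) (x : K) ∧
      HasValue (R.spl (αP w)) (gk i) (R.π x) := by
    intro w hw i
    obtain ⟨x, hx⟩ := exists_hasValue hF ((hreg _ (hWreg w hw) i).2 (αP w) rfl)
    obtain ⟨hxA, hx'⟩ := Reduction.hasValue_red hF (hg i) (hreg _ (hWreg w hw) i).2
      (P := αP w) rfl hx
    exact ⟨⟨x, hxA⟩, hαval w _ _ hx, hx'⟩
  choose x hx hxk using hvec
  let Vk : W → Fin d → k := fun w i => R.π (x w.1 w.2 i)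
  set ua : Fin d → k := fun i => u i ^ ℓ
  -- choose the parameter downstairs
  haveI := IsAlgClosed.instInfinite (K := k)
  obtain ⟨t, ht⟩ := (finite_collisions (Set.range Vk ∪ {ua, v})
    ((Set.finite_range Vk).union (Set.toFinite _))).infinite_compl.nonempty
  obtain ⟨s₀, hs₀⟩ := R.π_surjective t
  -- perturb it to separate upstairs
  have hℓA : R.π (ℓ : A) = 0 := by rw [map_natCast, CharP.cast_eq_zero]
  set VK : Set (Fin d → K) := Set.range fun w : W => fun i => (x w.1 w.2 i : K)
  obtain ⟨n, hn⟩ : ∃ n : ℕ, ((s₀ + (n : A) * (ℓ : A) : A) : K) ∉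
      {s : K | ∃ a ∈ VK, ∃ b ∈ VK, a ≠ b ∧ powComb s a = powComb s b} := by
    by_contra hno
    push Not at hno
    have hinj : Function.Injective fun n : ℕ => ((s₀ + (n : A) * (ℓ : A) : A) : K) := by
      intro n m h
      have hl : (ℓ : K) ≠ 0 := by exact_mod_cast hprime.ne_zero
      simp only [AddMemClass.coe_add, MulMemClass.coe_mul, add_right_inj] at h
      exact_mod_cast mul_right_cancel₀ hl h
    exact (Set.infinite_range_of_injective hinj)
      ((finite_collisions VK (Set.finite_range _)).subset (Set.range_subset_iff.2 hno))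
  set s : A := s₀ + (n : A) * (ℓ : A) with hs
  have hπs : R.π s = t := by rw [hs, map_add, map_mul, hℓA, mul_zero, add_zero, hs₀]
  obtain ⟨p, r, hp, hdeg, hroot, hred, hnp, hr⟩ := hpoly s
  obtain ⟨c, hc⟩ := hcoef p r hred hnp
  -- the value polynomial
  set q : A[X] := ∑ m ∈ Finset.range (ℓ + 1 + 1), C (c m) * X ^ m with hq
  have hqc : ∀ m, q.coeff m = if m ≤ ℓ + 1 then c m else 0 := fun m => by
    simp [hq, Polynomial.coeff_C_mul, Polynomial.coeff_X_pow, Nat.lt_succ_iff]
  have hqle' : q.natDegree ≤ ℓ + 1 :=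
    Polynomial.natDegree_sum_le_of_forall_le _ _ fun m hm =>
      (Polynomial.natDegree_C_mul_X_pow_le _ _).trans (Nat.lt_succ_iff.1 (Finset.mem_range.1 hm))
  have hqm : q.Monic := by
    refine Polynomial.monic_of_natDegree_le_of_coeff_eq_one (ℓ + 1) hqle' ?_
    rw [hqc, if_pos le_rfl]
    apply Subtype.ext
    refine (hc _).1.unique ?_
    rw [← hdeg, hp.coeff_natDegree]
    simpa using hasValue_algebraMap P (1 : K)
  have hqv : ∀ m, HasValue P (p.coeff m) ((q.map A.subtype).coeff m) := fun m => by
    rw [Polynomial.coeff_map, hqc]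
    split_ifs with hm
    · exact (hc m).1
    · rw [Polynomial.coeff_eq_zero_of_natDegree_lt (by omega)]
      simpa using hasValue_algebraMap P (0 : K)
  let y : W → A := fun w => powComb s (fun i => x w.1 w.2 i)
  have hy : ∀ w : W, (q.map A.subtype).eval (y w : K) = 0 := by
    intro w
    have hwP : w.1.restrict F = P := Place.mem_fiber.1 w.2
    refine eval_eq_zero_of_root (w := w.1) (fun m => hwP ▸ hqv m)
      (hdeg ▸ Polynomial.natDegree_map_le.trans hqle') hroot ?_
    simp only [powComb, map_sum, map_mul, map_pow, AlgHom.commutes, y,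
      AddSubmonoidClass.coe_finsetSum, MulMemClass.coe_mul, SubmonoidClass.coe_pow]
    exact hasValue_sum _ fun i _ =>
      hasValue_mul (hasValue_pow (hasValue_algebraMap w.1 (s : K)) _) (hx w.1 w.2 i)
  have hyinj : Function.Injective fun w : W => (y w : K) := by
    intro w w' h
    by_contra hne
    refine hn ⟨_, ⟨w, rfl⟩, _, ⟨w', rfl⟩, fun he => ?_, ?_⟩
    · refine hsep w.1 w.2 w'.1 w'.2 (fun h => hne (Subtype.ext h)) fun i => ⟨_, hx w.1 w.2 i, ?_⟩
      have := congrFun he i
      simp only at this
      rw [this]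
      exact hx w'.1 w'.2 i
    · simpa [y, powComb] using h
  have hprod : q = ∏ w : W, (X - C (y w)) := by
    apply Polynomial.map_injective A.subtype Subtype.val_injective
    refine Polynomial.eq_of_monic_of_dvd_of_natDegree_le
      ((Polynomial.monic_prod_of_monic _ _ fun w _ => Polynomial.monic_X_sub_C (y w)).map _)
      (hqm.map _) ?_ ?_
    · rw [Polynomial.map_prod]
      simp only [Polynomial.map_sub, Polynomial.map_X, Polynomial.map_C]
      refine Fintype.prod_dvd_of_coprime ?_ fun w => Polynomial.dvd_iff_isRoot.2 (hy w)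
      exact Polynomial.pairwise_coprime_X_sub_C hyinj
    · rw [Polynomial.map_prod]
      simp only [Polynomial.map_sub, Polynomial.map_X, Polynomial.map_C]
      rw [Polynomial.natDegree_prod_of_monic _ _ fun (w : W) _ => Polynomial.monic_X_sub_C (A.subtype (y w))]
      simp only [Polynomial.natDegree_X_sub_C, Finset.sum_const, Finset.card_univ, smul_eq_mul,
        mul_one, Fintype.card_coe]
      rw [show W.card = ℓ + 1 from hcard]
      exact Polynomial.natDegree_map_le.trans hqle'
  -- reduce
  have hQreg := hreg _ hPreg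
  have hred' : q.map R.π = (X - C (powComb t ua)) * (X - C (powComb t v)) ^ ℓ := by
    have hG1 : HasValue (R.spl P) (powComb (algebraMap k Fk t) fun i => gk i ^ ℓ) (powComb t ua) :=
      hasValue_sum _ fun i _ => hasValue_mul (hasValue_pow (hasValue_algebraMap _ t) _)
        (hasValue_pow (hu i) ℓ)
    have hG2 : HasValue (R.spl P) (powComb (algebraMap k Fk (t ^ ℓ)) gk) (powComb t v ^ ℓ) := by
      rw [powComb_frob ℓ t v]
      exact hasValue_sum _ fun i _ => hasValue_mul (hasValue_pow (hasValue_algebraMap _ _) _)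
        (by show HasValue _ _ (v i ^ ℓ); rw [hv i]; exact hu i)
    rw [hπs] at hr
    have hmem1 := atLeast_zero_iff_mem.1 hG1.atLeast
    have hmem2 := atLeast_zero_iff_mem.1 hG2.atLeast
    set O := (R.spl P).toValuationSubring
    set r' : O[X] := (X - C (⟨_, hmem1⟩ : O)) * (X ^ ℓ - C (⟨_, hmem2⟩ : O))
    have hr' : r'.map O.subtype = r := by
      rw [hr]
      simp only [r', Polynomial.map_mul, Polynomial.map_sub, Polynomial.map_X, Polynomial.map_C,
        Polynomial.map_pow]
      rfl
    haveI : CharP k[X] ℓ := inferInstance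
    have hmap : r'.map (valHom hk (R.spl P)) =
        (X - C (powComb t ua)) * (X - C (powComb t v)) ^ ℓ := by
      rw [sub_pow_char, ← Polynomial.C_pow]
      simp only [r', Polynomial.map_mul, Polynomial.map_sub, Polynomial.map_X, Polynomial.map_C,
        Polynomial.map_pow]
      rw [valHom_eq hk (f := ⟨_, hmem1⟩) hG1, valHom_eq hk (f := ⟨_, hmem2⟩) hG2]
    ext m
    rw [← hmap, Polynomial.coeff_map, Polynomial.coeff_map, hqc]
    refine (valHom_eq hk ?_).symm
    have hcm : ((r'.coeff m : O) : Fk) = r.coeff m := by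
      rw [← hr', Polynomial.coeff_map]; rfl
    rw [hcm]
    split_ifs with hm
    · exact (hc m).2
    · have hrdeg : r.natDegree ≤ ℓ + 1 := by
        rw [hr]
        refine Polynomial.natDegree_mul_le.trans ?_
        rw [Polynomial.natDegree_X_sub_C, Polynomial.natDegree_X_pow_sub_C]
        omega
      rw [Polynomial.coeff_eq_zero_of_natDegree_lt (by omega), map_zero]
      simpa using hasValue_algebraMap (R.spl P) (0 : k)
  rw [hprod, Polynomial.map_prod] at hred'
  simp only [Polynomial.map_sub, Polynomial.map_X, Polynomial.map_C] at hred'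
  change (∏ w : W, ((fun a => X - C a) ∘ fun w : W => R.π (y w)) w) = _ at hred'
  have hroots := congrArg Polynomial.roots hred'
  rw [Polynomial.roots_mul (mul_ne_zero (Polynomial.X_sub_C_ne_zero _)
      (pow_ne_zero _ (Polynomial.X_sub_C_ne_zero _))), Polynomial.roots_pow,
    Polynomial.roots_X_sub_C, Polynomial.roots_X_sub_C, Finset.prod_eq_multiset_prod,
    ← Multiset.map_map (fun a => X - C a) (fun w : W => R.π (y w)),
    Polynomial.roots_multiset_prod_X_sub_C] at hroots
  have hyk : ∀ w : W, R.π (y w) = powComb t (Vk w) := fun w => by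
    rw [map_powComb, hπs]
  simp only [hyk] at hroots
  have hplace : ∀ w : W, (powComb t (Vk w) = powComb t ua → R.spl (αP w.1) = Qa) ∧
      (powComb t (Vk w) = powComb t v → R.spl (αP w.1) = Qb) := by
    intro w
    constructor
    · intro h
      have he : Vk w = ua := by
        by_contra hne
        exact ht ⟨_, Or.inl ⟨w, rfl⟩, _, Or.inr (Or.inl rfl), hne, h⟩
      exact hQa _ fun i => by rw [← show Vk w i = u i ^ ℓ from congrFun he i]; exact hxk w.1 w.2 i
    · intro h
      have he : Vk w = v := by
        by_contra hne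
        exact ht ⟨_, Or.inl ⟨w, rfl⟩, _, Or.inr (Or.inr rfl), hne, h⟩
      exact hQb _ fun i => by rw [← congrFun he i]; exact hxk w.1 w.2 i
  -- the divisor
  have hdiv : R.push (Divisor.pushforwardAlong φα hα (Divisor.pullback F' (Finsupp.single P 1))) =
      ∑ w : W, Finsupp.single (R.spl (αP w.1)) 1 := by
    rw [Divisor.pullback_single, map_sum, Reduction.push, Finsupp.mapDomain_finsetSum,
      ← Finset.sum_coe_sort]
    refine Finset.sum_congr rfl fun w _ => ?_
    rw [hram w.1 w.2, Divisor.pushforwardAlong_single, Finsupp.mapDomain_single]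
    congr 1
    have : w.1.inertiaDegAlong φα hα = 1 := by
      letI := algebraAlong φα
      haveI := isScalarTower_along φα
      haveI := isIntegral_along φα hα
      exact inertiaDeg_eq_one hF' w.1
    rw [this]
    simp
  rw [hdiv]
  let ψ : k → (Place k Fk →₀ ℤ) := fun b =>
    if b = powComb t ua then Finsupp.single Qa 1 else Finsupp.single Qb 1
  have hψ : ∀ w : W, Finsupp.single (R.spl (αP w.1)) (1 : ℤ) = ψ (powComb t (Vk w)) := by
    intro w
    have hmem : powComb t (Vk w) ∈
        ({powComb t ua} + ℓ • {powComb t v} : Multiset k) := by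
      rw [← hroots]
      exact Multiset.mem_map_of_mem _ (Finset.mem_univ w)
    simp only [ψ]
    split_ifs with h
    · rw [(hplace w).1 h]
    · rcases Multiset.mem_add.1 hmem with h' | h'
      · exact absurd (Multiset.mem_singleton.1 h') h
      · rw [(hplace w).2 (Multiset.mem_singleton.1 (Multiset.mem_of_mem_nsmul h'))]
  rw [Finset.sum_congr rfl fun w _ => hψ w]
  have hsum := congrArg (fun M : Multiset k => (M.map ψ).sum) hroots
  simp only [Multiset.map_map, Multiset.map_add, Multiset.map_singleton, Multiset.sum_add,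
    Multiset.sum_singleton, Multiset.map_nsmul, Multiset.sum_nsmul] at hsum
  refine (Eq.trans ?_ hsum).trans ?_
  · rfl
  · simp only [ψ, if_pos rfl]
    congr 1
    by_cases h : powComb t v = powComb t ua
    · have he : v = ua := by
        by_contra hne
        exact ht ⟨_, Or.inr (Or.inr rfl), _, Or.inr (Or.inl rfl), hne, h⟩
      rw [if_pos h]
      have : ∃ w : W, powComb t (Vk w) = powComb t ua := by
        have hm : powComb t ua ∈ ({powComb t ua} + ℓ • {powComb t v} : Multiset k) :=
          Multiset.mem_add.2 (Or.inl (Multiset.mem_singleton_self _))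
        rw [← hroots] at hm
        obtain ⟨w, -, hw⟩ := Multiset.mem_map.1 hm
        exact ⟨w, hw⟩
      obtain ⟨w, hw⟩ := this
      rw [← (hplace w).1 hw, ← (hplace w).2 (hw.trans h.symm)]
      simp
    · rw [if_neg h]
      simp

end FA.ModField
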