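import Fermat.Agent.ModField.Congruence.Cosets
import Fermat.Agent.ModField.Congruence.Relation
import Fermat.Agent.Level.Degree
import Fermat.Agent.Dim.Cosets
import Fermat.Agent.Dim.PsiSum
import Fermat.Agent.ModField.Igusa.LevelP

/-!
# Degrees and characteristic polynomials for the two degeneracy maps
-/

set_option autoImplicit false
set_option linter.style.haveILetI false
set_option linter.unusedSectionVars false
set_option synthInstance.maxHeartbeats 200000
set_option maxHeartbeats 1600000

noncomputable section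

namespace FA.ModField

open ModularCurve AlgebraicCurve FA.Level FA.Curve Polynomial
open scoped MatrixGroups

variable (N ℓ : ℕ) [NeZero N] [hℓ : Fact ℓ.Prime] (hℓN : ¬ ℓ ∣ N)
variable (L : Type) [Field L] [Algebra ℚ L] [Algebra L ℂ]

/-- The function field of level `N`. -/
abbrev levelField : IntermediateField L (LaurentSeries L) :=
  laurentBaseChange L (modularFunctionFieldFull N)

theorem charZero_levelField (M : ℕ) : CharZero (levelField M L) := by
  haveI : CharZero L := charZero_of_injective_algebraMap (algebraMap ℚ L).injective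
  exact charZero_of_injective_algebraMap (algebraMap L (levelField M L)).injective

theorem isFunctionField_level (M : ℕ) [NeZero M] : IsFunctionField L (levelField M L) :=
  (lvlGamma0 M).isFunctionField L

/-- `j`. -/
def levelJ : levelField N L := ⟨jqModC L, ((lvlGamma0 N).coe_jF L) ▸ ((lvlGamma0 N).jF L).2⟩

theorem coe_levelJ : (levelJ N L : LaurentSeries L) = jqModC L := rfl

theorem levelJ_transcendental : Transcendental L (levelJ N L) := by
  rw [show levelJ N L = (lvlGamma0 N).jF L from Subtype.ext ((lvlGamma0 N).coe_jF L).symm]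
  exact (lvlGamma0 N).jF_transcendental L

theorem finrank_levelJ (M : ℕ) [NeZero M] :
    Module.finrank (IntermediateField.adjoin L {levelJ M L}) (levelField M L) = dedekindPsi M := by
  rw [show levelJ M L = (lvlGamma0 M).jF L from Subtype.ext ((lvlGamma0 M).coe_jF L).symm]
  refine ((lvlGamma0 M).finrank_jFld L).trans ?_
  rw [← FA.Dim.card_cos M, ← Nat.card_eq_fintype_card]
  rfl

include hℓN in
theorem psi_mul_prime : dedekindPsi (N * ℓ) = dedekindPsi N * (ℓ + 1) := by
  rw [FA.Dim.dedekindPsi_mul ((hℓ.out.coprime_iff_not_dvd).2 hℓN).symm,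
    dedekindPsi_prime hℓ.out]

/-- `ι` into complex series. -/
def toCSer {M : ℕ} : levelField M L →+* LaurentSeries ℂ :=
  (coeffMap (algebraMap L ℂ)).comp (levelField M L).val.toRingHom

theorem toCSer_injective {M : ℕ} : Function.Injective (toCSer L (M := M)) := fun x y h => by
  apply Subtype.ext
  exact coeffMap_injective' (algebraMap L ℂ).injective h

theorem toCSer_alpha (x : levelField N L) :
    toCSer L (heckeAlphaBar L N ℓ x) = toCSer L x :=
  congrArg (coeffMap (algebraMap L ℂ)) (coe_heckeAlphaBar N ℓ x)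

theorem toCSer_beta (x : levelField N L) :
    toCSer L (heckeBetaBar L N ℓ x) = qExpand ℂ ℓ (toCSer L x) := by
  show coeffMap (algebraMap L ℂ) (heckeBetaBar L N ℓ x : LaurentSeries L) = _
  rw [coe_heckeBetaBar, coeffMap_qExpand]
  rfl

theorem conjMap_jq_injective : Function.Injective
    fun i : Option (Fin ℓ) => conjMap ℓ (zetaN ℓ) i (jqModC ℂ) := by
  haveI : NeZero (ℓ * ℓ) := ⟨mul_ne_zero hℓ.out.ne_zero hℓ.out.ne_zero⟩
  have hnd : ¬ ((ℓ * ℓ : ℕ) : ℤ) ∣ (-1 : ℤ) := by
    rw [Int.dvd_neg, show (1 : ℤ) = ((1 : ℕ) : ℤ) from rfl, Int.natCast_dvd_natCast, Nat.dvd_one]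
    intro h
    exact hℓ.out.ne_one (Nat.eq_one_of_mul_eq_one_left h)
  intro i j h
  have h1 := congrArg (fun f : LaurentSeries ℂ => f.coeff (-1)) h
  rcases i with _ | b <;> rcases j with _ | b'
  · rfl
  · simp only [conjMap, twist_coeff, jqModC_coeff_neg_one, mul_one,
      qExpand_coeff_of_not_dvd (ℓ * ℓ) _ hnd] at h1
    exact absurd h1.symm (Units.ne_zero _)
  · simp only [conjMap, twist_coeff, jqModC_coeff_neg_one, mul_one,
      qExpand_coeff_of_not_dvd (ℓ * ℓ) _ hnd] at h1
    exact absurd h1 (Units.ne_zero _)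
  · simp only [conjMap, twist_coeff, jqModC_coeff_neg_one, mul_one, Units.val_inj, zpow_neg,
      zpow_one, inv_inj] at h1
    exact congrArg some (Fin.ext
      (((IsPrimitiveRoot.coe_units_iff).1 (zetaN_prim ℓ)).pow_inj b.2 b'.2 h1))

include hℓN in
theorem cosEmb_levelJ_injective : Function.Injective
    fun i => cosEmb N ℓ L hℓN i (heckeBetaBar L N ℓ (levelJ N L)) := by
  intro i j h
  have hi := fun k => cosEmb_beta N ℓ L hℓN k (levelJ N L)
  have h' : qExpand ℂ N (conjMap ℓ (zetaN ℓ) i (coeffMap (algebraMap L ℂ) (jqModC L))) =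
      qExpand ℂ N (conjMap ℓ (zetaN ℓ) j (coeffMap (algebraMap L ℂ) (jqModC L))) :=
    ((hi i).symm.trans h).trans (hi j)
  rw [coeffMap_jqModC] at h'
  exact conjMap_jq_injective ℓ (qExpand_injective N h')

variable [IsAlgClosed L]

include hℓN in
theorem finrank_alpha :
    finrankAlong L (heckeAlphaBar L N ℓ) = ℓ + 1 := by
  letI := algebraAlong (heckeAlphaBar L N ℓ)
  haveI := isScalarTower_along (heckeAlphaBar L N ℓ)
  have h := finrank_adjoin_algebraMap (K := L) (F' := levelField (N * ℓ) L) (levelJ N L)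
  have hj : algebraMap (levelField N L) (levelField (N * ℓ) L) (levelJ N L) =
      levelJ (N * ℓ) L := Subtype.ext (coe_heckeAlphaBar N ℓ _)
  rw [hj, finrank_levelJ, finrank_levelJ, psi_mul_prime N ℓ hℓN] at h
  have hpos : 0 < dedekindPsi N := by
    rw [← FA.Dim.card_cos N]
    haveI : Nonempty (FA.Dim.Cos N) := ⟨QuotientGroup.mk 1⟩
    haveI : Finite (FA.Dim.Cos N) := (inferInstance : Finite (lvlGamma0 N).Cos)
    exact Nat.card_pos
  exact (Nat.eq_of_mul_eq_mul_left hpos h).symm

/-- The characteristic polynomial over `α` of the image of `x` under `β`. -/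
def heckePoly (x : levelField N L) : (levelField N L)[X] :=
  letI := algebraAlong (heckeAlphaBar L N ℓ)
  haveI : FiniteDimensional (levelField N L) (levelField (N * ℓ) L) :=
    finiteAlong (isFunctionField_level L N) (isFunctionField_level L (N * ℓ))
      (heckeAlphaBar L N ℓ)
  mulCharpoly (levelField N L) (heckeBetaBar L N ℓ x)

theorem heckePoly_monic (x : levelField N L) : (heckePoly N ℓ L x).Monic := by
  letI := algebraAlong (heckeAlphaBar L N ℓ)
  haveI : FiniteDimensional (levelField N L) (levelField (N * ℓ) L) :=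
    finiteAlong (isFunctionField_level L N) (isFunctionField_level L (N * ℓ))
      (heckeAlphaBar L N ℓ)
  exact mulCharpoly_monic _

include hℓN in
theorem natDegree_heckePoly (x : levelField N L) : (heckePoly N ℓ L x).natDegree = ℓ + 1 := by
  letI := algebraAlong (heckeAlphaBar L N ℓ)
  haveI : FiniteDimensional (levelField N L) (levelField (N * ℓ) L) :=
    finiteAlong (isFunctionField_level L N) (isFunctionField_level L (N * ℓ))
      (heckeAlphaBar L N ℓ)
  exact (natDegree_mulCharpoly _).trans (finrank_alpha N ℓ hℓN L)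

/-- The conjugates. -/
def conjPoly (x : levelField N L) : (LaurentSeries ℂ)[X] :=
  ∏ i, (X - C (conjMap ℓ (zetaN ℓ) i (toCSer L x)))

include hℓN in
/-- The coefficients of the characteristic polynomial as series. -/
theorem map_heckePoly (x : levelField N L) :
    (heckePoly N ℓ L x).map ((qExpand ℂ ℓ).comp (toCSer L)) = conjPoly N ℓ L x := by
  letI := algebraAlong (heckeAlphaBar L N ℓ)
  haveI : FiniteDimensional (levelField N L) (levelField (N * ℓ) L) :=
    finiteAlong (isFunctionField_level L N) (isFunctionField_level L (N * ℓ))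
      (heckeAlphaBar L N ℓ)
  haveI := charZero_levelField L N
  haveI : Infinite (levelField N L) := inferInstance
  let σ : Option (Fin ℓ) → levelField (N * ℓ) L →+* LaurentSeries ℂ := fun i =>
    (cosEmb N ℓ L hℓN i).toRingHom
  have hσinj : Function.Injective σ := fun i j h =>
    cosEmb_levelJ_injective N ℓ hℓN L (RingHom.congr_fun h _)
  have hτ : ∀ i, (σ i).comp (algebraMap (levelField N L) (levelField (N * ℓ) L)) =
      (qExpand ℂ N).comp ((qExpand ℂ ℓ).comp (toCSer L)) := fun i =>
    RingHom.ext fun y => (cosEmb_alpha N ℓ L hℓN i y).trans (qExpand_qExpand _ _ _).symm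
  have hcard : Fintype.card (Option (Fin ℓ)) =
      Module.finrank (levelField N L) (levelField (N * ℓ) L) := by
    rw [Fintype.card_option, Fintype.card_fin]
    exact (finrank_alpha N ℓ hℓN L).symm
  have h := map_mulCharpoly ((qExpand ℂ N).comp ((qExpand ℂ ℓ).comp (toCSer L))) σ hσinj hτ hcard
    inferInstance (heckeBetaBar L N ℓ x)
  apply Polynomial.map_injective (qExpand ℂ N) (qExpand_injective N)
  rw [Polynomial.map_map, conjPoly, Polynomial.map_prod]
  refine h.trans (Finset.prod_congr rfl fun i _ => ?_)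
  rw [Polynomial.map_sub, Polynomial.map_X, Polynomial.map_C]
  exact congrArg (fun z => X - C z) (cosEmb_beta N ℓ L hℓN i x)

include hℓN in
theorem qExpand_coeff_heckePoly (x : levelField N L) (m : ℕ) :
    qExpand ℂ ℓ (toCSer L ((heckePoly N ℓ L x).coeff m)) = (conjPoly N ℓ L x).coeff m := by
  rw [← map_heckePoly N ℓ hℓN L x, Polynomial.coeff_map]
  rfl

include hℓN in
/-- It also kills the image of `x` under `α`, with coefficients embedded by `β`. -/
theorem eval₂_heckePoly (x : levelField N L) :
    (heckePoly N ℓ L x).eval₂ (heckeBetaBar L N ℓ).toRingHom (heckeAlphaBar L N ℓ x) = 0 := by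
  apply toCSer_injective L
  rw [map_zero, Polynomial.hom_eval₂, toCSer_alpha,
    show (toCSer L).comp (heckeBetaBar L N ℓ).toRingHom = (qExpand ℂ ℓ).comp (toCSer L) from
      RingHom.ext fun y => toCSer_beta N ℓ L y,
    ← Polynomial.eval_map, map_heckePoly N ℓ hℓN, conjPoly, Polynomial.eval_prod]
  refine Finset.prod_eq_zero (Finset.mem_univ (some ⟨0, hℓ.out.pos⟩)) ?_
  simp [conjMap]

/-! ### The degree of `β` -/

include hℓN in
theorem le_finrank_beta : ℓ + 1 ≤ finrankAlong L (heckeBetaBar L N ℓ) := by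
  classical
  letI := algebraAlong (heckeBetaBar L N ℓ)
  haveI : FiniteDimensional (levelField N L) (levelField (N * ℓ) L) :=
    finiteAlong (isFunctionField_level L N) (isFunctionField_level L (N * ℓ))
      (heckeBetaBar L N ℓ)
  haveI := charZero_levelField L N
  show ℓ + 1 ≤ Module.finrank (levelField N L) (levelField (N * ℓ) L)
  set τ : levelField N L →+* LaurentSeries ℂ := (qExpand ℂ ℓ).comp (toCSer L) with hτdef
  have hζ : ∀ b : ℕ, (zetaN ℓ ^ b) ^ (ℓ : ℤ) = 1 := fun b => by
    rw [zpow_natCast, ← pow_mul, mul_comm, pow_mul,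
      (IsPrimitiveRoot.coe_units_iff.1 (zetaN_prim ℓ)).pow_eq_one, one_pow]
  let σ : Fin ℓ → levelField (N * ℓ) L →+* LaurentSeries ℂ := fun b =>
    (conjMap ℓ (zetaN ℓ) (some b)).comp (toCSer L)
  have hfix : ∀ b : Fin ℓ, (σ b).comp (algebraMap (levelField N L) (levelField (N * ℓ) L)) = τ := by
    intro b
    refine RingHom.ext fun y => ?_
    show twist (zetaN ℓ ^ (b : ℕ)) (toCSer L (heckeBetaBar L N ℓ y)) = qExpand ℂ ℓ (toCSer L y)
    rw [toCSer_beta, twist_qExpand]
    have h1 : (zetaN ℓ ^ (b : ℕ)) ^ ℓ = 1 := by rw [← zpow_natCast]; exact hζ b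
    rw [h1, twist_one_apply]
  have hinj : Function.Injective σ := by
    intro b b' h
    have h1 := RingHom.congr_fun h (heckeAlphaBar L N ℓ (levelJ N L))
    simp only [σ, RingHom.comp_apply, toCSer_alpha] at h1
    have h2 : conjMap ℓ (zetaN ℓ) (some b) (jqModC ℂ) =
        conjMap ℓ (zetaN ℓ) (some b') (jqModC ℂ) := by
      rw [← coeffMap_jqModC (algebraMap L ℂ)]
      exact h1
    exact Option.some_injective _ (conjMap_jq_injective ℓ h2)
  set u : LaurentSeries ℂ →+* AlgebraicClosure (LaurentSeries ℂ) := algebraMap _ _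
  letI : Algebra (levelField N L) (AlgebraicClosure (LaurentSeries ℂ)) := (u.comp τ).toAlgebra
  let s : Fin ℓ → (levelField (N * ℓ) L →ₐ[levelField N L] AlgebraicClosure (LaurentSeries ℂ)) :=
    fun b => { u.comp (σ b) with commutes' := fun a => congrArg u (RingHom.congr_fun (hfix b) a) }
  have hs : Function.Injective s := fun b b' h => hinj (RingHom.ext fun y =>
    u.injective (AlgHom.congr_fun h y))
  have hle : ℓ ≤ Module.finrank (levelField N L) (levelField (N * ℓ) L) := by
    rw [← AlgHom.card (levelField N L) _ (AlgebraicClosure (LaurentSeries ℂ))]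
    simpa using Fintype.card_le_of_injective s hs
  rcases hle.lt_or_eq with hlt | heq
  · exact hlt
  exfalso
  have hm := map_mulCharpoly τ σ hinj hfix (by rw [Fintype.card_fin]; exact heq) inferInstance
    (heckeAlphaBar L N ℓ (levelJ N L))
  set q := mulCharpoly (levelField N L) (heckeAlphaBar L N ℓ (levelJ N L))
  set v : Option (Fin ℓ) → LaurentSeries ℂ := fun i => conjMap ℓ (zetaN ℓ) i (jqModC ℂ)
  have hJ : toCSer L (levelJ N L) = jqModC ℂ := coeffMap_jqModC _
  have hq : τ (q.coeff (ℓ - 1)) = -∑ b : Fin ℓ, v (some b) := by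
    have := congrArg (fun p : (LaurentSeries ℂ)[X] => p.coeff (ℓ - 1)) hm
    simp only [Polynomial.coeff_map] at this
    rw [this]
    have h1 := Polynomial.prod_X_sub_C_coeff_card_pred (Finset.univ : Finset (Fin ℓ))
      (fun b => σ b (heckeAlphaBar L N ℓ (levelJ N L))) (by simpa using hℓ.out.pos)
    simp only [Finset.card_univ, Fintype.card_fin] at h1
    rw [h1]
    congr 1
    refine Finset.sum_congr rfl fun b _ => ?_
    simp only [σ, RingHom.comp_apply, toCSer_alpha, hJ]
    rfl
  have hp : τ ((heckePoly N ℓ L (levelJ N L)).coeff ℓ) = -∑ i, v i := by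
    rw [hτdef, RingHom.comp_apply, qExpand_coeff_heckePoly N ℓ hℓN, conjPoly, hJ]
    have h1 := Polynomial.prod_X_sub_C_coeff_card_pred (Finset.univ : Finset (Option (Fin ℓ)))
      v (by simp)
    simp only [Finset.card_univ, Fintype.card_option, Fintype.card_fin,
      Nat.add_sub_cancel] at h1
    exact h1
  rw [Fintype.sum_option] at hp
  set y := q.coeff (ℓ - 1) - (heckePoly N ℓ L (levelJ N L)).coeff ℓ
  haveI : NeZero (ℓ * ℓ) := ⟨mul_ne_zero hℓ.out.ne_zero hℓ.out.ne_zero⟩
  have hy : qExpand ℂ ℓ (toCSer L y) = qExpand ℂ ℓ (qExpand ℂ ℓ (jqModC ℂ)) := by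
    rw [qExpand_qExpand]
    show τ y = v none
    rw [map_sub, hq, hp]
    ring
  have hab : heckeAlphaBar L N ℓ y = heckeBetaBar L N ℓ (levelJ N L) := by
    apply toCSer_injective L
    rw [toCSer_alpha, toCSer_beta, hJ]
    exact qExpand_injective ℓ hy
  have hne : (none : Option (Fin ℓ)) ≠ some ⟨0, hℓ.out.pos⟩ := Option.some_ne_none _ |>.symm
  apply hne
  apply cosEmb_levelJ_injective N ℓ hℓN L
  show cosEmb N ℓ L hℓN none _ = cosEmb N ℓ L hℓN (some _) _
  rw [← hab]
  exact (cosEmb_alpha N ℓ L hℓN none y).trans (cosEmb_alpha N ℓ L hℓN _ y).symm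

end FA.ModField
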