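import Fermat.Agent.ModField.Congruence.Divisors
import Fermat.Prelude.Def_ModularCurve_HeckeOperatorTotal

/-!
# Eichler–Shimura: `T_ℓ ≡ Frob + ℓ Frob⁻¹` on the reduction of the Jacobian

The results are conditional on the existence of the reduction map and on the equality of genera.
-/

set_option autoImplicit false
set_option linter.style.haveILetI false
set_option linter.unusedSectionVars false
set_option synthInstance.maxHeartbeats 400000
set_option maxHeartbeats 1600000

noncomputable section

namespace FA.ModField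

open ModularCurve AlgebraicCurve FA.Level FA.Curve FA.CurveRed

variable (N : ℕ) [NeZero N] (L : Type) [Field L] [Algebra ℚ L] [Algebra L ℂ] [IsAlgClosed L]
variable (ℓ : ℕ) [hℓ : Fact ℓ.Prime] (hℓN : ¬ ℓ ∣ N)
variable {A : ValuationSubring L} {k : Type} [Field k] [IsAlgClosed k] [CharP k ℓ] {π : A →+* k}
  (hπs : Function.Surjective π) (hπ0 : ∀ a : A, π a = 0 ↔ A.valuation a < 1)
  (h : ReductionInputsAlong A π N)
  (hg : FA.Curve.genus L (levelField N L) ≤ FA.Curve.genus k (modularFunctionFieldFullC k N))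

include hπs hπ0 h hg in
/-- Every class has a representative avoiding finitely many discs. -/
theorem exists_clean_rep (S : Set (Place k (modularFunctionFieldFullC k N))) (hS : S.Finite)
    (x : Pic0 L (levelField N L)) :
    ∃ D : Divisor.degZero (K := L) (F := levelField N L), Pic0.mk D = x ∧
      ∀ P, (redOf N L hπs hπ0 h).spl P ∈ S → (D : Divisor L (levelField N L)) P = 0 := by
  obtain ⟨D, rfl⟩ := Pic0.mk_surjective x
  have hF := isFunctionField_level L N
  obtain ⟨g, hg0, hD⟩ := exists_clean_equiv hF (isFunctionField_fullC k N)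
    (R := redOf N L hπs hπ0 h) hg S hS (D : Divisor L (levelField N L))
  have hdeg : divOf hF g ∈ Divisor.degZero (K := L) (F := levelField N L) :=
    Divisor.mem_degZero.2 (degree_divOf hF g)
  refine ⟨D - ⟨divOf hF g, hdeg⟩, ?_, fun P hP => ?_⟩
  · rw [Pic0.mk, Pic0.mk, QuotientAddGroup.eq, AddSubgroup.mem_addSubgroupOf]
    refine ⟨g, hg0, fun v => ?_⟩
    simp [divOf_apply]
  · rw [AddSubgroupClass.coe_sub, Finsupp.sub_apply, divOf_apply, hD P hP, sub_self]

include hπs hπ0 h in
theorem reductionAlong_eq_push (D : Divisor.degZero (K := L) (F := levelField N L)) :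
    ∃ hd : (redOf N L hπs hπ0 h).push (D : Divisor L (levelField N L)) ∈
        Divisor.degZero (K := k) (F := modularFunctionFieldFullC k N),
      reductionAlong A π N (Pic0.mk D) = Pic0.mk ⟨_, hd⟩ :=
  ⟨(reductionDegZeroAlong h.choose h.choose_spec.1.1 D).2, reductionAlong_mk h D⟩

include hℓN hπs hπ0 h hg in
/-- Inertia acts trivially on the reduction. -/
theorem reductionAlong_gal_inertia {σ : L ≃ₐ[ℚ] L} (hσ : InducesOn L π σ (RingHom.id k))
    (x : Pic0 L (levelField N L)) :
    reductionAlong A π N (σ • x) = reductionAlong A π N x := by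
  obtain ⟨D, rfl, hD⟩ := exists_clean_rep N L hπs hπ0 h hg _ (finite_not_isSep N k) x
  rw [galois_smul_pic0_def, SemilinearAut.pic0_smul_mk]
  obtain ⟨_, e1⟩ := reductionAlong_eq_push N L hπs hπ0 h D
  obtain ⟨_, e2⟩ := reductionAlong_eq_push N L hπs hπ0 h
    (SemilinearAut.degZeroSMulHom (arithmeticGalois (modularFunctionFieldFull N) σ) D)
  rw [e1, e2]
  refine congrArg Pic0.mk (Subtype.ext ?_)
  show (redOf N L hπs hπ0 h).push (galAut N L σ • (D : Divisor L (levelField N L))) = _
  show Finsupp.mapDomain _ (Finsupp.mapDomain _ (D : Divisor L (levelField N L))) =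
    Finsupp.mapDomain _ _
  rw [← Finsupp.mapDomain_comp]
  refine Finsupp.mapDomain_congr fun P hP => spl_gal_inertia N L ℓ hℓN hπs hπ0 h hσ ?_
  by_contra hbad
  exact Finsupp.mem_support_iff.1 hP (hD P hbad)

theorem heckeOperatorAlong_mk (D : Divisor.degZero (K := L) (F := levelField N L)) :
    ∃ hd : heckeDiv N L ℓ (D : Divisor L (levelField N L)) ∈
        Divisor.degZero (K := L) (F := levelField N L),
      heckeOperatorAlong L N ℓ (Pic0.mk D) = Pic0.mk ⟨_, hd⟩ := by
  have hF := isFunctionField_level L N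
  have hF' := isFunctionField_level L (N * ℓ)
  haveI := hasPrincipalDivisors hF'
  have hα := isIntegral_toRingHom hF hF' (heckeAlphaBar L N ℓ)
  have hβ := isIntegral_toRingHom hF hF' (heckeBetaBar L N ℓ)
  have hFI := fundamentalIdentityAlong hF hF' (heckeBetaBar L N ℓ) hβ
  have hfin := finiteAlong hF hF' (heckeAlphaBar L N ℓ)
  rw [heckeOperatorAlong_eq hα hβ hFI hfin (normFormulaAlong hF hF' (heckeAlphaBar L N ℓ) hfin)]
  exact ⟨(Pic0.degZeroCorrespondence (heckeBetaBar L N ℓ) (heckeAlphaBar L N ℓ) hβ hα hFI D).2,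
    rfl⟩

include hℓN hπs hπ0 h hg in
/-- The congruence relation on the reduction of the Jacobian. -/
theorem reductionAlong_congruence {σ : L ≃ₐ[ℚ] L} (hσ : InducesOn L π σ (frobenius k ℓ))
    (x : Pic0 L (levelField N L)) :
    reductionAlong A π N (heckeOperatorAlong L N ℓ (σ • x)) =
      reductionAlong A π N (σ • σ • x) + ℓ • reductionAlong A π N x := by
  classical
  set g := galAut N L σ
  obtain ⟨S, hS, hclean⟩ := exists_clean_congruence N L ℓ hℓN hπs hπ0 h hσ
  obtain ⟨D, rfl, hD⟩ := exists_clean_rep N L hπs hπ0 h hg S hS x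
  set gD := SemilinearAut.degZeroSMulHom g D
  set ggD := SemilinearAut.degZeroSMulHom g gD
  rw [show σ • σ • Pic0.mk D = Pic0.mk ggD from rfl, show σ • Pic0.mk D = Pic0.mk gD from rfl]
  obtain ⟨hT, eT⟩ := heckeOperatorAlong_mk N L ℓ gD
  rw [eT]
  obtain ⟨_, e1⟩ := reductionAlong_eq_push N L hπs hπ0 h ⟨_, hT⟩
  obtain ⟨_, e2⟩ := reductionAlong_eq_push N L hπs hπ0 h ggD
  obtain ⟨_, e3⟩ := reductionAlong_eq_push N L hπs hπ0 h D
  rw [e1, e2, e3]
  refine (congrArg Pic0.mk (Subtype.ext ?_)).trans
    ((Pic0.mk_add _ _).trans (congrArg (_ + ·) (map_nsmul (QuotientAddGroup.mk' _) ℓ _)))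
  show (redOf N L hπs hπ0 h).push (heckeDiv N L ℓ (g • (D : Divisor L (levelField N L)))) =
    (redOf N L hπs hπ0 h).push (g • g • (D : Divisor L (levelField N L))) +
      ℓ • (redOf N L hπs hπ0 h).push (D : Divisor L (levelField N L))
  set R := redOf N L hπs hπ0 h
  let f₁ : Divisor L (levelField N L) →+ Divisor k (modularFunctionFieldFullC k N) :=
    ((Finsupp.mapDomain.addMonoidHom R.spl).comp (heckeDiv N L ℓ)).comp
      (DistribSMul.toAddMonoidHom _ g)
  let f₂ : Divisor L (levelField N L) →+ Divisor k (modularFunctionFieldFullC k N) :=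
    ((Finsupp.mapDomain.addMonoidHom R.spl).comp (DistribSMul.toAddMonoidHom _ g)).comp
      (DistribSMul.toAddMonoidHom _ g) + ℓ • Finsupp.mapDomain.addMonoidHom R.spl
  show f₁ (D : Divisor L (levelField N L)) = f₂ (D : Divisor L (levelField N L))
  rw [← Finsupp.sum_single (D : Divisor L (levelField N L)), map_finsuppSum, map_finsuppSum]
  refine Finsupp.sum_congr fun P hP => ?_
  rw [show Finsupp.single P ((D : Divisor L (levelField N L)) P) =
    ((D : Divisor L (levelField N L)) P) • Finsupp.single P (1 : ℤ) by simp, map_zsmul, map_zsmul]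
  congr 1
  show R.push (heckeDiv N L ℓ (g • Finsupp.single P (1 : ℤ))) =
    R.push (g • g • Finsupp.single P (1 : ℤ)) + ℓ • R.push (Finsupp.single P (1 : ℤ))
  rw [SemilinearAut.smul_single, SemilinearAut.smul_single, Reduction.push_single,
    Reduction.push_single, Finsupp.smul_single, nsmul_eq_mul, mul_one]
  exact hclean P fun hmem => Finsupp.mem_support_iff.1 hP (hD P hmem)

end FA.ModField
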