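import Fermat.Agent.Curve.Along
import Fermat.Agent.Curve.Value
import Mathlib.LinearAlgebra.Charpoly.ToMatrix
import Mathlib.RingTheory.Norm.Transitivity
import Mathlib.FieldTheory.PrimitiveElement
import Mathlib.RingTheory.Polynomial.Basic

/-!
# Fibres of a finite map of curves and values of functions

Outside a finite set of places a fibre has as many points as the degree and these are separated by
the values of any set of generators.
-/

set_option autoImplicit false
set_option linter.style.haveILetI false
set_option linter.unusedSectionVars false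

noncomputable section

namespace FA.ModField

open AlgebraicCurve FA.Curve Polynomial

section Values

variable {K F : Type*} [Field K] [Field F] [Algebra K F]

theorem atLeast_zero_of_mem {v : Place K F} {f : F} (h : f ∈ v.toValuationSubring) :
    AtLeast v 0 f := atLeast_zero_iff_mem.2 h

theorem hasValue_mul {v : Place K F} {f g : F} {c d : K} (h : HasValue v f c)
    (h' : HasValue v g d) : HasValue v (f * g) (c * d) := by
  have e : f * g - algebraMap K F (c * d) =
      (f - algebraMap K F c) * g + algebraMap K F c * (g - algebraMap K F d) := by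
    rw [map_mul]; ring
  show AtLeast v 1 (f * g - algebraMap K F (c * d))
  rw [e]
  refine AtLeast.add ?_ (AtLeast.smul h' c)
  simpa using AtLeast.mul h h'.atLeast

theorem hasValue_pow {v : Place K F} {f : F} {c : K} (h : HasValue v f c) (n : ℕ) :
    HasValue v (f ^ n) (c ^ n) := by
  induction n with
  | zero => simpa using hasValue_algebraMap v (1 : K)
  | succ n ih => rw [pow_succ, pow_succ]; exact hasValue_mul ih h

theorem hasValue_sum {v : Place K F} {ι : Type*} (s : Finset ι) {f : ι → F} {c : ι → K}
    (h : ∀ i ∈ s, HasValue v (f i) (c i)) : HasValue v (∑ i ∈ s, f i) (∑ i ∈ s, c i) := by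
  classical
  induction s using Finset.induction with
  | empty => simpa using hasValue_algebraMap v (0 : K)
  | insert a s ha ih =>
    rw [Finset.sum_insert ha, Finset.sum_insert ha]
    exact (h a (Finset.mem_insert_self a s)).add (ih fun i hi => h i (Finset.mem_insert_of_mem hi))

variable [IsAlgClosed K] (hF : IsFunctionField K F)

include hF

/-- The residue map of a place, with values in the constants. -/
def valHom (v : Place K F) : v.toValuationSubring →+* K where
  toFun f := (exists_hasValue hF (atLeast_zero_of_mem f.2)).choose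
  map_one' := (exists_hasValue hF (atLeast_zero_of_mem
    (1 : v.toValuationSubring).2)).choose_spec.unique (by simpa using hasValue_algebraMap v (1 : K))
  map_zero' := (exists_hasValue hF (atLeast_zero_of_mem
    (0 : v.toValuationSubring).2)).choose_spec.unique (by simpa using hasValue_algebraMap v (0 : K))
  map_add' f g := (exists_hasValue hF (atLeast_zero_of_mem (f + g).2)).choose_spec.unique
    ((exists_hasValue hF (atLeast_zero_of_mem f.2)).choose_spec.add
      (exists_hasValue hF (atLeast_zero_of_mem g.2)).choose_spec)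
  map_mul' f g := (exists_hasValue hF (atLeast_zero_of_mem (f * g).2)).choose_spec.unique
    (hasValue_mul (exists_hasValue hF (atLeast_zero_of_mem f.2)).choose_spec
      (exists_hasValue hF (atLeast_zero_of_mem g.2)).choose_spec)

theorem hasValue_valHom (v : Place K F) (f : v.toValuationSubring) :
    HasValue v (f : F) (valHom hF v f) :=
  (exists_hasValue hF (atLeast_zero_of_mem f.2)).choose_spec

theorem valHom_eq {v : Place K F} {f : v.toValuationSubring} {c : K}
    (h : HasValue v (f : F) c) : valHom hF v f = c :=
  (hasValue_valHom hF v f).unique h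

end Values

section Tower

variable {K F F' : Type*} [Field K] [Field F] [Field F'] [Algebra K F] [Algebra K F']
  [Algebra F F'] [IsScalarTower K F F'] [Algebra.IsIntegral F F']

theorem hasValue_of_restrict {w : Place K F'} {a : F} {c : K}
    (h : HasValue (w.restrict F) a c) : HasValue w (algebraMap F F' a) c := by
  rw [HasValue, IsScalarTower.algebraMap_apply K F F', ← map_sub]
  rcases h with h0 | h1
  · rw [h0]; exact Or.inl (map_zero _)
  · refine Or.inr ?_
    rw [w.ord_restrict]
    exact one_le_mul_of_one_le_of_one_le (by exact_mod_cast w.ramificationIndex_pos (F := F)) h1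

theorem hasValue_restrict_of_algebraMap {w : Place K F'} {a : F} {c : K}
    (h : HasValue w (algebraMap F F' a) c) : HasValue (w.restrict F) a c := by
  rw [HasValue, IsScalarTower.algebraMap_apply K F F', ← map_sub] at h
  rcases h with h0 | h1
  · exact Or.inl ((map_eq_zero_iff _ (algebraMap F F').injective).1 h0)
  · refine Or.inr ?_
    rw [w.ord_restrict] at h1
    have he : (0 : ℤ) < w.ramificationIndex F := by exact_mod_cast w.ramificationIndex_pos (F := F)
    nlinarith

/-- A root of a polynomial with coefficient values `q` has values among the roots of `q`. -/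
theorem eval_eq_zero_of_root {w : Place K F'} {P : F[X]} {q : K[X]} {x : F'} {a : K}
    (hq : ∀ i, HasValue (w.restrict F) (P.coeff i) (q.coeff i))
    (hdeg : q.natDegree ≤ P.natDegree) (hroot : Polynomial.aeval x P = 0) (hx : HasValue w x a) :
    q.eval a = 0 := by
  refine HasValue.unique (P := w) (f := Polynomial.aeval x P) ?_
    (by rw [hroot]; simpa using hasValue_algebraMap w (0 : K))
  rw [Polynomial.aeval_eq_sum_range, Polynomial.eval_eq_sum_range' (Nat.lt_succ_of_le hdeg)]
  refine hasValue_sum _ fun i _ => ?_
  rw [Algebra.smul_def]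
  exact hasValue_mul (hasValue_of_restrict (hq i)) (hasValue_pow hx i)

/-- A root of a monic polynomial with regular coefficients is regular. -/
theorem mem_of_root {w : Place K F'} {P : F[X]} (hP : P.Monic) {x : F'}
    (hc : ∀ i, P.coeff i ∈ (w.restrict F).toValuationSubring) (hroot : Polynomial.aeval x P = 0) :
    x ∈ w.toValuationSubring := by
  let O := (w.restrict F).toValuationSubring
  have hlift : P.map (algebraMap F F') ∈ Polynomial.lifts (w.toValuationSubring.subtype) := by
    rw [Polynomial.lifts_iff_coeff_lifts]
    intro i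
    rw [Polynomial.coeff_map]
    exact ⟨⟨_, (Place.mem_restrict_iff w).1 (hc i)⟩, rfl⟩
  obtain ⟨p, hp, -, hpm⟩ := Polynomial.lifts_and_degree_eq_and_monic hlift (hP.map _)
  have hint : IsIntegral w.toValuationSubring x := by
    refine ⟨p, hpm, ?_⟩
    show Polynomial.eval₂ w.toValuationSubring.subtype x p = 0
    rw [← Polynomial.eval_map, hp, Polynomial.eval_map, ← Polynomial.aeval_def]
    exact hroot
  obtain ⟨y, hy⟩ := IsIntegrallyClosed.isIntegral_iff.1 hint
  exact hy ▸ y.2

end Tower

section Charpoly

variable {F F' : Type*} [Field F] [Field F'] [Algebra F F'] [FiniteDimensional F F']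

variable (F) in
/-- The characteristic polynomial of multiplication by `x`. -/
def mulCharpoly (x : F') : F[X] := (Algebra.lmul F F' x).charpoly

theorem mulCharpoly_monic (x : F') : (mulCharpoly F x).Monic := LinearMap.charpoly_monic _

theorem natDegree_mulCharpoly (x : F') :
    (mulCharpoly F x).natDegree = Module.finrank F F' := LinearMap.charpoly_natDegree _

theorem aeval_mulCharpoly (x : F') : Polynomial.aeval x (mulCharpoly F x) = 0 :=
  Algebra.aeval_self_charpoly_lmul x

theorem eval_mulCharpoly (x : F') (c : F) :
    (mulCharpoly F x).eval c = Algebra.norm F (algebraMap F F' c - x) := by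
  rw [mulCharpoly, LinearMap.eval_charpoly, Algebra.norm_apply, map_sub (Algebra.lmul F F'),
    AlgHom.commutes]

variable [Algebra.IsSeparable F F']

/-- The characteristic polynomial splits along a full set of embeddings. -/
theorem map_mulCharpoly {Ω : Type*} [Field Ω] (τ : F →+* Ω) {ι : Type*} [Fintype ι]
    (σ : ι → F' →+* Ω) (hσ : Function.Injective σ) (hτ : ∀ i, (σ i).comp (algebraMap F F') = τ)
    (hcard : Fintype.card ι = Module.finrank F F') (hinf : Infinite F) (x : F') :
    (mulCharpoly F x).map τ = ∏ i, (X - C (σ i x)) := by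
  classical
  set Ω' := AlgebraicClosure Ω
  set u : Ω →+* Ω' := algebraMap Ω Ω'
  letI : Algebra F Ω' := (u.comp τ).toAlgebra
  let s : ι → (F' →ₐ[F] Ω') := fun i =>
    { u.comp (σ i) with
      commutes' := fun a => congrArg u (RingHom.congr_fun (hτ i) a) }
  have hs : Function.Injective s := fun i j h => hσ (RingHom.ext fun y =>
    u.injective (AlgHom.congr_fun h y))
  have hbij : Function.Bijective s := by
    rw [Fintype.bijective_iff_injective_and_card]
    exact ⟨hs, by rw [hcard, AlgHom.card]⟩
  apply Polynomial.map_injective u u.injective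
  refine Polynomial.eq_of_infinite_eval_eq _ _ (Set.Infinite.mono ?_
    (Set.infinite_range_of_injective (u.comp τ).injective))
  rintro _ ⟨c, rfl⟩
  show Polynomial.eval _ _ = Polynomial.eval _ _
  rw [Polynomial.map_map, Polynomial.eval_map, Polynomial.eval₂_at_apply, eval_mulCharpoly]
  rw [show (u.comp τ) (Algebra.norm F (algebraMap F F' c - x)) =
      algebraMap F Ω' (Algebra.norm F (algebraMap F F' c - x)) from rfl,
    Algebra.norm_eq_prod_embeddings, ← hbij.prod_comp, Polynomial.map_prod,
    Polynomial.eval_prod]
  refine Finset.prod_congr rfl fun i _ => ?_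
  rw [map_sub (s i), AlgHom.commutes, Polynomial.map_sub, Polynomial.map_X, Polynomial.map_C,
    Polynomial.eval_sub, Polynomial.eval_X, Polynomial.eval_C]
  rfl

end Charpoly

section Good

variable {K F F' : Type*} [Field K] [IsAlgClosed K] [Field F] [Field F'] [Algebra K F] [Algebra K F']
  [Algebra F F'] [IsScalarTower K F F'] [Algebra.IsIntegral F F'] [FiniteDimensional F F']
  [HasPrincipalDivisors K F'] (hF : IsFunctionField K F) (hF' : IsFunctionField K F')

include hF

omit [Algebra K F'] [Algebra F F'] [IsScalarTower K F F'] [Algebra.IsIntegral F F']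
  [FiniteDimensional F F'] [HasPrincipalDivisors K F'] in
theorem finite_not_mem (a : F) :
    {v : Place K F | a ∉ v.toValuationSubring}.Finite := by
  refine (FA.Curve.finite_support hF a).subset fun v hv h0 => hv ?_
  exact atLeast_zero_iff_mem.1 (Or.inr h0.ge)

omit [Algebra K F'] [Algebra F F'] [IsScalarTower K F F'] [Algebra.IsIntegral F F']
  [FiniteDimensional F F'] [HasPrincipalDivisors K F'] in
theorem finite_poles_coeff (p : F[X]) :
    {v : Place K F | ∃ i, p.coeff i ∉ v.toValuationSubring}.Finite := by
  refine ((p.support.finite_toSet).biUnion fun i _ => finite_not_mem hF (p.coeff i)).subset ?_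
  rintro v ⟨i, hi⟩
  refine Set.mem_biUnion (x := i) ?_ hi
  rw [Finset.mem_coe, Polynomial.mem_support_iff]
  exact fun h => hi (h ▸ zero_mem _)

/-- Outside a finite set, equal values of generators give equal values of a polynomial in them. -/
theorem eventually_values_eq {S : Set F'} {θ : F'} (hθ : θ ∈ Algebra.adjoin F S) :
    ∃ B : Set (Place K F), B.Finite ∧ ∀ w w' : Place K F', w.restrict F ∉ B →
      w.restrict F = w'.restrict F → (∀ s ∈ S, ∃ a, HasValue w s a ∧ HasValue w' s a) →
        ∃ a, HasValue w θ a ∧ HasValue w' θ a := by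
  induction hθ using Algebra.adjoin_induction with
  | mem x hx => exact ⟨∅, Set.finite_empty, fun w w' _ _ h => h x hx⟩
  | algebraMap r =>
    refine ⟨_, finite_not_mem hF r, fun w w' hw he _ => ?_⟩
    obtain ⟨c, hc⟩ := exists_hasValue hF
      (atLeast_zero_of_mem (not_not.1 hw : r ∈ (w.restrict F).toValuationSubring))
    exact ⟨c, hasValue_of_restrict hc, hasValue_of_restrict (he ▸ hc)⟩
  | add x y _ _ hx hy =>
    obtain ⟨B, hB, hBx⟩ := hx
    obtain ⟨B', hB', hBy⟩ := hy
    refine ⟨B ∪ B', hB.union hB', fun w w' hw he h => ?_⟩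
    obtain ⟨a, ha, ha'⟩ := hBx w w' (fun h' => hw (Or.inl h')) he h
    obtain ⟨b, hb, hb'⟩ := hBy w w' (fun h' => hw (Or.inr h')) he h
    exact ⟨a + b, ha.add hb, ha'.add hb'⟩
  | mul x y _ _ hx hy =>
    obtain ⟨B, hB, hBx⟩ := hx
    obtain ⟨B', hB', hBy⟩ := hy
    refine ⟨B ∪ B', hB.union hB', fun w w' hw he h => ?_⟩
    obtain ⟨a, ha, ha'⟩ := hBx w w' (fun h' => hw (Or.inl h')) he h
    obtain ⟨b, hb, hb'⟩ := hBy w w' (fun h' => hw (Or.inr h')) he h
    exact ⟨a * b, hasValue_mul ha hb, hasValue_mul ha' hb'⟩

include hF'

theorem ramificationIndex_sum_nat (v : Place K F) :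
    ∑ w ∈ v.fiber F', w.ramificationIndex F = Module.finrank F F' := by
  exact_mod_cast sum_ramificationIndex hF hF' v

/-- Generic fibres: maximal cardinality, no ramification, separated by generators. -/
theorem finite_bad_fibres [Algebra.IsSeparable F F'] (S : Set F')
    (hS : Algebra.adjoin F S = ⊤) :
    ∃ B : Set (Place K F), B.Finite ∧ ∀ v ∉ B,
      (v.fiber F').card = Module.finrank F F' ∧
      (∀ w ∈ v.fiber F', w.ramificationIndex F = 1) ∧
      ∀ w ∈ v.fiber F', ∀ w' ∈ v.fiber F', w ≠ w' →
        ¬ ∀ s ∈ S, ∃ a, HasValue w s a ∧ HasValue w' s a := by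
  classical
  obtain ⟨θ, hθ⟩ := Field.exists_primitive_element F F'
  obtain ⟨B₀, hB₀, hval⟩ := eventually_values_eq (K := K) hF (θ := θ) (hS ▸ Algebra.mem_top)
  set m := mulCharpoly F θ
  have hminp : minpoly F θ = m := by
    refine (Polynomial.eq_of_monic_of_dvd_of_natDegree_le (minpoly.monic (IsIntegral.of_finite F θ))
      (mulCharpoly_monic θ) (minpoly.dvd F θ (aeval_mulCharpoly θ)) ?_).symm
    rw [natDegree_mulCharpoly, ← IntermediateField.adjoin.finrank (IsIntegral.of_finite F θ), hθ,
      IntermediateField.finrank_top']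
  have hsep : m.Separable := hminp ▸ Algebra.IsSeparable.isSeparable F θ
  obtain ⟨a, b, hab⟩ := (Polynomial.separable_def' m).1 hsep
  refine ⟨B₀ ∪ ({v | ∃ i, m.coeff i ∉ v.toValuationSubring} ∪
    ({v | ∃ i, a.coeff i ∉ v.toValuationSubring} ∪ {v | ∃ i, b.coeff i ∉ v.toValuationSubring})),
    hB₀.union ((finite_poles_coeff hF m).union ((finite_poles_coeff hF a).union
      (finite_poles_coeff hF b))), fun v hv => ?_⟩
  simp only [Set.mem_union, Set.mem_setOf_eq, not_or, not_exists, not_not] at hv
  obtain ⟨hv0, hm, ha, hb⟩ := hv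
  set O := v.toValuationSubring
  obtain ⟨m', hm', -, hm'm⟩ := Polynomial.lifts_and_degree_eq_and_monic
    ((Polynomial.lifts_iff_coeff_lifts (f := O.subtype) m).2 fun i => ⟨⟨_, hm i⟩, rfl⟩)
    (mulCharpoly_monic θ)
  obtain ⟨a', ha'⟩ := (Polynomial.lifts_iff_coeff_lifts (f := O.subtype) a).2
    fun i => ⟨⟨_, ha i⟩, rfl⟩
  obtain ⟨b', hb'⟩ := (Polynomial.lifts_iff_coeff_lifts (f := O.subtype) b).2
    fun i => ⟨⟨_, hb i⟩, rfl⟩
  rw [Polynomial.coe_mapRingHom] at ha' hb'
  have hsep' : m'.Separable := by
    refine (Polynomial.separable_def' m').2 ⟨a', b', ?_⟩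
    apply Polynomial.map_injective O.subtype Subtype.val_injective
    rw [Polynomial.map_add, Polynomial.map_mul, Polynomial.map_mul, ← Polynomial.derivative_map,
      hm', ha', hb', Polynomial.map_one, hab]
  set q : K[X] := m'.map (valHom hF v)
  have hqdeg : q.natDegree = Module.finrank F F' := by
    rw [hm'm.natDegree_map, ← natDegree_mulCharpoly (F := F) θ]
    show m'.natDegree = m.natDegree
    rw [← hm', hm'm.natDegree_map]
  have hqval : ∀ i, HasValue v (m.coeff i) (q.coeff i) := by
    intro i
    rw [← hm', Polynomial.coeff_map, Polynomial.coeff_map]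
    exact hasValue_valHom hF v (m'.coeff i)
  have hcount : ∀ c, q.eval c = 0 → ∃ w ∈ v.fiber F', HasValue w θ c := by
    intro c hc
    by_cases hθc : algebraMap F F' (algebraMap K F c) - θ = 0
    · have hne : (v.fiber F').Nonempty := by
        rw [Finset.nonempty_iff_ne_empty]
        intro h0
        have h1 := ramificationIndex_sum_nat hF hF' v
        rw [h0, Finset.sum_empty] at h1
        exact Module.finrank_pos.ne h1
      obtain ⟨w, hw⟩ := hne
      refine ⟨w, hw, Or.inl ?_⟩
      rw [IsScalarTower.algebraMap_apply K F F', ← neg_sub, hθc, neg_zero]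
    have hn : HasValue v (m.eval (algebraMap K F c)) 0 := by
      rw [← hc, Polynomial.eval_eq_sum_range,
        Polynomial.eval_eq_sum_range' (p := q) (n := m.natDegree + 1)
          (by rw [hqdeg, natDegree_mulCharpoly]; omega)]
      exact hasValue_sum _ fun i _ => hasValue_mul (hqval i)
        (hasValue_pow (hasValue_algebraMap v c) i)
    have hnn : m.eval (algebraMap K F c) ≠ 0 := by
      rw [eval_mulCharpoly]
      exact Algebra.norm_ne_zero_iff.2 hθc
    have hpos := (atLeast_iff hnn).1 (hasValue_zero_iff.1 hn)
    rw [eval_mulCharpoly, ← sum_fiber_ord hF hF' v hθc] at hpos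
    obtain ⟨w, hw, hwpos⟩ : ∃ w ∈ v.fiber F',
        0 < w.ord (algebraMap F F' (algebraMap K F c) - θ) := by
      by_contra hno
      push Not at hno
      have := Finset.sum_nonpos hno
      omega
    refine ⟨w, hw, Or.inr ?_⟩
    rw [IsScalarTower.algebraMap_apply K F F', ← neg_sub, place_ord_neg]
    omega
  have hroots : q.roots.toFinset.card = Module.finrank F F' := by
    rw [Multiset.toFinset_card_of_nodup (Polynomial.nodup_roots (hsep'.map (f := valHom hF v))),
      ← (IsAlgClosed.splits q).natDegree_eq_card_roots, hqdeg]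
  have hqne : q ≠ 0 := (hm'm.map _).ne_zero
  choose W hW hWθ using fun c : q.roots.toFinset =>
    hcount c.1 ((Polynomial.mem_roots hqne).1 (Multiset.mem_toFinset.1 c.2))
  have hWinj : Function.Injective W := fun c c' h =>
    Subtype.ext ((hWθ c).unique (h ▸ hWθ c'))
  have hle : (v.fiber F').card ≤ Module.finrank F F' := by
    rw [← ramificationIndex_sum_nat hF hF' v, Finset.card_eq_sum_ones]
    exact Finset.sum_le_sum fun w _ => w.ramificationIndex_pos (F := F)
  have himg : Finset.univ.image W = v.fiber F' := by
    refine Finset.eq_of_subset_of_card_le (fun w hw => ?_) ?_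
    · obtain ⟨c, -, rfl⟩ := Finset.mem_image.1 hw
      exact hW c
    · rw [Finset.card_image_of_injective _ hWinj, Finset.card_univ, Fintype.card_coe, hroots]
      exact hle
  have hcard : (v.fiber F').card = Module.finrank F F' := by
    rw [← himg, Finset.card_image_of_injective _ hWinj, Finset.card_univ, Fintype.card_coe, hroots]
  refine ⟨hcard, fun w hw => ?_, fun w hw w' hw' hne hall => ?_⟩
  · have h := (Finset.sum_eq_sum_iff_of_le (f := fun _ => 1)
      (g := fun w : Place K F' => w.ramificationIndex F)
      fun u _ => u.ramificationIndex_pos (F := F)).1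
      (by rw [← Finset.card_eq_sum_ones, hcard, ramificationIndex_sum_nat hF hF' v]) w hw
    exact h.symm
  · rw [← himg] at hw hw'
    obtain ⟨c, -, rfl⟩ := Finset.mem_image.1 hw
    obtain ⟨c', -, rfl⟩ := Finset.mem_image.1 hw'
    have hr : (W c).restrict F = v := Place.mem_fiber.1 (hW c)
    obtain ⟨x, hx, hx'⟩ := hval (W c) (W c') (hr ▸ hv0)
      (hr.trans (Place.mem_fiber.1 (hW c')).symm) hall
    exact hne (congrArg W (Subtype.ext (((hWθ c).unique hx).trans (hx'.unique (hWθ c')))))

end Good

end FA.ModField
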