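import Fermat.Agent.ModField.Congruence.Setup

/-!
# The arithmetic Galois action on places and its reduction
-/

set_option autoImplicit false
set_option linter.style.haveILetI false
set_option linter.unusedSectionVars false
set_option synthInstance.maxHeartbeats 200000
set_option maxHeartbeats 1600000

noncomputable section

namespace FA.ModField

open ModularCurve AlgebraicCurve FA.Level FA.Curve FA.CurveRed

variable (N : ℕ) [NeZero N] (L : Type) [Field L] [Algebra ℚ L] [Algebra L ℂ] [IsAlgClosed L]

/-- The semilinear automorphism of the function field attached to `σ`. -/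
def galAut (σ : L ≃ₐ[ℚ] L) : SemilinearAut L (levelField N L) :=
  arithmeticGalois (modularFunctionFieldFull N) σ

theorem galAut_levelGen (σ : L ≃ₐ[ℚ] L) (i : Fin N) :
    galAut N L σ • levelGen N L i = levelGen N L i := Subtype.ext (by
  show coeffMap (σ : L →+* L) ((levelGen N L i : levelField N L) : LaurentSeries L) = _
  rw [coe_levelGen, coeffMap_qExpand, coeffMap_jqModC])

theorem baseAut_galAut (σ : L ≃ₐ[ℚ] L) (c : L) :
    SemilinearAut.baseAut (galAut N L σ) c = σ c := rfl

theorem hasValue_gal (σ : L ≃ₐ[ℚ] L) {P : Place L (levelField N L)} {f : levelField N L} {c : L}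
    (h : HasValue P f c) :
    HasValue (galAut N L σ • P) (galAut N L σ • f) (σ c) := by
  have e : galAut N L σ • f - algebraMap L (levelField N L) (σ c) =
      galAut N L σ • (f - algebraMap L (levelField N L) c) := by
    rw [smul_sub, SemilinearAut.smul_algebraMap, baseAut_galAut]
  show AtLeast _ _ _
  rw [e]
  rcases h with h0 | h1
  · exact Or.inl (by rw [h0]; exact smul_zero _)
  · exact Or.inr (by rw [SemilinearAut.ord_smul]; exact h1)

theorem hasValue_gal_gen (σ : L ≃ₐ[ℚ] L) {P : Place L (levelField N L)} {i : Fin N} {c : L}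
    (h : HasValue P (levelGen N L i) c) :
    HasValue (galAut N L σ • P) (levelGen N L i) (σ c) := by
  have := hasValue_gal N L σ h
  rwa [galAut_levelGen] at this

variable (ℓ : ℕ) [hℓ : Fact ℓ.Prime] (hℓN : ¬ ℓ ∣ N)
variable {A : ValuationSubring L} {k : Type} [Field k] [IsAlgClosed k] [CharP k ℓ] {π : A →+* k}
  (hπs : Function.Surjective π) (hπ0 : ∀ a : A, π a = 0 ↔ A.valuation a < 1)
  (h : ReductionInputsAlong A π N)

/-- `σ` preserves `A` and induces `θ` on the residue field. -/
def InducesOn (π : A →+* k) (σ : L ≃ₐ[ℚ] L) (θ : k →+* k) : Prop :=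
  ∀ a : A, ∃ b : A, (b : L) = σ a ∧ π b = θ (π a)

include hℓN in
/-- The values of the generators at a regular place and at its Galois conjugate. -/
theorem values_gal {σ : L ≃ₐ[ℚ] L} {θ : k →+* k} (hθ : InducesOn L π σ θ)
    {P : Place L (levelField N L)} {u : Fin N → k}
    (hreg : AtLeast ((redOf N L hπs hπ0 h).spl P) 0 (redGen N k 0))
    (hu : ∀ i, HasValue ((redOf N L hπs hπ0 h).spl P) (redGen N k i) (u i)) :
    AtLeast ((redOf N L hπs hπ0 h).spl (galAut N L σ • P)) 0 (redGen N k 0) ∧
      ∀ i, HasValue ((redOf N L hπs hπ0 h).spl (galAut N L σ • P)) (redGen N k i) (θ (u i)) := by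
  have hF := isFunctionField_level L N
  have hx : ∀ i, ∃ x : A, HasValue P (levelGen N L i) (x : L) ∧ π x = u i := by
    intro i
    have hnp := (regular_gens N ℓ hℓN L hπs hπ0 h _ hreg i).2
    obtain ⟨c, hc⟩ := exists_hasValue hF (hnp P rfl)
    obtain ⟨hcA, hc'⟩ := Reduction.hasValue_red hF (red_levelGen N L hπs hπ0 h i) hnp rfl hc
    exact ⟨⟨c, hcA⟩, hc, hc'.unique (hu i)⟩
  choose x hx hxu using hx
  choose b hb hbθ using fun i => hθ (x i)
  have hb' : ∀ i, HasValue (galAut N L σ • P) (levelGen N L i) (b i : L) := fun i => by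
    rw [hb i]
    exact hasValue_gal_gen N L σ (hx i)
  have hreg' := regular_of_integral_value N ℓ hℓN L hπs hπ0 h _ (b 0) (hb' 0)
  refine ⟨hreg', fun i => ?_⟩
  obtain ⟨_, hv⟩ := Reduction.hasValue_red hF (red_levelGen N L hπs hπ0 h i)
    (regular_gens N ℓ hℓN L hπs hπ0 h _ hreg' i).2 (P := galAut N L σ • P) rfl (hb' i)
  rw [← hxu i, ← hbθ i]
  exact hv

end FA.ModField
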