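import Fermat.Agent.ModField.Congruence.Gens
import Mathlib.RingTheory.Valuation.ValuationSubring
import Mathlib.FieldTheory.Finite.Basic

/-!
# Integrality and reduction of the characteristic polynomials
-/

set_option autoImplicit false
set_option linter.style.haveILetI false
set_option linter.unusedSectionVars false
set_option synthInstance.maxHeartbeats 200000
set_option maxHeartbeats 1600000

noncomputable section

namespace FA.ModField

open ModularCurve Polynomial

/-- In characteristic `ℓ`, raising a series over the prime field to the power `ℓ` is `q ↦ q^ℓ`. -/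
theorem pow_prime_eq_qExpand (ℓ : ℕ) [hℓ : Fact ℓ.Prime] (f : LaurentSeries (ZMod ℓ)) :
    f ^ ℓ = qExpand (ZMod ℓ) ℓ f := by
  haveI : CharP (LaurentSeries (ZMod ℓ)) ℓ :=
    charP_of_injective_ringHom (f := (HahnSeries.C : ZMod ℓ →+* LaurentSeries (ZMod ℓ)))
      HahnSeries.C_injective ℓ
  let D : LaurentSeries (ZMod ℓ) →+* LaurentSeries (ZMod ℓ) := frobenius _ ℓ
  have hsingle : ∀ (j : ℤ) (r : ZMod ℓ),
      D (HahnSeries.single j r) = qExpand (ZMod ℓ) ℓ (HahnSeries.single j r) := by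
    intro j r
    rw [frobenius_def, HahnSeries.single_pow, qExpand_single, ZMod.pow_card, nsmul_eq_mul]
  ext n
  set a : ℤ := min f.order (-1)
  set b : ℤ := max (n + 1) 1
  set f₀ : LaurentSeries (ZMod ℓ) := ∑ j ∈ Finset.Icc a b, HahnSeries.single j (f.coeff j) with hf₀
  have hc : ∀ i, f₀.coeff i = if i ∈ Finset.Icc a b then f.coeff i else 0 := by
    intro i
    rw [hf₀, HahnSeries.coeff_sum]
    simp only [HahnSeries.coeff_single]
    convert Finset.sum_ite_eq (Finset.Icc a b) i fun x => f.coeff x using 1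
    refine Finset.sum_congr rfl fun x _ => ?_
    split_ifs <;> rfl
  have hrest : OrdGE (b + 1) (f - f₀) := by
    intro i hi
    rw [HahnSeries.coeff_sub, hc]
    split_ifs with h
    · exact sub_self _
    · rw [Finset.mem_Icc, not_and] at h
      have hia : i < a := by
        by_contra h'
        exact h (not_lt.1 h') (by omega)
      have : f.coeff i = 0 := HahnSeries.coeff_eq_zero_of_lt_order (by omega)
      rw [this, sub_self]
  have hb : 0 ≤ b + 1 := by omega
  have hn : n < (ℓ : ℤ) * (b + 1) := by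
    have h2 : (2 : ℤ) ≤ ℓ := by exact_mod_cast hℓ.out.two_le
    nlinarith [le_max_left (n + 1) 1]
  have h1 : (D (f - f₀)).coeff n = 0 := by
    rw [frobenius_def]
    refine hrest.pow ℓ n ?_
    simpa [mul_comm] using hn
  have h2 : (qExpand (ZMod ℓ) ℓ (f - f₀)).coeff n = 0 := by
    by_cases hd : (ℓ : ℤ) ∣ n
    · obtain ⟨m, rfl⟩ := hd
      rw [qExpand_coeff_mul]
      refine hrest m ?_
      have hl : (0 : ℤ) < ℓ := by exact_mod_cast hℓ.out.pos
      nlinarith
    · exact qExpand_coeff_of_not_dvd ℓ _ hd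
  have h0 : D f₀ = qExpand (ZMod ℓ) ℓ f₀ := by
    rw [hf₀, map_sum, map_sum]
    exact Finset.sum_congr rfl fun j _ => hsingle j _
  have e1 : f ^ ℓ = D (f - f₀) + D f₀ := by rw [← map_add, sub_add_cancel, frobenius_def]
  have e2 : qExpand (ZMod ℓ) ℓ f = qExpand (ZMod ℓ) ℓ (f - f₀) + qExpand (ZMod ℓ) ℓ f₀ := by
    rw [← map_add, sub_add_cancel]
  rw [e1, e2, HahnSeries.coeff_add, HahnSeries.coeff_add, h1, h2, h0]

theorem jqd_pow_prime {k : Type*} [Field k] (ℓ : ℕ) [hℓ : Fact ℓ.Prime] [CharP k ℓ] (d : ℕ)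
    [NeZero d] : qExpand k d (jqModC k) ^ ℓ = qExpand k ℓ (qExpand k d (jqModC k)) := by
  have h := congrArg (coeffMap (ZMod.castHom (dvd_refl ℓ) k))
    (pow_prime_eq_qExpand ℓ (qExpand (ZMod ℓ) d (jqModC (ZMod ℓ))))
  simp only [map_pow, coeffMap_qExpand, coeffMap_jqModC] at h
  exact h

theorem coeffMap_conjMap {R S : Type*} [CommRing R] [CommRing S] (φ : R →+* S) (ℓ : ℕ) [NeZero ℓ]
    (ζ : Rˣ) (i : Option (Fin ℓ)) (f : LaurentSeries R) :
    coeffMap φ (conjMap ℓ ζ i f) =
      conjMap ℓ (Units.map φ.toMonoidHom ζ) i (coeffMap φ f) := by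
  cases i with
  | none =>
    haveI : NeZero (ℓ * ℓ) := ⟨mul_ne_zero (NeZero.ne ℓ) (NeZero.ne ℓ)⟩
    exact coeffMap_qExpand φ (ℓ * ℓ) f
  | some b =>
    show coeffMap φ (twist (ζ ^ (b : ℕ)) f) = twist (_ ^ (b : ℕ)) _
    rw [coeffMap_twist, map_pow]
    rfl

variable (N ℓ : ℕ) [NeZero N] [hℓ : Fact ℓ.Prime] (hℓN : ¬ ℓ ∣ N)
variable (L : Type) [Field L] [Algebra ℚ L] [Algebra L ℂ] [IsAlgClosed L]
variable (A : ValuationSubring L) {k : Type} [Field k] [CharP k ℓ] (π : A →+* k)

/-- The root of unity in the valuation ring. -/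
theorem exists_zeta_val :
    ∃ ζ : Aˣ, algebraMap L ℂ ((ζ : A) : L) = (zetaN ℓ : ℂ) ∧ π (ζ : A) = 1 := by
  haveI : CharZero L := charZero_of_injective_algebraMap (algebraMap ℚ L).injective
  haveI : NeZero (ℓ : L) := ⟨Nat.cast_ne_zero.2 hℓ.out.ne_zero⟩
  obtain ⟨z, hz⟩ := HasEnoughRootsOfUnity.exists_primitiveRoot L ℓ
  obtain ⟨i, -, hi⟩ := (hz.map_of_injective (algebraMap L ℂ).injective).eq_pow_of_pow_eq_one
    (zetaN_prim ℓ).pow_eq_one
  rw [← map_pow] at hi
  set w := z ^ i
  have hw : w ^ ℓ = 1 := (algebraMap L ℂ).injective (by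
    rw [map_pow, hi, map_one, (zetaN_prim ℓ).pow_eq_one])
  obtain ⟨wA, hwA⟩ := IsIntegrallyClosed.isIntegral_iff.1 (show IsIntegral A w from
    ⟨X ^ ℓ - C 1, monic_X_pow_sub_C 1 hℓ.out.ne_zero, by simp [hw]⟩)
  have hpow : wA ^ ℓ = 1 := Subtype.ext (by
    rw [SubmonoidClass.coe_pow, OneMemClass.coe_one]
    exact (congrArg (· ^ ℓ) hwA).trans hw)
  refine ⟨Units.ofPowEqOne wA ℓ hpow hℓ.out.ne_zero, ?_, ?_⟩
  · rw [← hi]
    exact congrArg (algebraMap L ℂ) hwA
  · show π wA = 1
    have h1 := congrArg π hpow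
    rw [map_pow, map_one] at h1
    have h2 : (π wA - 1) ^ ℓ = 0 := by rw [sub_pow_char, h1, one_pow, sub_self]
    exact sub_eq_zero.1 (pow_eq_zero_iff hℓ.out.ne_zero |>.1 h2)

include hℓN in
/-- The coefficients are integral series, with the expected reduction. -/
theorem exists_coeff_series (x : levelField N L) (X₀ : LaurentSeries A)
    (hX : coeffMap (A.subtype : A →+* L) X₀ = (x : LaurentSeries L)) (G₂ : LaurentSeries k)
    (hG : qExpand k ℓ G₂ = coeffMap π X₀ ^ ℓ) (m : ℕ) :
    ∃ Y : LaurentSeries A,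
      coeffMap (A.subtype : A →+* L) Y = ((heckePoly N ℓ L x).coeff m : LaurentSeries L) ∧
      coeffMap π Y = ((X - C (qExpand k ℓ (coeffMap π X₀))) * (X ^ ℓ - C G₂)).coeff m := by
  classical
  obtain ⟨ζ, hζC, hζk⟩ := exists_zeta_val ℓ L A π
  set P : (LaurentSeries A)[X] := ∏ i, (X - C (conjMap ℓ ζ i X₀))
  set ιA : A →+* ℂ := (algebraMap L ℂ).comp A.subtype
  have hζU : Units.map ιA.toMonoidHom ζ = zetaN ℓ := Units.ext hζC
  have hX' : coeffMap ιA X₀ = toCSer L x := by
    rw [← coeffMap_coeffMap, hX]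
    rfl
  have hPC : coeffMap ιA (P.coeff m) = (conjPoly N ℓ L x).coeff m := by
    rw [← Polynomial.coeff_map, Polynomial.map_prod, conjPoly]
    refine congrArg (fun p : (LaurentSeries ℂ)[X] => p.coeff m)
      (Finset.prod_congr rfl fun i _ => ?_)
    rw [Polynomial.map_sub, Polynomial.map_X, Polynomial.map_C, coeffMap_conjMap, hζU, hX']
  set c : LaurentSeries L := ((heckePoly N ℓ L x).coeff m : LaurentSeries L)
  have hkey : ∀ n : ℤ, (qExpand L ℓ c).coeff n = ((P.coeff m).coeff n : L) := by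
    intro n
    apply (algebraMap L ℂ).injective
    have h := congrArg (fun f : LaurentSeries ℂ => f.coeff n)
      ((qExpand_coeff_heckePoly N ℓ hℓN L x m).trans hPC.symm)
    simp only [coeffMap_coeff] at h
    rw [show qExpand ℂ ℓ (toCSer L ((heckePoly N ℓ L x).coeff m)) =
      coeffMap (algebraMap L ℂ) (qExpand L ℓ c) from (coeffMap_qExpand _ _ _).symm,
      coeffMap_coeff] at h
    exact h
  have hmem : ∀ n : ℤ, c.coeff n ∈ A := fun n => by
    rw [← qExpand_coeff_mul ℓ c n, hkey]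
    exact SetLike.coe_mem _
  let Y : LaurentSeries A :=
    { coeff := fun n => ⟨c.coeff n, hmem n⟩
      isPWO_support' := c.isPWO_support.mono fun n hn h0 => hn (Subtype.ext h0) }
  have hY : coeffMap (A.subtype : A →+* L) Y = c := HahnSeries.ext (funext fun n => rfl)
  have hYP : qExpand A ℓ Y = P.coeff m := by
    refine coeffMap_injective' (φ := (A.subtype : A →+* L)) Subtype.val_injective ?_
    rw [coeffMap_qExpand, hY]
    exact HahnSeries.ext (funext fun n => hkey n)
  refine ⟨Y, hY, qExpand_injective ℓ ?_⟩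
  rw [← coeffMap_qExpand π ℓ Y, hYP, ← Polynomial.coeff_map, Polynomial.map_prod,
    ← Polynomial.coeff_map]
  refine congrArg (fun p : (LaurentSeries k)[X] => p.coeff m) ?_
  haveI : CharP (LaurentSeries k) ℓ :=
    charP_of_injective_ringHom (f := (HahnSeries.C : k →+* LaurentSeries k))
      HahnSeries.C_injective ℓ
  have hone : Units.map π.toMonoidHom ζ = 1 := Units.ext hζk
  have hfac : ∀ i, Polynomial.map (coeffMap π) (X - C (conjMap ℓ ζ i X₀)) =
      X - C (conjMap ℓ (1 : kˣ) i (coeffMap π X₀)) := fun i => by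
    rw [Polynomial.map_sub, Polynomial.map_X, Polynomial.map_C, coeffMap_conjMap, hone]
  rw [Finset.prod_congr rfl fun i _ => hfac i, Fintype.prod_option]
  have hsome : ∀ b : Fin ℓ, conjMap ℓ (1 : kˣ) (some b) (coeffMap π X₀) = coeffMap π X₀ :=
    fun b => by show twist ((1 : kˣ) ^ (b : ℕ)) _ = _; rw [one_pow, twist_one_apply]
  rw [Finset.prod_congr rfl fun b _ => by rw [hsome b], Finset.prod_const, Finset.card_univ,
    Fintype.card_fin, Polynomial.map_mul, Polynomial.map_sub, Polynomial.map_sub,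
    Polynomial.map_pow, Polynomial.map_X, Polynomial.map_C, Polynomial.map_C, hG, qExpand_qExpand,
    sub_pow_char, ← Polynomial.C_pow]
  rfl

end FA.ModField
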