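import Fermat.Agent.CurveRed.Basic
import Fermat.Agent.Curve.Riemann
import Fermat.Agent.ModField.Congruence.Fibre
import Mathlib.Algebra.Module.Submodule.Union

/-!
# Clean places of a constant reduction

Poles do not cancel when degrees are preserved; places of the special fibre are, up to finitely
many, determined by the values of generators; every divisor class avoids finitely many residue
discs.
-/

set_option autoImplicit false
set_option linter.style.haveILetI false
set_option linter.unusedSectionVars false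

noncomputable section

namespace FA.ModField

open AlgebraicCurve FA.Curve FA.CurveRed

section Separate

variable {k Fk : Type*} [Field k] [IsAlgClosed k] [Field Fk] [Algebra k Fk]
  (hk : IsFunctionField k Fk)

include hk

omit hk in
theorem values_eq_of_mem_adjoin {ι : Type*} (g : ι → Fk) {Q Q' : Place k Fk} {v : ι → k}
    (hQ : ∀ i, HasValue Q (g i) (v i)) (hQ' : ∀ i, HasValue Q' (g i) (v i)) {x : Fk}
    (hx : x ∈ Algebra.adjoin k (Set.range g)) : ∃ c, HasValue Q x c ∧ HasValue Q' x c := by
  induction hx using Algebra.adjoin_induction with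
  | mem y hy => obtain ⟨i, rfl⟩ := hy; exact ⟨v i, hQ i, hQ' i⟩
  | algebraMap r => exact ⟨r, hasValue_algebraMap Q r, hasValue_algebraMap Q' r⟩
  | add x y _ _ hx hy =>
    obtain ⟨a, ha, ha'⟩ := hx
    obtain ⟨b, hb, hb'⟩ := hy
    exact ⟨a + b, ha.add hb, ha'.add hb'⟩
  | mul x y _ _ hx hy =>
    obtain ⟨a, ha, ha'⟩ := hx
    obtain ⟨b, hb, hb'⟩ := hy
    exact ⟨a * b, hasValue_mul ha hb, hasValue_mul ha' hb'⟩

/-- Up to finitely many, places are determined by the values of generators. -/
theorem finite_not_separated {ι : Type*} (g : ι → Fk)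
    (hgen : ∀ f : Fk, ∃ a ∈ Algebra.adjoin k (Set.range g), ∃ b ∈ Algebra.adjoin k (Set.range g),
      b ≠ 0 ∧ f * b = a)
    {i₀ : ι} (hi₀ : Transcendental k (g i₀)) :
    ∃ S : Set (Place k Fk), S.Finite ∧ ∀ Q ∉ S, ∀ Q' : Place k Fk,
      (∀ i, ∃ c, HasValue Q (g i) c ∧ HasValue Q' (g i) c) → Q' = Q := by
  classical
  obtain ⟨Q₀, hQ₀⟩ := exists_ord_neg hk hi₀
  obtain ⟨c, hc⟩ := exists_threshold hk
  set N : ℕ := c.toNat + 3 with hN
  set D : Divisor k Fk := Finsupp.single Q₀ (N : ℤ) with hD
  haveI := finite_riemannRochSpace hk D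
  let e := Module.finBasis k (riemannRochSpace D)
  choose a ha b hb hb0 hab using fun i => hgen (e i : Fk)
  refine ⟨{Q₀} ∪ ⋃ i, {Q : Place k Fk | 0 < Q.ord (b i)},
    (Set.finite_singleton Q₀).union (Set.finite_iUnion fun i => finite_zeros hk (b i)),
    fun Q hQ Q' hval => ?_⟩
  simp only [Set.mem_union, Set.mem_singleton_iff, Set.mem_iUnion, Set.mem_setOf_eq, not_or,
    not_exists] at hQ
  obtain ⟨hQne, hQb⟩ := hQ
  choose v hv hv' using hval
  have hQ'ne : Q' ≠ Q₀ := fun h => by
    have := (hv' i₀).atLeast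
    have hne : g i₀ ≠ 0 := fun h0 => by
      rw [h0] at hi₀
      exact hi₀ isAlgebraic_zero
    rw [h, atLeast_iff hne] at this
    omega
  by_contra hne
  have hall : ∀ f ∈ riemannRochSpace D, ∃ t, HasValue Q f t ∧ HasValue Q' f t := by
    have hbasis : ∀ i, ∃ t, HasValue Q (e i : Fk) t ∧ HasValue Q' (e i : Fk) t := by
      intro i
      obtain ⟨s, hs, hs'⟩ := values_eq_of_mem_adjoin g hv hv' (hb i)
      obtain ⟨r, hr, hr'⟩ := values_eq_of_mem_adjoin g hv hv' (ha i)
      have hreg : ∀ P : Place k Fk, P ≠ Q₀ → AtLeast P 0 (e i : Fk) := fun P hP => by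
        have := FA.Curve.mem_riemannRochSpace.1 (e i).2 P
        have hDP : D P = 0 := Finsupp.single_eq_of_ne hP
        rwa [hDP, neg_zero] at this
      obtain ⟨t, ht⟩ := exists_hasValue hk (hreg Q hQne)
      obtain ⟨t', ht'⟩ := exists_hasValue hk (hreg Q' hQ'ne)
      have hs0 : s ≠ 0 := fun h => by
        have h1 := (atLeast_iff (hb0 i)).1 (hasValue_zero_iff.1 (h ▸ hs))
        exact hQb i (by omega)
      have e1 := (hasValue_mul ht hs).unique ((hab i).symm ▸ hr)
      have e2 := (hasValue_mul ht' hs').unique ((hab i).symm ▸ hr')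
      have : t = t' := mul_right_cancel₀ hs0 (e1.trans e2.symm)
      exact ⟨t, ht, this ▸ ht'⟩
    intro f hf
    choose t ht ht' using hbasis
    set z : riemannRochSpace D := ⟨f, hf⟩
    have hf' : ∑ i, algebraMap k Fk (e.repr z i) * (e i : Fk) = f := by
      have h := congrArg Subtype.val (e.sum_repr z)
      simp only [AddSubmonoidClass.coe_finsetSum, SetLike.val_smul, Algebra.smul_def] at h
      exact h
    have h1 : HasValue Q (∑ i, algebraMap k Fk (e.repr z i) * (e i : Fk))
        (∑ i, e.repr z i * t i) := hasValue_sum _ fun i _ => (ht i).smul _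
    have h2 : HasValue Q' (∑ i, algebraMap k Fk (e.repr z i) * (e i : Fk))
        (∑ i, e.repr z i * t i) := hasValue_sum _ fun i _ => (ht' i).smul _
    rw [hf'] at h1 h2
    exact ⟨_, h1, h2⟩
  have hd1 : Divisor.degree (D - Finsupp.single Q 1) = N - 1 := by simp [hD, hk.deg_eq_one]
  have hd2 : Divisor.degree (D - Finsupp.single Q 1 - Finsupp.single Q' 1) = N - 2 := by
    simp [hD, hk.deg_eq_one]; ring
  have hl1 := hc _ (show c ≤ Divisor.degree (D - Finsupp.single Q 1) by omega)
  have hl2 := hc _ (show c ≤ Divisor.degree (D - Finsupp.single Q 1 - Finsupp.single Q' 1) by omega)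
  obtain ⟨f, hf, hf'⟩ : ∃ f ∈ riemannRochSpace (D - Finsupp.single Q 1),
      f ∉ riemannRochSpace (D - Finsupp.single Q 1 - Finsupp.single Q' 1) := by
    by_contra hno
    push Not at hno
    haveI := finite_riemannRochSpace hk (D - Finsupp.single Q 1 - Finsupp.single Q' 1)
    have h := Submodule.finrank_mono (s := riemannRochSpace (D - Finsupp.single Q 1)) hno
    have h' : ell (D - Finsupp.single Q 1) ≤
        ell (D - Finsupp.single Q 1 - Finsupp.single Q' 1) := Int.ofNat_le.2 h
    omega
  have hfQ : HasValue Q f 0 := by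
    rw [hasValue_zero_iff]
    have := FA.Curve.mem_riemannRochSpace.1 hf Q
    simpa [hD, Finsupp.single_eq_of_ne hQne] using this
  have hfD : f ∈ riemannRochSpace D :=
    riemannRochSpace_mono (sub_le_self _ (Finsupp.single_nonneg.2 zero_le_one)) hf
  obtain ⟨t, ht, ht'⟩ := hall f hfD
  refine hf' (FA.Curve.mem_riemannRochSpace.2 fun P => ?_)
  rcases eq_or_ne P Q' with rfl | hP
  · rw [(ht.unique hfQ : t = 0), hasValue_zero_iff] at ht'
    simpa [hD, Finsupp.single_eq_of_ne hQ'ne, Finsupp.single_eq_of_ne hne] using ht'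
  · simpa [Finsupp.single_eq_of_ne hP] using FA.Curve.mem_riemannRochSpace.1 hf P

end Separate

section Red

variable {K F k Fk : Type*} [Field K] [IsAlgClosed K] [Field F] [Algebra K F]
  [Field k] [IsAlgClosed k] [Field Fk] [Algebra k Fk] {A : ValuationSubring K}
  {R : Reduction K F k Fk A} (hF : IsFunctionField K F) (hk : IsFunctionField k Fk)

include hF hk

/-- Poles do not cancel when the degree is preserved. -/
theorem push_poleDiv {f : F} {r : Fk} (h : R.Red f r) (hr : Transcendental k r)
    (hf : Transcendental K f)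
    (hdeg' : Module.finrank (IntermediateField.adjoin K {f}) F =
        Module.finrank (IntermediateField.adjoin k {r}) Fk) :
    R.push (poleDiv hF f) = poleDiv hk r := by
  classical
  have hr0 : r ≠ 0 := fun h0 => hr (h0 ▸ isAlgebraic_zero)
  have hZ : (0 : Divisor K F) ≤ divOf hF f + poleDiv hF f := Finsupp.le_def.2 fun P => by
    simp only [Finsupp.coe_zero, Pi.zero_apply, Finsupp.add_apply, divOf_apply, poleDiv_apply]
    omega
  have hge : poleDiv hk r ≤ R.push (poleDiv hF f) := Finsupp.le_def.2 fun Q => by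
    have h1 := Finsupp.le_def.1 (Reduction.push_nonneg (R := R) hZ) Q
    rw [Reduction.push_add, Finsupp.add_apply, Reduction.push_divOf hF h hr0 Q] at h1
    have h2 := Finsupp.le_def.1 (Reduction.push_nonneg (R := R) (poleDiv_nonneg hF f)) Q
    simp only [Finsupp.coe_zero, Pi.zero_apply] at h1 h2
    rw [poleDiv_apply]
    omega
  have hd : Divisor.degree (R.push (poleDiv hF f) - poleDiv hk r) = 0 := by
    rw [map_sub, Reduction.degree_push hF hk, degree_poleDiv hF hf, degree_poleDiv hk hr, hdeg',
      sub_self]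
  rw [degree_eq_sum hk, Finsupp.sum, Finset.sum_eq_zero_iff_of_nonneg (fun Q _ => by
    have := Finsupp.le_def.1 hge Q
    simp only [Finsupp.sub_apply]; omega)] at hd
  refine Finsupp.ext fun Q => ?_
  by_contra hne
  have h0 := hd Q (Finsupp.mem_support_iff.2 (by rw [Finsupp.sub_apply, sub_ne_zero]; exact hne))
  rw [Finsupp.sub_apply, sub_eq_zero] at h0
  exact hne h0

theorem noPole_of_regular {f : F} {r : Fk} (h : R.Red f r) (hr : Transcendental k r)
    (hf : Transcendental K f)
    (hdeg : Module.finrank (IntermediateField.adjoin K {f}) F =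
        Module.finrank (IntermediateField.adjoin k {r}) Fk)
    {Q : Place k Fk} (hQ : 0 ≤ Q.ord r) : Reduction.NoPole R Q f := by
  classical
  intro P hP
  have h1 := congrArg (fun D : Divisor k Fk => D Q) (push_poleDiv hF hk h hr hf hdeg)
  simp only [Reduction.push_apply, poleDiv_apply hk r Q] at h1
  rw [show max 0 (-Q.ord r) = 0 by omega, Finset.sum_eq_zero_iff_of_nonneg] at h1
  · refine Or.inr ?_
    by_contra hneg
    have h2 := h1 P (Finsupp.mem_support_iff.2 (by rw [poleDiv_apply]; omega))
    rw [if_pos hP, poleDiv_apply] at h2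
    omega
  · intro P' _
    split_ifs
    · rw [poleDiv_apply]; omega
    · rfl

/-- Over a pole of the reduction there are no values in the valuation ring. -/
theorem regular_of_value {f : F} {r : Fk} (h : R.Red f r) (hr : Transcendental k r)
    (hf : Transcendental K f)
    (hdeg : Module.finrank (IntermediateField.adjoin K {f}) F =
        Module.finrank (IntermediateField.adjoin k {r}) Fk)
    {P : Place K F} {a : A} (ha : HasValue P f (a : K)) : 0 ≤ (R.spl P).ord r := by
  classical
  set Q := R.spl P
  by_contra hneg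
  push Not at hneg
  have hg := h.sub (Reduction.red_const (R := R) a)
  set g := f - algebraMap K F a
  set s := r - algebraMap k Fk (R.π a)
  have hord : Q.ord s = Q.ord r := by
    have hr0 : r ≠ 0 := fun h0 => hr (h0 ▸ isAlgebraic_zero)
    have h2 := ord_add_eq_left (v := Q) hr0 (g := -algebraMap k Fk (R.π a))
      ((atLeast_algebraMap (v := Q) (R.π a)).neg.mono (by omega))
    rw [← sub_eq_add_neg] at h2
    exact h2.2
  have hs : Transcendental k s := transcendental_of_ord_ne_zero Q (by omega)
  have hg0 : g ≠ 0 := hg.ne_zero fun h0 => hs (h0 ▸ isAlgebraic_zero)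
  have hgt : Transcendental K g := by
    refine transcendental_of_ord_ne_zero P ?_
    have := (atLeast_iff hg0).1 ha
    omega
  have e1 : IntermediateField.adjoin K {g} = IntermediateField.adjoin K {f} := by
    apply le_antisymm <;> rw [IntermediateField.adjoin_simple_le_iff]
    · exact sub_mem (IntermediateField.mem_adjoin_simple_self K f)
        (IntermediateField.algebraMap_mem _ _)
    · have h2 := add_mem (IntermediateField.mem_adjoin_simple_self K g)
        (IntermediateField.algebraMap_mem (IntermediateField.adjoin K {g}) (a : K))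
      rwa [sub_add_cancel] at h2
  have e2 : IntermediateField.adjoin k {s} = IntermediateField.adjoin k {r} := by
    apply le_antisymm <;> rw [IntermediateField.adjoin_simple_le_iff]
    · exact sub_mem (IntermediateField.mem_adjoin_simple_self k r)
        (IntermediateField.algebraMap_mem _ _)
    · have h2 := add_mem (IntermediateField.mem_adjoin_simple_self k s)
        (IntermediateField.algebraMap_mem (IntermediateField.adjoin k {s}) (R.π a))
      rwa [sub_add_cancel] at h2
  have hdeg' : Module.finrank (IntermediateField.adjoin K {g}) F =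
      Module.finrank (IntermediateField.adjoin k {s}) Fk := by rw [e1, e2, hdeg]
  have hpush := congrArg (fun D : Divisor k Fk => D Q) (push_poleDiv hF hk hg hs hgt hdeg')
  have hdiv := Reduction.push_divOf hF hg (fun h0 => hs (h0 ▸ isAlgebraic_zero)) Q
  have hzero : R.push (divOf hF g + poleDiv hF g) Q = 0 := by
    rw [Reduction.push_add, Finsupp.add_apply, hdiv, hpush, poleDiv_apply]
    omega
  rw [Reduction.push_apply, Finset.sum_eq_zero_iff_of_nonneg] at hzero
  · have h1 := (atLeast_iff hg0).1 ha
    have h2 := hzero P (Finsupp.mem_support_iff.2 (by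
      rw [Finsupp.add_apply, divOf_apply, poleDiv_apply]; omega))
    rw [if_pos rfl, Finsupp.add_apply, divOf_apply, poleDiv_apply] at h2
    omega
  · intro P' _
    split_ifs
    · rw [Finsupp.add_apply, divOf_apply, poleDiv_apply]; omega
    · rfl

/-- A place is equivalent to a divisor avoiding finitely many discs. -/
theorem exists_moving (hg : genus K F ≤ genus k Fk) (S : Set (Place k Fk)) (hS : S.Finite)
    (P : Place K F) :
    ∃ g : F, g ≠ 0 ∧ P.ord g = 1 ∧ ∀ P', P' ≠ P → R.spl P' ∈ S → P'.ord g = 0 := by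
  classical
  set Q := R.spl P with hQdef
  obtain ⟨c, hc⟩ := exists_threshold hF
  obtain ⟨c', hc'⟩ := exists_threshold hk
  haveI := infinite_places hk
  obtain ⟨Q₀, hQ₀⟩ := (hS.insert Q).infinite_compl.nonempty
  simp only [Set.mem_compl_iff, Set.mem_insert_iff, not_or] at hQ₀
  obtain ⟨P₀, hP₀⟩ := Reduction.spl_surjective hF hk (R := R) Q₀
  set N : ℕ := c.toNat + c'.toNat + 2
  set V := riemannRochSpace (Finsupp.single Q₀ (N : ℤ) - Finsupp.single Q 1 : Divisor k Fk) with hV
  let bad : (hS.insert Q).toFinset → Submodule k V := fun s =>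
    (riemannRochSpace (Finsupp.single Q₀ (N : ℤ) - Finsupp.single Q 1 -
      Finsupp.single (s : Place k Fk) 1 : Divisor k Fk)).comap V.subtype
  haveI := IsAlgClosed.instInfinite (K := k)
  have hbad : ∀ s, bad s ≠ ⊤ := by
    intro s htop
    have hle : V ≤ riemannRochSpace (Finsupp.single Q₀ (N : ℤ) - Finsupp.single Q 1 -
        Finsupp.single (s : Place k Fk) 1 : Divisor k Fk) := fun x hx => by
      have h1 : (⟨x, hx⟩ : V) ∈ bad s := htop ▸ Submodule.mem_top
      exact h1
    haveI := finite_riemannRochSpace hk (Finsupp.single Q₀ (N : ℤ) - Finsupp.single Q 1 -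
      Finsupp.single (s : Place k Fk) 1 : Divisor k Fk)
    have h2 : ell (Finsupp.single Q₀ (N : ℤ) - Finsupp.single Q 1 : Divisor k Fk) ≤ ell
        (Finsupp.single Q₀ (N : ℤ) - Finsupp.single Q 1 - Finsupp.single (s : Place k Fk) 1 :
          Divisor k Fk) := Int.ofNat_le.2 (Submodule.finrank_mono hle)
    rw [hc' _ (by simp [hk.deg_eq_one]; omega), hc' _ (by simp [hk.deg_eq_one]; omega)] at h2
    simp [hk.deg_eq_one] at h2
  obtain ⟨⟨r, hr⟩, hrbad⟩ := Submodule.exists_forall_notMem_of_forall_ne_top bad hbad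
  have hord : ∀ s ∈ insert Q S, s.ord r = (if s = Q then 1 else 0) := by
    intro s hs
    have h1 := FA.Curve.mem_riemannRochSpace.1 hr
    have h2 := hrbad ⟨s, (hS.insert Q).mem_toFinset.2 hs⟩
    simp only [bad, Submodule.mem_comap, Submodule.subtype_apply,
      FA.Curve.mem_riemannRochSpace, not_forall] at h2
    obtain ⟨w, hw⟩ := h2
    have h1w := h1 w
    rw [AtLeast, not_or] at hw
    rw [atLeast_iff hw.1] at h1w
    have hws : w = s := by
      by_contra hne
      simp [Finsupp.single_eq_of_ne hne] at hw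
      simp at h1w
      omega
    subst hws
    have hne0 : w ≠ Q₀ := fun h => by
      subst h
      rcases Set.mem_insert_iff.1 hs with h' | h'
      · exact hQ₀.1 h'
      · exact hQ₀.2 h'
    rcases eq_or_ne w Q with rfl | hwQ
    · simp [Finsupp.single_eq_of_ne hne0] at hw h1w
      rw [if_pos rfl]; omega
    · simp [Finsupp.single_eq_of_ne hne0, Finsupp.single_eq_of_ne hwQ] at hw h1w
      rw [if_neg hwQ]; omega
  have hQr := hord Q (Set.mem_insert _ _)
  rw [if_pos rfl] at hQr
  set D : Divisor K F := Finsupp.single P₀ (N : ℤ)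
  have hpush : R.push D = Finsupp.single Q₀ (N : ℤ) := by rw [Reduction.push_single, hP₀]
  have hDell : ell (R.push D) ≤ ell D := by
    rw [hc D (by simp [D, hF.deg_eq_one]; omega),
      hc' (R.push D) (by simp [hpush, hk.deg_eq_one]; omega), Reduction.degree_push hF hk]
    omega
  obtain ⟨f, hf, hfr⟩ := Reduction.exists_lift hF hk hDell (r := r) (by
    rw [hpush]
    exact riemannRochSpace_mono (sub_le_self _ (Finsupp.single_nonneg.2 zero_le_one)) hr)
  have hreg : ∀ P', R.spl P' ≠ Q₀ → AtLeast P' 0 f := fun P' h => by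
    have := FA.Curve.mem_riemannRochSpace.1 hf P'
    rwa [Finsupp.single_eq_of_ne (fun h' : P' = P₀ => h (by rw [h', hP₀])), neg_zero] at this
  obtain ⟨a, ha⟩ := exists_hasValue hF (hreg P (fun h => hQ₀.1 h.symm))
  obtain ⟨haA, hav⟩ := Reduction.hasValue_red hF hfr (Q := Q)
    (fun P' h => hreg P' (fun h' => hQ₀.1 (h'.symm.trans h))) (P := P) rfl ha
  have hπ : R.π ⟨a, haA⟩ = 0 := hav.unique (hasValue_zero_iff.2 (Or.inr hQr.ge))
  have hred := hfr.sub (Reduction.red_const (R := R) ⟨a, haA⟩)
  rw [hπ, map_zero, sub_zero] at hred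
  replace hred : R.Red (f - algebraMap K F a) r := hred
  have hr0 : r ≠ 0 := fun h => by simp [h] at hQr
  have hg0 := hred.ne_zero hr0
  have hnn : ∀ P', R.spl P' ≠ Q₀ → 0 ≤ P'.ord (f - algebraMap K F a) := fun P' h =>
    (atLeast_iff hg0).1 ((hreg P' h).sub (atLeast_algebraMap a))
  have hP1 : 1 ≤ P.ord (f - algebraMap K F a) := (atLeast_iff hg0).1 ha
  have hsum : ∀ s ∈ insert Q S, ∀ T : Finset (Place K F), (∀ P' ∈ T, R.spl P' = s) →
      ∑ P' ∈ T, P'.ord (f - algebraMap K F a) ≤ s.ord r := fun s hs T hT =>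
    Reduction.sum_le_ord hF hred hr0 (fun P' hP' => (hreg P' (fun h => by
      rw [hP'] at h
      rcases Set.mem_insert_iff.1 hs with h' | h'
      · exact hQ₀.1 (h.symm.trans h')
      · exact hQ₀.2 (h ▸ h'))).sub (atLeast_algebraMap a)) T hT
  refine ⟨_, hg0, le_antisymm ?_ hP1, fun P' hne hmem => ?_⟩
  · have := hsum Q (Set.mem_insert _ _) {P} (fun P' h => by rw [Finset.mem_singleton.1 h])
    rw [Finset.sum_singleton] at this
    omega
  · have hne0 : R.spl P' ≠ Q₀ := fun h => hQ₀.2 (h ▸ hmem)
    have h0 := hnn P' hne0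
    rcases eq_or_ne (R.spl P') Q with hQ' | hQ'
    · have := hsum Q (Set.mem_insert _ _) {P, P'} (fun P'' h => by
        rcases Finset.mem_insert.1 h with rfl | h
        · rfl
        · rw [Finset.mem_singleton.1 h, hQ'])
      rw [Finset.sum_pair (Ne.symm hne)] at this
      omega
    · have := hsum (R.spl P') (Set.mem_insert_of_mem _ hmem) {P'}
        (fun P'' h => by rw [Finset.mem_singleton.1 h])
      rw [Finset.sum_singleton, hord _ (Set.mem_insert_of_mem _ hmem), if_neg hQ'] at this
      omega

/-- Every divisor is equivalent to one avoiding finitely many discs. -/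
theorem exists_clean_equiv (hg : genus K F ≤ genus k Fk) (S : Set (Place k Fk)) (hS : S.Finite)
    (D : Divisor K F) :
    ∃ g : F, g ≠ 0 ∧ ∀ P, R.spl P ∈ S → D P = P.ord g := by
  classical
  induction D using Finsupp.induction with
  | zero => exact ⟨1, one_ne_zero, fun P _ => by simp⟩
  | single_add P n D _ _ ih =>
    obtain ⟨h, hh, hD⟩ := ih
    obtain ⟨u, hu, hu1, hu0⟩ := exists_moving hF hk hg S hS P (R := R)
    refine ⟨u ^ n * h, mul_ne_zero (zpow_ne_zero _ hu) hh, fun P' hP' => ?_⟩
    rw [Finsupp.add_apply, P'.ord_mul (zpow_ne_zero _ hu) hh, P'.ord_zpow, hD P' hP']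
    rcases eq_or_ne P' P with rfl | hne
    · rw [hu1, Finsupp.single_eq_same, mul_one]
    · rw [hu0 P' hne hP', Finsupp.single_eq_of_ne hne, mul_zero]

end Red

end FA.ModField
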