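import Fermat.Agent.Level.Gamma0
import Fermat.Agent.Level.Ext
import Fermat.Agent.ModField.Igusa.Series
import Fermat.Prelude.Def_ModularCurve_HeckeOperator

/-!
# The embeddings of the function field of level `N ℓ` over level `N`
-/

set_option autoImplicit false
set_option linter.style.haveILetI false
set_option linter.unusedSectionVars false
set_option synthInstance.maxHeartbeats 200000
set_option maxHeartbeats 1600000

noncomputable section

namespace FA.ModField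

open UpperHalfPlane hiding I
open Complex CongruenceSubgroup ModularCurve FA.Level
open scoped MatrixGroups

/-- The substitutions `q ↦ q^(ℓ ℓ)` and `q ↦ ζ^b q`. -/
def conjMap {R : Type*} [CommRing R] (ℓ : ℕ) [NeZero ℓ] (ζ : Rˣ) :
    Option (Fin ℓ) → (LaurentSeries R →+* LaurentSeries R)
  | none =>
      haveI : NeZero (ℓ * ℓ) := ⟨mul_ne_zero (NeZero.ne ℓ) (NeZero.ne ℓ)⟩
      qExpand R (ℓ * ℓ)
  | some b => twist (ζ ^ (b : ℕ))

theorem conjMap_C {R : Type*} [CommRing R] (ℓ : ℕ) [NeZero ℓ] (ζ : Rˣ) (i : Option (Fin ℓ))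
    (r : R) : conjMap ℓ ζ i (HahnSeries.C r) = HahnSeries.C r := by
  cases i with
  | none =>
    haveI : NeZero (ℓ * ℓ) := ⟨mul_ne_zero (NeZero.ne ℓ) (NeZero.ne ℓ)⟩
    exact qExpand_C (ℓ * ℓ) r
  | some b => exact twist_C _ _

/-- `z ↦ (z + b) / ℓ`. -/
def shiftPt (ℓ b : ℕ) [NeZero ℓ] (z : ℍ) : ℍ :=
  ⟨((z : ℂ) + b) / ℓ, by
    rw [Complex.div_natCast_im, Complex.add_im, Complex.natCast_im, add_zero]
    exact div_pos z.im_pos (Nat.cast_pos.2 (Nat.pos_of_ne_zero (NeZero.ne ℓ)))⟩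

theorem coe_shiftPt (ℓ b : ℕ) [NeZero ℓ] (z : ℍ) : (shiftPt ℓ b z : ℂ) = ((z : ℂ) + b) / ℓ := rfl

variable (N ℓ : ℕ) [NeZero N] [hℓ : Fact ℓ.Prime]

/-- An element of `Γ₀(N)` carrying `ℓ z` to `(z + b) / ℓ` up to `Γ₀(N)`. -/
theorem exists_gamma_shift (hℓN : ¬ ℓ ∣ N) (b : ℕ) :
    ∃ γ ∈ Gamma0 N, ∃ δ ∈ Gamma0 N, ∀ z : ℍ, scaleH ℓ (γ • z) = δ • shiftPt ℓ b z := by
  have hcop : Nat.Coprime N ℓ := ((hℓ.out.coprime_iff_not_dvd).2 hℓN).symm
  obtain ⟨e, he1, he2⟩ := Nat.chineseRemainder hcop 1 (N * b)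
  have heN : Nat.Coprime e N := by
    have h1 : Nat.gcd e N = Nat.gcd 1 N := Nat.ModEq.gcd_eq he1
    rw [Nat.coprime_iff_gcd_eq_one, h1, Nat.gcd_one_left]
  obtain ⟨u, v, huv⟩ := Int.isCoprime_iff_gcd_eq_one.2
    (show Int.gcd (e : ℤ) (N : ℤ) = 1 by simpa [Int.gcd_natCast_natCast] using heN)
  obtain ⟨t, ht⟩ : (ℓ : ℤ) ∣ (e : ℤ) - N * b := by
    have h := (Int.natCast_modEq_iff.2 he2).symm.dvd
    push_cast at h
    exact h
  let γ : SL(2, ℤ) := ⟨!![u, -v; (N : ℤ), e], by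
    rw [Matrix.det_fin_two_of]; linear_combination huv⟩
  let δ : SL(2, ℤ) := ⟨!![(ℓ : ℤ) * u, -v - u * b; (N : ℤ), t], by
    rw [Matrix.det_fin_two_of]; linear_combination huv - u * ht⟩
  refine ⟨γ, by simp [γ, Gamma0_mem], δ, by simp [δ, Gamma0_mem], fun z => ?_⟩
  apply UpperHalfPlane.ext
  rw [coe_scaleH, coe_smul_int, coe_smul_int, coe_shiftPt]
  have hl : (ℓ : ℂ) ≠ 0 := Nat.cast_ne_zero.2 hℓ.out.ne_zero
  have ht' : (t : ℂ) * ℓ = (e : ℂ) - N * b := by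
    have := congrArg (fun x : ℤ => (x : ℂ)) ht
    push_cast at this
    linear_combination -this
  have hne : (N : ℂ) * z + e ≠ 0 := by
    have := smul_denom_ne γ z
    simpa [γ] using this
  have hne' : (N : ℂ) * (((z : ℂ) + b) / ℓ) + t ≠ 0 := by
    have := smul_denom_ne δ (shiftPt ℓ b z)
    simpa [δ, coe_shiftPt] using this
  simp only [γ, δ, Matrix.SpecialLinearGroup.coe_mk, Matrix.of_apply, Matrix.cons_val',
    Matrix.cons_val_zero, Matrix.cons_val_one, Matrix.empty_val', Matrix.cons_val_fin_one,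
    Int.cast_mul, Int.cast_natCast, Int.cast_neg, Int.cast_sub]
  rw [mul_div_assoc', div_eq_div_iff hne hne']
  field_simp
  linear_combination ((u : ℂ) * z - v) * ht'

theorem qp_shiftPt (b : ℕ) (z : ℍ) :
    qp 1 (shiftPt ℓ b z) = ((zetaN ℓ ^ b : ℂˣ) : ℂ) * qp (N * ℓ) z ^ N := by
  have hl : (ℓ : ℂ) ≠ 0 := Nat.cast_ne_zero.2 hℓ.out.ne_zero
  have hN : (N : ℂ) ≠ 0 := Nat.cast_ne_zero.2 (NeZero.ne N)
  rw [qp_eq, qp_eq, Units.val_pow_eq_pow_val, zetaN, Units.val_mk0, ← Complex.exp_nat_mul,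
    ← Complex.exp_nat_mul, ← Complex.exp_add, coe_shiftPt]
  congr 1
  push_cast
  field_simp
  ring

theorem qp_scale_lift (z : ℍ) :
    qp 1 (scaleH ℓ z) = ((1 : ℂˣ) : ℂ) * qp (N * ℓ) z ^ (N * (ℓ * ℓ)) := by
  have hl : (ℓ : ℂ) ≠ 0 := Nat.cast_ne_zero.2 hℓ.out.ne_zero
  have hN : (N : ℂ) ≠ 0 := Nat.cast_ne_zero.2 (NeZero.ne N)
  rw [qp_eq, qp_eq, Units.val_one, one_mul, ← Complex.exp_nat_mul, coe_scaleH]
  congr 1
  push_cast
  field_simp

/-- The coset representative. -/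
def cosRep (hℓN : ¬ ℓ ∣ N) : Option (Fin ℓ) → SL(2, ℤ)
  | none => 1
  | some b => (exists_gamma_shift N ℓ hℓN b).choose

theorem cosRep_mem (hℓN : ¬ ℓ ∣ N) (i : Option (Fin ℓ)) : cosRep N ℓ hℓN i ∈ Gamma0 N := by
  cases i with
  | none => exact one_mem _
  | some b => exact (exists_gamma_shift N ℓ hℓN b).choose_spec.1

variable (L : Type) [Field L] [Algebra ℚ L] [Algebra L ℂ]

/-- The embeddings into series in `q^(1/(N ℓ))`. -/
def cosEmb (hℓN : ¬ ℓ ∣ N) (i : Option (Fin ℓ)) :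
    (lvlGamma0 (N * ℓ)).fld L →ₐ[L] LaurentSeries ℂ :=
  haveI : NeZero ℓ := ⟨hℓ.out.ne_zero⟩
  FA.Level.emb (V := lvlGamma0 (N * ℓ)) (L := L) (cuspPar (lvlGamma0 (N * ℓ))) (cosRep N ℓ hℓN i)

theorem cosEmb_of_exp (hℓN : ¬ ℓ ∣ N) (i : Option (Fin ℓ))
    (x : (lvlGamma0 (N * ℓ)).fld L) {n : ℕ} [NeZero n] (hn : n ∣ N * ℓ)
    (hx : (x : LaurentSeries L) = qExpand L n (jqModC L)) {M : LaurentSeries ℂ}
    (h : HasExp (qp (N * ℓ)) (fun z => jfun (scaleH n (cosRep N ℓ hℓN i • z))) M) :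
    cosEmb N ℓ L hℓN i x = M := by
  have hmem : qExpand L n (jqModC L) ∈ (lvlGamma0 (N * ℓ)).alg L := by
    refine Algebra.subset_adjoin ⟨qExpand ℚ n jq, mem_divisorExpansions (N * ℓ) hn, ?_⟩
    rw [coeffEmb, coeffMap_qExpand, ← jqModC_rat, coeffMap_jqModC]
  have hxa : x = (lvlGamma0 (N * ℓ)).toFld L ⟨_, hmem⟩ := Subtype.ext hx
  rw [hxa, cosEmb, FA.Level.emb_toFld]
  refine FA.Level.expAt_eq (h.congr (funext fun z => ?_))
  have hfun : (lvlGamma0 (N * ℓ)).funHom L (⟨_, hmem⟩ : (lvlGamma0 (N * ℓ)).alg L) =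
      fun z => jfun (scaleH n z) :=
    (lvlGamma0 (N * ℓ)).fn_eq L (by
      show HasExp (qp 1) _ (coeffMap (algebraMap L ℂ) (qExpand L n (jqModC L)))
      rw [coeffMap_qExpand, coeffMap_jqModC]
      exact hasExp_scale n)
  rw [hfun]
  rfl

theorem qExpand_twist_congr {R : Type*} [CommRing R] {a b : ℕ} [NeZero a] [NeZero b] (h : a = b)
    (f : LaurentSeries R) : qExpand R a f = qExpand R b f := by subst h; rfl

/-- The embeddings on the image of `α`. -/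
theorem cosEmb_alpha (hℓN : ¬ ℓ ∣ N) (i : Option (Fin ℓ)) (x : (lvlGamma0 N).fld L) :
    cosEmb N ℓ L hℓN i (heckeAlphaBar L N ℓ x : (lvlGamma0 (N * ℓ)).fld L) =
      qExpand ℂ (N * ℓ) (coeffMap (algebraMap L ℂ) (x : LaurentSeries L)) := by
  refine RingHom.congr_fun (fld_ringHom_ext (V := lvlGamma0 N)
    (σ := (cosEmb N ℓ L hℓN i).toRingHom.comp (heckeAlphaBar L N ℓ).toRingHom)
    (τ := (qExpand ℂ (N * ℓ)).comp ((coeffMap (algebraMap L ℂ)).comp
      ((lvlGamma0 N).fld L).val.toRingHom)) ?_ ?_) x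
  · intro c
    show cosEmb N ℓ L hℓN i (heckeAlphaBar L N ℓ (algebraMap L ((lvlGamma0 N).fld L) c)) =
      qExpand ℂ (N * ℓ) (coeffMap (algebraMap L ℂ) (algebraMap L (LaurentSeries L) c))
    erw [AlgHom.commutes]
    rw [FA.ModField.algebraMap_laurentC, algebraMap_laurentSeries_eq_single, coeffMap_single,
      ← HahnSeries.C_apply, qExpand_C]
  · rintro y a ⟨d, hd0, hd, rfl⟩ hy
    haveI := hd0
    have hy' : (y : LaurentSeries L) = qExpand L d (jqModC L) := by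
      rw [hy, coeffEmb, coeffMap_qExpand, ← jqModC_rat, coeffMap_jqModC]
    show cosEmb N ℓ L hℓN i (heckeAlphaBar L N ℓ y) =
      qExpand ℂ (N * ℓ) (coeffMap (algebraMap L ℂ) (y : LaurentSeries L))
    rw [hy', coeffMap_qExpand, coeffMap_jqModC]
    refine cosEmb_of_exp N ℓ L hℓN i _ (hd.trans (dvd_mul_right N ℓ))
      ((coe_heckeAlphaBar N ℓ y).trans hy') ?_
    have h := (hasExp_scale d).comp (U := qp (N * ℓ)) id (N * ℓ) 1
      (fun z => by simp [qp_pow_self])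
    rw [twist_one_apply] at h
    exact h.congr (funext fun z => (scale_smul_Gamma0 N d hd (cosRep_mem N ℓ hℓN i) z).symm)

/-- The embeddings on the image of `β`. -/
theorem cosEmb_beta (hℓN : ¬ ℓ ∣ N) (i : Option (Fin ℓ)) (x : (lvlGamma0 N).fld L) :
    cosEmb N ℓ L hℓN i (heckeBetaBar L N ℓ x : (lvlGamma0 (N * ℓ)).fld L) =
      qExpand ℂ N (conjMap ℓ (zetaN ℓ) i (coeffMap (algebraMap L ℂ) (x : LaurentSeries L))) := by
  refine RingHom.congr_fun (fld_ringHom_ext (V := lvlGamma0 N)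
    (σ := (cosEmb N ℓ L hℓN i).toRingHom.comp (heckeBetaBar L N ℓ).toRingHom)
    (τ := (qExpand ℂ N).comp ((conjMap ℓ (zetaN ℓ) i).comp ((coeffMap (algebraMap L ℂ)).comp
      ((lvlGamma0 N).fld L).val.toRingHom))) ?_ ?_) x
  · intro c
    show cosEmb N ℓ L hℓN i (heckeBetaBar L N ℓ (algebraMap L ((lvlGamma0 N).fld L) c)) =
      qExpand ℂ N (conjMap ℓ (zetaN ℓ) i
        (coeffMap (algebraMap L ℂ) (algebraMap L (LaurentSeries L) c)))
    erw [AlgHom.commutes]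
    erw [(cosEmb N ℓ L hℓN i).commutes c]
    rw [FA.ModField.algebraMap_laurentC, algebraMap_laurentSeries_eq_single, coeffMap_single,
      ← HahnSeries.C_apply, conjMap_C, qExpand_C]
  · rintro y a ⟨d, hd0, hd, rfl⟩ hy
    haveI := hd0
    have hy' : (y : LaurentSeries L) = qExpand L d (jqModC L) := by
      rw [hy, coeffEmb, coeffMap_qExpand, ← jqModC_rat, coeffMap_jqModC]
    show cosEmb N ℓ L hℓN i (heckeBetaBar L N ℓ y) =
      qExpand ℂ N (conjMap ℓ (zetaN ℓ) i (coeffMap (algebraMap L ℂ) (y : LaurentSeries L)))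
    rw [hy', coeffMap_qExpand, coeffMap_jqModC]
    refine cosEmb_of_exp N ℓ L hℓN i _ (n := d * ℓ) (Nat.mul_dvd_mul_right hd ℓ) ?_ ?_
    · rw [coe_heckeBetaBar, hy', qExpand_qExpand]
      exact qExpand_twist_congr (mul_comm ℓ d) _
    have hscale : ∀ w : ℍ, scaleH (d * ℓ) w = scaleH d (scaleH ℓ w) := fun w =>
      UpperHalfPlane.ext (by simp only [coe_scaleH, Nat.cast_mul]; ring)
    cases i with
    | none =>
      have h := (hasExp_scale d).comp (U := qp (N * ℓ)) (scaleH ℓ) (N * (ℓ * ℓ)) 1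
        (qp_scale_lift N ℓ)
      rw [twist_one_apply, ← qExpand_qExpand] at h
      refine h.congr (funext fun z => ?_)
      simp only [cosRep, one_smul, hscale, Function.comp_apply]
    | some b =>
      have h := (hasExp_scale d).comp (U := qp (N * ℓ)) (shiftPt ℓ b) N (zetaN ℓ ^ (b : ℕ))
        (qp_shiftPt N ℓ b)
      refine h.congr (funext fun z => ?_)
      obtain ⟨δ, hδ, hγ⟩ := (exists_gamma_shift N ℓ hℓN b).choose_spec.2
      simp only [hscale, cosRep, hγ z, scale_smul_Gamma0 N d hd hδ, Function.comp_apply]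

end FA.ModField
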