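import Fermat.Agent.ModField.Congruence.Charpoly

/-!
# The generators of the function fields and the degree of `β`
-/

set_option autoImplicit false
set_option linter.style.haveILetI false
set_option linter.unusedSectionVars false
set_option synthInstance.maxHeartbeats 200000
set_option maxHeartbeats 1600000

noncomputable section

namespace FA.ModField

open ModularCurve AlgebraicCurve FA.Level FA.Curve Polynomial

/-- The divisors of `N`, with repetitions, starting with `1`. -/
def genDiv (N : ℕ) (i : Fin N) : ℕ := Nat.gcd ((i : ℕ) + 1) N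

theorem genDiv_dvd (N : ℕ) (i : Fin N) : genDiv N i ∣ N := Nat.gcd_dvd_right _ _

instance genDiv_neZero (N : ℕ) (i : Fin N) : NeZero (genDiv N i) :=
  ⟨Nat.gcd_ne_zero_left (Nat.succ_ne_zero _)⟩

theorem exists_genDiv {N d : ℕ} [NeZero N] (hd : d ∣ N) : ∃ i, genDiv N i = d := by
  have hd0 : 0 < d := Nat.pos_of_dvd_of_pos hd (Nat.pos_of_ne_zero (NeZero.ne N))
  have hle := Nat.le_of_dvd (Nat.pos_of_ne_zero (NeZero.ne N)) hd
  refine ⟨⟨d - 1, by omega⟩, ?_⟩
  rw [genDiv, show d - 1 + 1 = d by omega, Nat.gcd_eq_left hd]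

theorem genDiv_zero (N : ℕ) [NeZero N] : genDiv N 0 = 1 := by
  show Nat.gcd (((0 : Fin N) : ℕ) + 1) N = 1
  simp

theorem qExpand_eq_of_eq {R : Type*} [CommRing R] {a b : ℕ} [NeZero a] [NeZero b] (h : a = b)
    (f : LaurentSeries R) : qExpand R a f = qExpand R b f := by subst h; rfl

variable (N : ℕ) [NeZero N]

section Down

variable (k : Type) [Field k]

/-- The generators over any field. -/
def redGen (i : Fin N) : modularFunctionFieldFullC k N :=
  ⟨qExpand k (genDiv N i) (jqModC k), jqModCd_mem_full k N (genDiv_dvd N i)⟩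

theorem redGen_fractions (f : modularFunctionFieldFullC k N) :
    ∃ a ∈ Algebra.adjoin k (Set.range (redGen N k)), ∃ b ∈ Algebra.adjoin k (Set.range (redGen N k)),
      b ≠ 0 ∧ f * b = a := by
  rcases eq_or_ne f 0 with rfl | hf
  · exact ⟨0, zero_mem _, 1, one_mem _, one_ne_zero, zero_mul 1⟩
  have hgen : ∀ r ∈ Algebra.adjoin k (divisorExpansionsC k N), ∃ a ∈
      Algebra.adjoin k (Set.range (redGen N k)), (a : LaurentSeries k) = r := by
    intro r hr
    induction hr using Algebra.adjoin_induction with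
    | mem x hx =>
      obtain ⟨d, hne, hd, rfl⟩ := hx
      haveI := hne
      obtain ⟨i, hi⟩ := exists_genDiv (N := N) hd
      exact ⟨redGen N k i, Algebra.subset_adjoin (Set.mem_range_self i), qExpand_eq_of_eq hi _⟩
    | algebraMap c => exact ⟨algebraMap k _ c, Subalgebra.algebraMap_mem _ c, rfl⟩
    | add x y _ _ hx hy =>
      obtain ⟨a, ha, rfl⟩ := hx
      obtain ⟨b, hb, rfl⟩ := hy
      exact ⟨a + b, add_mem ha hb, rfl⟩
    | mul x y _ _ hx hy =>
      obtain ⟨a, ha, rfl⟩ := hx
      obtain ⟨b, hb, rfl⟩ := hy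
      exact ⟨a * b, mul_mem ha hb, rfl⟩
  obtain ⟨x, hx, y, hy, hxy⟩ := IntermediateField.mem_adjoin_iff_div.mp f.2
  obtain ⟨a, ha, rfl⟩ := hgen x hx
  obtain ⟨b, hb, rfl⟩ := hgen y hy
  have hb0 : b ≠ 0 := fun h => hf (Subtype.ext (by rw [hxy, h]; simp))
  refine ⟨a, ha, b, hb, hb0, Subtype.ext ?_⟩
  show (f : LaurentSeries k) * (b : LaurentSeries k) = a
  rw [hxy, div_mul_cancel₀]
  exact fun h => hb0 (Subtype.ext h)

end Down

section Up

variable (ℓ : ℕ) [hℓ : Fact ℓ.Prime] (hℓN : ¬ ℓ ∣ N)
variable (L : Type) [Field L] [Algebra ℚ L] [Algebra L ℂ] [IsAlgClosed L]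

/-- The generators of the function field of level `N`. -/
def levelGen (i : Fin N) : levelField N L :=
  ⟨qExpand L (genDiv N i) (jqModC L), by
    have h := coeffEmb_mem_laurentBaseChange L
      (jqd_mem_full N (genDiv_dvd N i) : qExpand ℚ (genDiv N i) jq ∈ modularFunctionFieldFull N)
    rwa [coeffEmb, coeffMap_qExpand, ← jqModC_rat, coeffMap_jqModC] at h⟩

theorem coe_levelGen (i : Fin N) :
    (levelGen N L i : LaurentSeries L) = qExpand L (genDiv N i) (jqModC L) := rfl

theorem levelGen_zero : levelGen N L 0 = levelJ N L := Subtype.ext (by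
  rw [coe_levelGen, qExpand_eq_of_eq (genDiv_zero N), qExpand_one_apply, coe_levelJ])

theorem adjoin_alpha_gens :
    letI := algebraAlong (heckeBetaBar L N ℓ)
    Algebra.adjoin (levelField N L)
      (Set.range fun i => heckeAlphaBar L N ℓ (levelGen N L i)) = ⊤ := by
  letI := algebraAlong (heckeBetaBar L N ℓ)
  haveI : FiniteDimensional (levelField N L) (levelField (N * ℓ) L) :=
    finiteAlong (isFunctionField_level L N) (isFunctionField_level L (N * ℓ))
      (heckeBetaBar L N ℓ)
  set S := Set.range fun i => heckeAlphaBar L N ℓ (levelGen N L i)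
  suffices h : IntermediateField.adjoin (levelField N L) S = ⊤ by
    rw [← IntermediateField.adjoin_toSubalgebra_of_isAlgebraic
      (fun x _ => Algebra.IsAlgebraic.isAlgebraic x), h]
    rfl
  rw [eq_top_iff]
  intro f _
  have hmem : (f : LaurentSeries L) ∈
      IntermediateField.adjoin L (coeffEmb L '' (lvlGamma0 (N * ℓ)).gen) := by
    rw [← (lvlGamma0 (N * ℓ)).fld_eq_adjoin L]
    exact f.2
  suffices key : ∀ y ∈ IntermediateField.adjoin L (coeffEmb L '' (lvlGamma0 (N * ℓ)).gen),
      ∃ z ∈ IntermediateField.adjoin (levelField N L) S, (z : LaurentSeries L) = y by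
    obtain ⟨z, hz, hzf⟩ := key _ hmem
    rwa [← Subtype.ext hzf]
  intro y hy
  induction hy using IntermediateField.adjoin_induction with
  | mem x hx =>
    obtain ⟨_, ⟨n, hne, hn, rfl⟩, rfl⟩ := hx
    haveI := hne
    rw [coeffEmb, coeffMap_qExpand, ← jqModC_rat, coeffMap_jqModC]
    by_cases hnN : n ∣ N
    · obtain ⟨i, hi⟩ := exists_genDiv (N := N) hnN
      refine ⟨_, IntermediateField.subset_adjoin _ _ (Set.mem_range_self i), ?_⟩
      rw [coe_heckeAlphaBar, coe_levelGen, qExpand_eq_of_eq hi]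
    · obtain ⟨m, rfl⟩ : ℓ ∣ n := by
        by_contra hl
        exact hnN (((hℓ.out.coprime_iff_not_dvd).2 hl).symm.dvd_of_dvd_mul_right hn)
      have hm : m ∣ N := Nat.dvd_of_mul_dvd_mul_left hℓ.out.pos (by rwa [mul_comm N ℓ] at hn)
      obtain ⟨i, hi⟩ := exists_genDiv (N := N) hm
      refine ⟨heckeBetaBar L N ℓ (levelGen N L i),
        IntermediateField.algebraMap_mem _ (levelGen N L i), ?_⟩
      rw [coe_heckeBetaBar, coe_levelGen, qExpand_qExpand]
      exact qExpand_eq_of_eq (by rw [hi]) _
  | algebraMap c =>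
    refine ⟨algebraMap L (levelField (N * ℓ) L) c, ?_, rfl⟩
    rw [← (heckeBetaBar L N ℓ).commutes c]
    exact IntermediateField.algebraMap_mem _ _
  | add x z _ _ hx hz =>
    obtain ⟨a, ha, rfl⟩ := hx
    obtain ⟨b, hb, rfl⟩ := hz
    exact ⟨a + b, add_mem ha hb, rfl⟩
  | inv x _ hx =>
    obtain ⟨a, ha, rfl⟩ := hx
    exact ⟨a⁻¹, inv_mem ha, rfl⟩
  | mul x z _ _ hx hz =>
    obtain ⟨a, ha, rfl⟩ := hx
    obtain ⟨b, hb, rfl⟩ := hz
    exact ⟨a * b, mul_mem ha hb, rfl⟩

include hℓN in
theorem finrank_beta : finrankAlong L (heckeBetaBar L N ℓ) = ℓ + 1 := by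
  classical
  refine le_antisymm ?_ (le_finrank_beta N ℓ hℓN L)
  letI := algebraAlong (heckeBetaBar L N ℓ)
  haveI := isScalarTower_along (heckeBetaBar L N ℓ)
  haveI : FiniteDimensional (levelField N L) (levelField (N * ℓ) L) :=
    finiteAlong (isFunctionField_level L N) (isFunctionField_level L (N * ℓ))
      (heckeBetaBar L N ℓ)
  haveI := charZero_levelField L N
  show Module.finrank (levelField N L) (levelField (N * ℓ) L) ≤ ℓ + 1
  set u : LaurentSeries ℂ →+* AlgebraicClosure (LaurentSeries ℂ) := algebraMap _ _ with hu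
  letI : Algebra (levelField N L) (AlgebraicClosure (LaurentSeries ℂ)) :=
    (u.comp ((qExpand ℂ ℓ).comp (toCSer L))).toAlgebra
  set Ω := AlgebraicClosure (LaurentSeries ℂ)
  let img : (levelField (N * ℓ) L →ₐ[levelField N L] Ω) → (Fin N → Ω) := fun e i =>
    e (heckeAlphaBar L N ℓ (levelGen N L i))
  let conjv : Option (Fin ℓ) → (Fin N → Ω) := fun c i =>
    u (conjMap ℓ (zetaN ℓ) c (toCSer L (levelGen N L i)))
  have hinj : Function.Injective img := fun e e' h =>
    AlgHom.ext_of_adjoin_eq_top (adjoin_alpha_gens N ℓ L) (by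
      rintro _ ⟨i, rfl⟩
      exact congrFun h i)
  let cst : L →+* Ω := u.comp (HahnSeries.C.comp (algebraMap L ℂ))
  have hcst : ∀ c : L, toCSer L (algebraMap L (levelField N L) c) =
      HahnSeries.C (algebraMap L ℂ c) := fun c => by
    show coeffMap (algebraMap L ℂ) (algebraMap L (LaurentSeries L) c) = _
    rw [algebraMap_laurentSeries_eq_single, coeffMap_single, ← HahnSeries.C_apply]
  have hone : ∀ (e : levelField (N * ℓ) L →ₐ[levelField N L] Ω) (s : L),
      ∃ c, powComb (cst s) (img e) = powComb (cst s) (conjv c) := by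
    intro e s
    set x := powComb (algebraMap L (levelField N L) s) (levelGen N L)
    have hroot : Polynomial.aeval (e (heckeAlphaBar L N ℓ x)) (heckePoly N ℓ L x) = 0 := by
      rw [Polynomial.aeval_algHom_apply]
      exact (congrArg e (eval₂_heckePoly N ℓ hℓN L x)).trans (map_zero e)
    rw [Polynomial.aeval_def, ← Polynomial.eval_map,
      show algebraMap (levelField N L) Ω = u.comp ((qExpand ℂ ℓ).comp (toCSer L)) from rfl,
      ← Polynomial.map_map, map_heckePoly N ℓ hℓN, conjPoly, Polynomial.map_prod,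
      Polynomial.eval_prod, Finset.prod_eq_zero_iff] at hroot
    obtain ⟨c, -, hc⟩ := hroot
    refine ⟨c, ?_⟩
    rw [Polynomial.map_sub, Polynomial.map_X, Polynomial.map_C, Polynomial.eval_sub,
      Polynomial.eval_X, Polynomial.eval_C, sub_eq_zero] at hc
    have he : e (algebraMap L (levelField (N * ℓ) L) s) = cst s := by
      rw [← (heckeBetaBar L N ℓ).commutes s]
      refine (e.commutes (algebraMap L (levelField N L) s)).trans ?_
      show u (qExpand ℂ ℓ (toCSer L (algebraMap L (levelField N L) s))) = _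
      rw [hcst, qExpand_C]
      rfl
    have h1 : e (heckeAlphaBar L N ℓ x) = powComb (cst s) (img e) := by
      simp only [x, powComb, map_sum, map_mul, map_pow, AlgHom.commutes, he]
      rfl
    have h2 : u (conjMap ℓ (zetaN ℓ) c (toCSer L x)) = powComb (cst s) (conjv c) := by
      simp only [x, powComb, map_sum, map_mul, map_pow, hcst, conjMap_C]
      rfl
    rw [← h1, ← h2]
    exact hc
  have hrange : ∀ e, ∃ c, img e = conjv c := by
    intro e
    set V : Set (Fin N → Ω) := Set.range img ∪ Set.range conjv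
    haveI : CharZero L := charZero_of_injective_algebraMap (algebraMap ℚ L).injective
    haveI : Infinite L := inferInstance
    obtain ⟨_, ⟨s, rfl⟩, hs⟩ := ((Set.infinite_range_of_injective cst.injective).diff
      (finite_collisions V ((Set.finite_range img).union (Set.finite_range conjv)))).nonempty
    obtain ⟨c, hc⟩ := hone e s
    refine ⟨c, ?_⟩
    by_contra hne
    exact hs ⟨_, Or.inl ⟨e, rfl⟩, _, Or.inr ⟨c, rfl⟩, hne, hc⟩
  choose cf hcf using hrange
  have hcfinj : Function.Injective cf := fun e e' h => hinj (by rw [hcf e, hcf e', h])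
  have h := Fintype.card_le_of_injective cf hcfinj
  rwa [AlgHom.card, Fintype.card_option, Fintype.card_fin] at h

end Up

end FA.ModField
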