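import Fermat.Agent.ModField.Congruence.Integral

/-!
# Regularity away from the poles of `j`
-/

set_option autoImplicit false
set_option linter.style.haveILetI false
set_option linter.unusedSectionVars false
set_option synthInstance.maxHeartbeats 200000
set_option maxHeartbeats 1600000

noncomputable section

namespace FA.ModField

open ModularCurve AlgebraicCurve FA.Level FA.Curve Polynomial

section Abstract

variable {O F F' : Type*} [CommRing O] [Field F] [Field F'] [Algebra O F] [Algebra O F']
  [Algebra F F'] [IsScalarTower O F F'] [FiniteDimensional F F'] [Algebra.IsSeparable F F']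

/-- Characteristic polynomials of integral elements have integral coefficients. -/
theorem isIntegral_coeff_mulCharpoly [Infinite F] {x : F'} (hx : IsIntegral O x) (m : ℕ) :
    IsIntegral O ((mulCharpoly F x).coeff m) := by
  set Ω := AlgebraicClosure F
  set τ : F →+* Ω := algebraMap F Ω with hτ
  let σ : (F' →ₐ[F] Ω) → F' →+* Ω := fun e => e.toRingHom
  have hσ : Function.Injective σ := fun e e' h => AlgHom.ext fun y => RingHom.congr_fun h y
  have h := map_mulCharpoly τ σ hσ (fun e => RingHom.ext fun y => e.commutes y)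
    (AlgHom.card F F' Ω) inferInstance x
  have hroot : ∀ e : F' →ₐ[F] Ω, IsIntegral O (σ e x) := fun e =>
    hx.map (e.restrictScalars O)
  set S := integralClosure O Ω
  set P : S[X] := ∏ e : F' →ₐ[F] Ω, (X - C ⟨σ e x, hroot e⟩)
  have hP : P.map (algebraMap S Ω) = (mulCharpoly F x).map τ := by
    rw [h, Polynomial.map_prod]
    exact Finset.prod_congr rfl fun e _ => by
      rw [Polynomial.map_sub, Polynomial.map_X, Polynomial.map_C]; rfl
  refine (isIntegral_algHom_iff (IsScalarTower.toAlgHom O F Ω) τ.injective).1 ?_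
  show IsIntegral O (τ ((mulCharpoly F x).coeff m))
  rw [← Polynomial.coeff_map, ← hP, Polynomial.coeff_map]
  exact (P.coeff m).2

end Abstract

variable (N ℓ : ℕ) [NeZero N] [hℓ : Fact ℓ.Prime]
variable (L : Type) [Field L] [Algebra ℚ L] [Algebra L ℂ]

theorem coeffEmb_qExpand_jq (d : ℕ) [NeZero d] :
    coeffEmb L (qExpand ℚ d jq) = qExpand L d (jqModC L) := by
  rw [coeffEmb, coeffMap_qExpand, ← jqModC_rat, coeffMap_jqModC]

theorem mem_lvl_alg {d : ℕ} [NeZero d] (hd : d ∣ N) :
    qExpand L d (jqModC L) ∈ (lvlGamma0 N).alg L :=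
  Algebra.subset_adjoin ⟨_, ⟨d, inferInstance, hd, rfl⟩, coeffEmb_qExpand_jq L d⟩

variable [IsAlgClosed L]

theorem levelGen_mem_alg (i : Fin N) :
    ((levelGen N L i : levelField N L) : LaurentSeries L) ∈ (lvlGamma0 N).alg L := by
  rw [coe_levelGen]
  exact mem_lvl_alg N L (genDiv_dvd N i)

theorem powComb_mem_alg (s : L) :
    ((powComb (algebraMap L (levelField N L) s) (levelGen N L) : levelField N L) :
      LaurentSeries L) ∈ (lvlGamma0 N).alg L := by
  simp only [powComb, AddSubmonoidClass.coe_finsetSum, MulMemClass.coe_mul,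
    SubmonoidClass.coe_pow]
  exact sum_mem fun i _ => mul_mem (pow_mem (Subalgebra.algebraMap_mem _ s) _)
    (levelGen_mem_alg N L i)

theorem beta_powComb_mem_alg (s : L) :
    ((heckeBetaBar L N ℓ (powComb (algebraMap L (levelField N L) s) (levelGen N L)) :
      levelField (N * ℓ) L) : LaurentSeries L) ∈ (lvlGamma0 (N * ℓ)).alg L := by
  have h : heckeBetaBar L N ℓ (powComb (algebraMap L (levelField N L) s) (levelGen N L)) =
      powComb (algebraMap L (levelField (N * ℓ) L) s)
        fun i => heckeBetaBar L N ℓ (levelGen N L i) := by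
    simp only [powComb, map_sum, map_mul, map_pow, AlgHom.commutes]
  rw [h]
  simp only [powComb, AddSubmonoidClass.coe_finsetSum, MulMemClass.coe_mul,
    SubmonoidClass.coe_pow]
  refine sum_mem fun i _ => mul_mem (pow_mem (Subalgebra.algebraMap_mem _ s) _) ?_
  rw [coe_heckeBetaBar, coe_levelGen, qExpand_qExpand]
  exact mem_lvl_alg (N * ℓ) L (by
    rw [mul_comm N ℓ]
    exact mul_dvd_mul_left ℓ (genDiv_dvd N i))

/-- An element of the algebra of generators is integral wherever `j` is regular. -/
theorem isIntegralElem_of_mem_alg {M : ℕ} [NeZero M]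
    (φ : levelField N L →ₐ[L] levelField M L) (hφ : φ (levelJ N L) = levelJ M L)
    {v : Place L (levelField N L)} (hv : AtLeast v 0 (levelJ N L))
    {y : levelField M L} (hy : (y : LaurentSeries L) ∈ (lvlGamma0 M).alg L) :
    (φ.toRingHom.comp v.toValuationSubring.subtype).IsIntegralElem y := by
  classical
  obtain ⟨R, hRn, hR⟩ := (lvlGamma0 M).exists_monic_relation L ⟨_, hy⟩
  set n := Fintype.card (lvlGamma0 M).Cos
  set O := v.toValuationSubring
  have hO : ∀ c : L, algebraMap L (levelField N L) c ∈ O := v.algebraMap_mem'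
  have hjO : levelJ N L ∈ O := atLeast_zero_iff_mem.1 hv
  have hmem : ∀ p : L[X], Polynomial.aeval (levelJ N L) p ∈ O := by
    intro p
    induction p using Polynomial.induction_on' with
    | add p q hp hq => rw [map_add]; exact add_mem hp hq
    | monomial n c =>
      rw [Polynomial.aeval_monomial]
      exact mul_mem (hO c) (pow_mem hjO n)
  let p : O[X] := ∑ k ∈ Finset.range (n + 1), C (⟨_, hmem (R k)⟩ : O) * X ^ k
  refine ⟨p, ?_, ?_⟩
  · refine Polynomial.monic_of_natDegree_le_of_coeff_eq_one n
      (Polynomial.natDegree_sum_le_of_forall_le _ _ fun k hk =>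
        (Polynomial.natDegree_C_mul_X_pow_le _ _).trans
          (Nat.lt_succ_iff.1 (Finset.mem_range.1 hk))) ?_
    simp only [p, Polynomial.finsetSum_coeff, Polynomial.coeff_C_mul_X_pow]
    rw [Finset.sum_eq_single n]
    · rw [if_pos rfl]
      exact Subtype.ext (by simp [hRn])
    · intro k _ hk; rw [if_neg (Ne.symm hk)]
    · simp
  · apply Subtype.ext
    simp only [p, Polynomial.eval₂_finsetSum, Polynomial.eval₂_mul, Polynomial.eval₂_C,
      Polynomial.eval₂_X_pow, RingHom.comp_apply, AddSubmonoidClass.coe_finsetSum,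
      MulMemClass.coe_mul, SubmonoidClass.coe_pow, ZeroMemClass.coe_zero]
    refine Eq.trans (Finset.sum_congr rfl fun k _ => ?_) hR
    congr 1
    show ((φ (Polynomial.aeval (levelJ N L) (R k)) : levelField M L) : LaurentSeries L) = _
    rw [← Polynomial.aeval_algHom_apply, hφ]
    exact (Polynomial.aeval_algHom_apply (levelField M L).val (levelJ M L) (R k)).symm

theorem atLeast_of_mem_alg {v : Place L (levelField N L)} (hv : AtLeast v 0 (levelJ N L))
    {y : levelField N L} (hy : (y : LaurentSeries L) ∈ (lvlGamma0 N).alg L) : AtLeast v 0 y := by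
  obtain ⟨p, hp, hev⟩ := isIntegralElem_of_mem_alg N L (AlgHom.id L _) rfl hv hy
  obtain ⟨z, hz⟩ := IsIntegrallyClosed.isIntegral_iff.1
    (show IsIntegral v.toValuationSubring y from ⟨p, hp, hev⟩)
  exact atLeast_zero_iff_mem.2 (hz ▸ z.2)

/-- The coefficients of the characteristic polynomial are regular wherever `j` is. -/
theorem atLeast_coeff_heckePoly (s : L) {v : Place L (levelField N L)}
    (hv : AtLeast v 0 (levelJ N L)) (m : ℕ) :
    AtLeast v 0 ((heckePoly N ℓ L (powComb (algebraMap L (levelField N L) s)
      (levelGen N L))).coeff m) := by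
  set x := powComb (algebraMap L (levelField N L) s) (levelGen N L)
  letI := algebraAlong (heckeAlphaBar L N ℓ)
  haveI : FiniteDimensional (levelField N L) (levelField (N * ℓ) L) :=
    finiteAlong (isFunctionField_level L N) (isFunctionField_level L (N * ℓ))
      (heckeAlphaBar L N ℓ)
  haveI := charZero_levelField L N
  haveI : Infinite (levelField N L) := inferInstance
  haveI : Algebra.IsSeparable (levelField N L) (levelField (N * ℓ) L) := inferInstance
  set O := v.toValuationSubring
  letI : Algebra O (levelField (N * ℓ) L) :=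
    ((heckeAlphaBar L N ℓ).toRingHom.comp O.subtype).toAlgebra
  haveI : IsScalarTower O (levelField N L) (levelField (N * ℓ) L) :=
    IsScalarTower.of_algebraMap_eq fun _ => rfl
  have hx : IsIntegral O (heckeBetaBar L N ℓ x) :=
    isIntegralElem_of_mem_alg N L (heckeAlphaBar L N ℓ)
      (Subtype.ext (coe_heckeAlphaBar N ℓ _)) hv (beta_powComb_mem_alg N ℓ L s)
  have h := isIntegral_coeff_mulCharpoly (F := levelField N L) hx m
  obtain ⟨z, hz⟩ := IsIntegrallyClosed.isIntegral_iff.1 h
  refine atLeast_zero_iff_mem.2 ?_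
  show (mulCharpoly (levelField N L) (heckeBetaBar L N ℓ x)).coeff m ∈ O
  exact hz ▸ z.2

end FA.ModField
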