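import Fermat.Agent.ModField.Congruence.Regular
import Fermat.Agent.ModField.Congruence.Clean
import Fermat.Agent.ModField.Igusa.Tower
import Fermat.Agent.CurveRed.Instance

/-!
# The constant reduction of the function field of level `N`
-/

set_option autoImplicit false
set_option linter.style.haveILetI false
set_option linter.unusedSectionVars false
set_option synthInstance.maxHeartbeats 200000
set_option maxHeartbeats 1600000

noncomputable section

namespace FA.ModField

open ModularCurve AlgebraicCurve FA.Level FA.Curve FA.CurveRed Polynomial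

section Degree

variable {K F k Fk : Type*} [Field K] [IsAlgClosed K] [Field F] [Algebra K F]
  [Field k] [IsAlgClosed k] [Field Fk] [Algebra k Fk] {A : ValuationSubring K}
  {R : Reduction K F k Fk A}

/-- The degree of a function can only drop under reduction. -/
theorem finrank_red_le (hF : IsFunctionField K F) (hk : IsFunctionField k Fk) {f : F} {r : Fk}
    (h : R.Red f r) (hr : Transcendental k r) (hf : Transcendental K f) :
    Module.finrank (IntermediateField.adjoin k {r}) Fk ≤
      Module.finrank (IntermediateField.adjoin K {f}) F := by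
  classical
  have hr0 : r ≠ 0 := fun h0 => hr (h0 ▸ isAlgebraic_zero)
  have hZ : (0 : Divisor K F) ≤ divOf hF f + poleDiv hF f := Finsupp.le_def.2 fun P => by
    simp only [Finsupp.coe_zero, Pi.zero_apply, Finsupp.add_apply, divOf_apply, poleDiv_apply]
    omega
  have hge : ∀ Q, 0 ≤ (R.push (poleDiv hF f) - poleDiv hk r) Q := fun Q => by
    have h1 := Finsupp.le_def.1 (Reduction.push_nonneg (R := R) hZ) Q
    rw [Reduction.push_add, Finsupp.add_apply, Reduction.push_divOf hF h hr0 Q] at h1
    have h2 := Finsupp.le_def.1 (Reduction.push_nonneg (R := R) (poleDiv_nonneg hF f)) Q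
    simp only [Finsupp.coe_zero, Pi.zero_apply] at h1 h2
    rw [Finsupp.sub_apply, poleDiv_apply]
    omega
  have hd : 0 ≤ Divisor.degree (R.push (poleDiv hF f) - poleDiv hk r) := by
    rw [degree_eq_sum hk]
    exact Finsupp.sum_nonneg fun Q _ => hge Q
  rw [map_sub, Reduction.degree_push hF hk, degree_poleDiv hF hf, degree_poleDiv hk hr] at hd
  exact_mod_cast (sub_nonneg.1 hd)

end Degree

section Down

variable (k : Type) [Field k] [IsAlgClosed k] (N : ℕ) [NeZero N]

theorem le_finrank_jBar (hk : ∀ r : ℕ, r.Prime → r ∣ N → (r : k) ≠ 0) :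
    dedekindPsi N ≤ Module.finrank (IntermediateField.adjoin k {jBar k N})
      (modularFunctionFieldFullC k N) := by
  classical
  obtain ⟨w, hw, hli⟩ := exists_indep (k := k) N hk
  have hmem : ∀ x ∈ Submonoid.closure (ppGens k N), x ∈ modularFunctionFieldFullC k N := by
    intro x hx
    induction hx using Submonoid.closure_induction with
    | mem y hy =>
      obtain ⟨p, i, hne, -, hd, rfl⟩ := hy
      haveI := hne
      exact jqModCd_mem_full k N hd
    | one => exact one_mem _
    | mul y z _ _ hy hz => exact mul_mem hy hz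
  let w' : Fin (dedekindPsi N) → modularFunctionFieldFullC k N := fun i => ⟨w i, hmem _ (hw i)⟩
  set E := IntermediateField.adjoin k {jBar k N}
  haveI : FiniteDimensional E (modularFunctionFieldFullC k N) :=
    (isFunctionField_fullC k N).finiteDimensional (jBar_transcendental k N)
  have hE : ∀ g : E, ((g : modularFunctionFieldFullC k N) : LaurentSeries k) ∈ baseJ k := by
    intro g
    have h : ((g : modularFunctionFieldFullC k N) : LaurentSeries k) ∈
        E.map (modularFunctionFieldFullC k N).val := ⟨g, g.2, rfl⟩
    rw [IntermediateField.adjoin_map, Set.image_singleton] at h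
    exact h
  have hli' : LinearIndependent E w' := by
    rw [Fintype.linearIndependent_iff]
    intro g hg i
    have h := congrArg (fun x : modularFunctionFieldFullC k N => (x : LaurentSeries k)) hg
    simp only [AddSubmonoidClass.coe_finsetSum, ZeroMemClass.coe_zero] at h
    have h0 := congrArg Subtype.val (Fintype.linearIndependent_iff.1 hli (fun i => ⟨_, hE (g i)⟩) h i)
    exact Subtype.ext (Subtype.ext h0)
  simpa using hli'.fintype_card_le_finrank

end Down

section Level

variable (N : ℕ) [NeZero N] (ℓ : ℕ) [hℓ : Fact ℓ.Prime] (hℓN : ¬ ℓ ∣ N)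
variable (L : Type) [Field L] [Algebra ℚ L] [Algebra L ℂ] [IsAlgClosed L]
variable {A : ValuationSubring L} {k : Type} [Field k] [IsAlgClosed k] [CharP k ℓ] {π : A →+* k}
  (hπs : Function.Surjective π) (hπ0 : ∀ a : A, π a = 0 ↔ A.valuation a < 1)
  (h : ReductionInputsAlong A π N)

/-- The reduction of level `N`. -/
def redOf : Reduction L (levelField N L) k (modularFunctionFieldFullC k N) A :=
  (quotData hπs hπ0 h.choose_spec.1 h.choose_spec.2).toReduction (isFunctionField_up N)

theorem redOf_π : (redOf N L hπs hπ0 h).π = π := rfl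

theorem redOf_spl : (redOf N L hπs hπ0 h).spl = h.choose := rfl

theorem red_series (Y : LaurentSeries A) {f : levelField N L}
    {r : modularFunctionFieldFullC k N}
    (hf : coeffMap (A.subtype : A →+* L) Y = (f : LaurentSeries L))
    (hr : coeffMap π Y = (r : LaurentSeries k)) : (redOf N L hπs hπ0 h).Red f r := by
  let y : intSeries A π N := ⟨Y, ⟨show coeffMap (A.subtype : A →+* L) Y ∈ upField (L := L) N by
      rw [hf]; exact f.2,
    show coeffMap π Y ∈ modularFunctionFieldFullC k N by rw [hr]; exact r.2⟩⟩
  have e1 : toUp A π N y = f := Subtype.ext hf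
  have e2 : toDown A π N y = r := Subtype.ext hr
  have hq := isQuot_apply (u := toUp A π N) (v := toDown A π N) y
  rw [e1, e2] at hq
  exact ⟨⟨_, hq⟩, redFun_eq _ _ (quotData hπs hπ0 h.choose_spec.1 h.choose_spec.2).u_inj hq⟩

/-- The integral series of a generator. -/
def genSer (A : ValuationSubring L) (i : Fin N) : LaurentSeries A :=
  qExpand A (genDiv N i) (jqModC A)

theorem coeffMap_genSer (i : Fin N) :
    coeffMap (A.subtype : A →+* L) (genSer N L A i) =
      ((levelGen N L i : levelField N L) : LaurentSeries L) := by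
  rw [genSer, coeffMap_qExpand, coeffMap_jqModC, coe_levelGen]

theorem coeffMap_genSer_red (π : A →+* k) (i : Fin N) :
    coeffMap π (genSer N L A i) =
      ((redGen N k i : modularFunctionFieldFullC k N) : LaurentSeries k) := by
  rw [genSer, coeffMap_qExpand, coeffMap_jqModC]; rfl

theorem red_levelGen (i : Fin N) :
    (redOf N L hπs hπ0 h).Red (levelGen N L i) (redGen N k i) :=
  red_series N L hπs hπ0 h _ (coeffMap_genSer N L i) (coeffMap_genSer_red N L π i)

theorem redGen_zero : redGen N k 0 = jBar k N := Subtype.ext (by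
  show qExpand k (genDiv N 0) (jqModC k) = jqModC k
  rw [qExpand_eq_of_eq (genDiv_zero N), qExpand_one_apply])

theorem redGen_zero_transcendental : Transcendental k (redGen N k 0) := by
  rw [redGen_zero]
  exact jBar_transcendental k N

theorem levelGen_zero_transcendental : Transcendental L (levelGen N L 0) := by
  rw [levelGen_zero]
  exact levelJ_transcendental N L

include hπs hπ0 h hℓN in
theorem finrank_gen_zero :
    Module.finrank (IntermediateField.adjoin L {levelGen N L 0}) (levelField N L) =
      Module.finrank (IntermediateField.adjoin k {redGen N k 0})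
        (modularFunctionFieldFullC k N) := by
  refine le_antisymm ?_ (finrank_red_le (R := redOf N L hπs hπ0 h) (isFunctionField_level L N)
    (isFunctionField_fullC k N) (red_levelGen N L hπs hπ0 h 0) (redGen_zero_transcendental N)
    (levelGen_zero_transcendental N L))
  rw [levelGen_zero, finrank_levelJ, redGen_zero]
  refine le_finrank_jBar k N fun r hr hrN h0 => ?_
  rw [CharP.cast_eq_zero_iff k ℓ r, Nat.prime_dvd_prime_iff_eq hℓ.out hr] at h0
  exact hℓN (h0 ▸ hrN)

include hℓN in
theorem regular_levelJ {P : Place L (levelField N L)}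
    (hQ : AtLeast ((redOf N L hπs hπ0 h).spl P) 0 (redGen N k 0)) :
    AtLeast P 0 (levelJ N L) := by
  have hne : redGen N k 0 ≠ 0 := fun h0 =>
    redGen_zero_transcendental N (k := k) (h0 ▸ isAlgebraic_zero)
  rw [← levelGen_zero N L]
  exact noPole_of_regular (isFunctionField_level L N) (isFunctionField_fullC k N)
    (red_levelGen N L hπs hπ0 h 0) (redGen_zero_transcendental N)
    (levelGen_zero_transcendental N L) (finrank_gen_zero N ℓ hℓN L hπs hπ0 h)
    ((atLeast_iff hne).1 hQ) P rfl

include hℓN in
theorem regular_gens (Q : Place k (modularFunctionFieldFullC k N))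
    (hQ : AtLeast Q 0 (redGen N k 0)) (i : Fin N) :
    AtLeast Q 0 (redGen N k i) ∧
      Reduction.NoPole (redOf N L hπs hπ0 h) Q (levelGen N L i) := by
  have hnp : Reduction.NoPole (redOf N L hπs hπ0 h) Q (levelGen N L i) := fun P hP =>
    atLeast_of_mem_alg N L (regular_levelJ N ℓ hℓN L hπs hπ0 h (hP.symm ▸ hQ))
      (levelGen_mem_alg N L i)
  refine ⟨?_, hnp⟩
  rcases eq_or_ne (redGen N k i) 0 with h0 | h0
  · rw [h0]; exact atLeast_zero
  · refine Or.inr ?_
    simpa using Reduction.sum_le_ord (isFunctionField_level L N) (red_levelGen N L hπs hπ0 h i)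
      h0 hnp ∅ (by simp)

include hℓN in
theorem regular_of_integral_value (P : Place L (levelField N L)) (a : A)
    (ha : HasValue P (levelGen N L 0) (a : L)) :
    AtLeast ((redOf N L hπs hπ0 h).spl P) 0 (redGen N k 0) :=
  Or.inr (regular_of_value (isFunctionField_level L N) (isFunctionField_fullC k N)
    (red_levelGen N L hπs hπ0 h 0) (redGen_zero_transcendental N)
    (levelGen_zero_transcendental N L) (finrank_gen_zero N ℓ hℓN L hπs hπ0 h) ha)

theorem qExpand_redGen (i : Fin N) :
    qExpand k ℓ ((redGen N k i : modularFunctionFieldFullC k N) : LaurentSeries k) =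
      (((redGen N k i) ^ ℓ : modularFunctionFieldFullC k N) : LaurentSeries k) := by
  rw [SubmonoidClass.coe_pow]
  exact (jqd_pow_prime ℓ (genDiv N i)).symm

include hℓN in
/-- The characteristic polynomials and their reductions. -/
theorem exists_reduced_poly (s : A) :
    ∃ (p : (levelField N L)[X]) (r : (modularFunctionFieldFullC k N)[X]),
      p.Monic ∧ p.natDegree = ℓ + 1 ∧
      p.eval₂ (heckeBetaBar L N ℓ).toRingHom (heckeAlphaBar L N ℓ
        (powComb (algebraMap L (levelField N L) s) (levelGen N L))) = 0 ∧
      (∀ m, (redOf N L hπs hπ0 h).Red (p.coeff m) (r.coeff m)) ∧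
      (∀ Q : Place k (modularFunctionFieldFullC k N), AtLeast Q 0 (redGen N k 0) →
        ∀ m, Reduction.NoPole (redOf N L hπs hπ0 h) Q (p.coeff m)) ∧
      r = (X - C (powComb (algebraMap k _ (π s)) fun i => redGen N k i ^ ℓ)) *
        (X ^ ℓ - C (powComb (algebraMap k _ (π s ^ ℓ)) (redGen N k))) := by
  set x := powComb (algebraMap L (levelField N L) s) (levelGen N L) with hx
  set r := (X - C (powComb (algebraMap k (modularFunctionFieldFullC k N) (π s))
      fun i => redGen N k i ^ ℓ)) *
    (X ^ ℓ - C (powComb (algebraMap k _ (π s ^ ℓ)) (redGen N k))) with hrdef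
  refine ⟨heckePoly N ℓ L x, r, heckePoly_monic N ℓ L x, natDegree_heckePoly N ℓ hℓN L x,
    eval₂_heckePoly N ℓ hℓN L x, fun m => ?_,
    fun Q hQ m P hP => atLeast_coeff_heckePoly N ℓ L s
      (regular_levelJ N ℓ hℓN L hπs hπ0 h (hP.symm ▸ hQ)) m, rfl⟩
  set X₀ : LaurentSeries A := powComb (HahnSeries.C s) (genSer N L A)
  have hX : coeffMap (A.subtype : A →+* L) X₀ = (x : LaurentSeries L) := by
    simp only [X₀, hx, powComb, map_sum, map_mul, map_pow, coeffMap_C', coeffMap_genSer,
      AddSubmonoidClass.coe_finsetSum, MulMemClass.coe_mul, SubmonoidClass.coe_pow]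
    refine Finset.sum_congr rfl fun i _ => ?_
    congr 2
    rw [HahnSeries.C_apply, ← algebraMap_laurentSeries_eq_single]
    rfl
  set gk : Fin N → LaurentSeries k := fun i =>
    ((redGen N k i : modularFunctionFieldFullC k N) : LaurentSeries k)
  have hXk : coeffMap π X₀ = powComb (HahnSeries.C (π s)) gk := by
    simp only [X₀, powComb, map_sum, map_mul, map_pow, coeffMap_C', coeffMap_genSer_red, gk]
  have hG : qExpand k ℓ (powComb (HahnSeries.C (π s ^ ℓ)) gk) = coeffMap π X₀ ^ ℓ := by
    haveI : CharP (LaurentSeries k) ℓ :=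
      charP_of_injective_ringHom (f := (HahnSeries.C : k →+* LaurentSeries k))
        HahnSeries.C_injective ℓ
    rw [hXk]
    simp only [powComb]
    rw [sum_pow_char ℓ, map_sum]
    refine Finset.sum_congr rfl fun i _ => ?_
    rw [map_mul, map_pow, qExpand_C, mul_pow, map_pow, ← pow_mul, ← pow_mul, mul_comm ℓ (i : ℕ),
      qExpand_redGen, SubmonoidClass.coe_pow]
  obtain ⟨Y, hY, hYk⟩ := exists_coeff_series N ℓ hℓN L A π x X₀ hX _ hG m
  refine red_series N L hπs hπ0 h Y hY (hYk.trans ?_)
  have hconst : ∀ c : k, ((algebraMap k (modularFunctionFieldFullC k N) c :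
      modularFunctionFieldFullC k N) : LaurentSeries k) = HahnSeries.C c := fun c => by
    rw [HahnSeries.C_apply, ← algebraMap_laurentSeries_eq_single]
    rfl
  show _ = (modularFunctionFieldFullC k N).val.toRingHom (r.coeff m)
  rw [← Polynomial.coeff_map]
  refine congrArg (fun p : (LaurentSeries k)[X] => p.coeff m) ?_
  have hval : ∀ (c : k) (f : Fin N → modularFunctionFieldFullC k N),
      (modularFunctionFieldFullC k N).val.toRingHom (powComb (algebraMap k _ c) f) =
        powComb (HahnSeries.C c) fun i => (f i : LaurentSeries k) := fun c f => by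
    rw [map_powComb]
    show powComb ((algebraMap k (modularFunctionFieldFullC k N) c : modularFunctionFieldFullC k N) :
      LaurentSeries k) _ = _
    rw [hconst]
    rfl
  rw [hrdef, Polynomial.map_mul, Polynomial.map_sub, Polynomial.map_sub, Polynomial.map_pow,
    Polynomial.map_X, Polynomial.map_C, Polynomial.map_C, hval, hval, hXk, map_powComb, qExpand_C]
  simp only [gk, qExpand_redGen]

end Level

end FA.ModField
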