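import Fermat.Agent.ModField.Congruence.Export

/-!
# The packaged specialisation of `J₀(N)` at a prime not dividing `N p`

The special fibre is replaced by the quotient of `J₀(N)` by the largest subgroup killed by the
reduction which is stable under the Hecke algebra and a Frobenius element.
-/

set_option autoImplicit false
set_option linter.style.haveILetI false
set_option linter.unusedSectionVars false
set_option synthInstance.maxHeartbeats 400000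
set_option maxHeartbeats 1600000

noncomputable section

namespace FA.ModField

open ModularCurve AlgebraicCurve
open scoped Pointwise

local notation "AQ" => AlgebraicClosure ℚ
local notation "GQ" => AlgebraicClosure ℚ ≃ₐ[ℚ] AlgebraicClosure ℚ

theorem exists_inertia_mul {A : ValuationSubring AQ} {ℓ : ℕ} {σ σ₀ : GQ}
    (hσ : A.IsFrobeniusAt σ ℓ) (hσ₀ : A.IsFrobeniusAt σ₀ ℓ) :
    σ₀⁻¹ * σ ∈ A.inertiaSubgroupIn ℚ := by
  let s : A.decompositionSubgroup ℚ := ⟨σ, hσ.mem_decompositionSubgroup⟩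
  let s₀ : A.decompositionSubgroup ℚ := ⟨σ₀, hσ₀.mem_decompositionSubgroup⟩
  refine ⟨s₀⁻¹ * s, MonoidHom.mem_ker.2 (RingEquiv.ext fun x => ?_), rfl⟩
  show (s₀⁻¹ * s) • x = x
  rw [mul_smul, inv_smul_eq_iff, hσ.smul_residue_eq, hσ₀.smul_residue_eq]

theorem inertia_conj_pow {A : ValuationSubring AQ} {τ σ₀ : GQ}
    (hτ : τ ∈ A.inertiaSubgroupIn ℚ) (hσ₀ : σ₀ ∈ A.decompositionSubgroup ℚ) (i : ℕ) :
    σ₀ ^ i * τ * (σ₀ ^ i)⁻¹ ∈ A.inertiaSubgroupIn ℚ := by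
  obtain ⟨t, ht, rfl⟩ := hτ
  exact ⟨(⟨σ₀, hσ₀⟩ : A.decompositionSubgroup ℚ) ^ i * t * ((⟨σ₀, hσ₀⟩ :
    A.decompositionSubgroup ℚ) ^ i)⁻¹, (MonoidHom.normal_ker _).conj_mem t ht _, by simp⟩

theorem specializationExists_of_inputs (N p : ℕ) [NeZero N] (hcomm : HeckeOperatorsCommuteBar N)
    (hin : ∀ ℓ : ℕ, ℓ.Prime → ¬ ℓ ∣ N * p → ∀ A : ValuationSubring AQ, A.LiesOverPrime ℓ →
      GoodRedInputs N A) :
    letI := heckeModuleBar N
    ∀ (_ : SMulCommClass GQ HeckeAlg (JZero N)),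
      SpecializationExists (K := ℚ) (L := AQ) N p (JZero N) := by
  letI := heckeModuleBar N
  intro hsc ℓ hℓ hℓNp A hA
  haveI : Fact ℓ.Prime := ⟨hℓ⟩
  haveI : NeZero ℓ := ⟨hℓ.ne_zero⟩
  have hℓN : ¬ ℓ ∣ N := fun h => hℓNp (dvd_mul_of_dvd_left h p)
  have hℓp : ¬ ℓ ∣ p := fun h => hℓNp (dvd_mul_of_dvd_right h N)
  have hi := hin ℓ hℓ hℓNp A hA
  obtain ⟨σ₀, hσ₀⟩ := FA.Deform.exists_isFrobeniusAt hℓ hA
  set red := reductionModL A N with hred
  have hstep : ∀ (i : ℕ) (t : HeckeAlg) (x : JZero N),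
      t • (σ₀ ^ i • x) = σ₀ ^ i • (t • x) := fun i t x => (smul_comm (σ₀ ^ i) t x).symm
  let K : Submodule HeckeAlg (JZero N) :=
    { carrier := {x | ∀ (t : HeckeAlg) (i : ℕ), red (t • (σ₀ ^ i • x)) = 0}
      add_mem' := fun {x y} hx hy t i => by
        rw [smul_add, smul_add, map_add, hx t i, hy t i, add_zero]
      zero_mem' := fun t i => by rw [smul_zero, smul_zero, map_zero]
      smul_mem' := fun c x hx t i => by
        rw [smul_comm (σ₀ ^ i) c x, ← mul_smul]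
        exact hx (t * c) i }
  have hKσ : ∀ x ∈ K, σ₀ • x ∈ K := fun x hx t i => by
    rw [← mul_smul, ← pow_succ]
    exact hx t (i + 1)
  have hinert : ∀ τ ∈ A.inertiaSubgroupIn ℚ, ∀ x : JZero N, τ • x - x ∈ K := by
    intro τ hτ x t i
    have hc := inertia_conj_pow hτ hσ₀.mem_decompositionSubgroup i
    have e : σ₀ ^ i • (τ • x) = (σ₀ ^ i * τ * (σ₀ ^ i)⁻¹) • (σ₀ ^ i • x) := by
      rw [← mul_smul, ← mul_smul, inv_mul_cancel_right]
    rw [smul_sub, smul_sub, map_sub, e, ← smul_comm _ t,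
      reductionModL_inertia N hℓN hA hi hc, sub_self]
  have hrel : ∀ x : JZero N,
      σ₀ • σ₀ • x - heckeGen ⟨ℓ, hℓ⟩ • (σ₀ • x) + ℓ • x ∈ K := by
    intro x t i
    have e : t • (σ₀ ^ i • (σ₀ • σ₀ • x - heckeGen ⟨ℓ, hℓ⟩ • (σ₀ • x) + ℓ • x)) =
        σ₀ • σ₀ • (t • (σ₀ ^ i • x)) - heckeGen ⟨ℓ, hℓ⟩ • (σ₀ • (t • (σ₀ ^ i • x))) +
          ℓ • (t • (σ₀ ^ i • x)) := by
      have hcm : σ₀ ^ i * σ₀ = σ₀ * σ₀ ^ i := (Commute.pow_self σ₀ i).eq
      have h1 : ∀ y : JZero N, σ₀ ^ i • (σ₀ • y) = σ₀ • (σ₀ ^ i • y) := fun y => by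
        rw [← mul_smul, hcm, mul_smul]
      rw [smul_add, smul_sub, smul_add, smul_sub, h1, h1, smul_comm (σ₀ ^ i) (heckeGen _) _, h1,
        ← smul_comm σ₀ t, ← smul_comm σ₀ t, smul_comm t (heckeGen _), ← smul_comm σ₀ t,
        nsmul_gal_pow, ← smul_comm ℓ t]
    rw [e, map_add, map_sub, map_nsmul]
    have hT : red (heckeGen ⟨ℓ, hℓ⟩ • (σ₀ • (t • (σ₀ ^ i • x)))) =
        red (heckeOperatorAlong AQ N ℓ (σ₀ • (t • (σ₀ ^ i • x)))) :=
      congrArg red (heckeModuleBar_heckeGen_smul hcomm ⟨ℓ, hℓ⟩ _)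
    rw [hT, reductionModL_frobenius N hℓN hA hi hσ₀, ← sub_sub, sub_self, zero_sub, neg_add_cancel]
  let F : (JZero N ⧸ K) →+ (JZero N ⧸ K) :=
    QuotientAddGroup.map K.toAddSubgroup K.toAddSubgroup
      (DistribSMul.toAddMonoidHom (JZero N) σ₀) hKσ
  refine ⟨JZero N ⧸ K, inferInstance, inferInstance, K.mkQ.toAddMonoidHom, F,
    { hecke_comm := fun T x => map_smul K.mkQ T x
      inertia_comm := fun τ hτ x => (Submodule.Quotient.eq K).2 (hinert τ hτ x)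
      frobenius_comm := fun σ hσ x => (Submodule.Quotient.eq K).2 ?_
      injective_torsion := ?_ }, ?_⟩
  · have h := hKσ _ (hinert _ (exists_inertia_mul hσ hσ₀) x)
    rwa [smul_sub, ← mul_smul, mul_inv_cancel_left] at h
  · rintro x ⟨n, hn⟩ hx
    have h0 : red x = 0 := by
      have h := (Submodule.Quotient.mk_eq_zero K).1 hx 1 0
      rwa [pow_zero, one_smul, one_smul] at h
    exact eq_zero_of_reductionModL N hℓN hA hi (fun h => hℓp (hℓ.dvd_of_dvd_pow h)) hn h0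
  · intro y
    obtain ⟨x, rfl⟩ := K.mkQ_surjective y
    show K.mkQ (σ₀ • σ₀ • x) - heckeGen ⟨ℓ, hℓ⟩ • K.mkQ (σ₀ • x) + ℓ • K.mkQ x = 0
    rw [← map_smul, ← map_nsmul, ← map_sub, ← map_add]
    exact (Submodule.Quotient.mk_eq_zero K).2 (hrel x)
where
  nsmul_gal_pow {N : ℕ} {m : ℕ} {σ : GQ} {x : JZero N} : σ • (m • x) = m • (σ • x) :=
    (nsmul_gal m σ x).symm

end FA.ModField
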